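/-
P-CFT (helper13): LEVEL SYSTEMS and LEVEL COCHAIN COMPLEXES (Mathlib only).

A level system on a group `G` is a nonempty, downward directed set of normal subgroups of finite
index ("the open normal subgroups").  For `M : Rep k G`, the level cochains
`lvlCochains 𝒰 M n` are the functions `(Fin n → G) → M` that are right-invariant under `N^n` and
take values in `M^N` for some `N ∈ 𝒰`; they form a subcomplex `lvlComplex 𝒰 M` of Mathlib's
`groupCohomology.inhomogeneousCochains M`, functorial in `M` and in `(G, 𝒰)`.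
Its homology `lvlH 𝒰 M n` is the cohomology of the profinite completion of `G` along `𝒰` with
coefficients in the smooth part of `M`.
-/
import Mathlib

set_option autoImplicit false

universe u

open CategoryTheory groupCohomology

namespace Fermat.Agent.H13.Cft

/-- A level system: a nonempty directed family of normal subgroups of finite index. -/
structure LevelSys (G : Type u) [Group G] where
  /-- the "open normal subgroups" -/
  sets : Set (Subgroup G)
  nonempty : sets.Nonempty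
  normal : ∀ N ∈ sets, N.Normal
  finiteIndex : ∀ N ∈ sets, N.FiniteIndex
  directed : ∀ N ∈ sets, ∀ N' ∈ sets, ∃ N'' ∈ sets, N'' ≤ N ⊓ N'

variable {k G : Type u} [CommRing k] [Group G]

/-- `f` is right-invariant under `N^n` and takes values fixed by `N`. -/
def IsLevelAt (N : Subgroup G) (M : Rep.{u} k G) {n : ℕ} (f : (Fin n → G) → M) : Prop :=
  (∀ g u : Fin n → G, (∀ i, u i ∈ N) → f (g * u) = f g) ∧ ∀ g, ∀ s ∈ N, M.ρ s (f g) = f g

lemma IsLevelAt.mono {N N' : Subgroup G} (h : N' ≤ N) {M : Rep.{u} k G} {n : ℕ}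
    {f : (Fin n → G) → M} (hf : IsLevelAt N M f) : IsLevelAt N' M f :=
  ⟨fun g u hu => hf.1 g u fun i => h (hu i), fun g s hs => hf.2 g s (h hs)⟩

lemma IsLevelAt.add {N : Subgroup G} {M : Rep.{u} k G} {n : ℕ}
    {f f' : (Fin n → G) → M} (hf : IsLevelAt N M f) (hf' : IsLevelAt N M f') :
    IsLevelAt N M (f + f') :=
  ⟨fun g u hu => by simp only [Pi.add_apply, hf.1 g u hu, hf'.1 g u hu],
    fun g s hs => by simp only [Pi.add_apply, map_add, hf.2 g s hs, hf'.2 g s hs]⟩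

lemma IsLevelAt.smul {N : Subgroup G} {M : Rep.{u} k G} {n : ℕ}
    {f : (Fin n → G) → M} (c : k) (hf : IsLevelAt N M f) :
    IsLevelAt N M (c • f) :=
  ⟨fun g u hu => by simp only [Pi.smul_apply, hf.1 g u hu],
    fun g s hs => by simp only [Pi.smul_apply, map_smul, hf.2 g s hs]⟩

lemma isLevelAt_zero (N : Subgroup G) (M : Rep.{u} k G) (n : ℕ) :
    IsLevelAt N M (0 : (Fin n → G) → M) :=
  ⟨fun _ _ _ => rfl, fun _ _ _ => by simp⟩

/-- The level `n`-cochains. -/
def lvlCochains (𝒰 : LevelSys G) (M : Rep.{u} k G) (n : ℕ) : Submodule k ((Fin n → G) → M) where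
  carrier := {f | ∃ N ∈ 𝒰.sets, IsLevelAt N M f}
  add_mem' := by
    rintro f f' ⟨N, hN, hf⟩ ⟨N', hN', hf'⟩
    obtain ⟨N'', hN'', hle⟩ := 𝒰.directed N hN N' hN'
    exact ⟨N'', hN'', (hf.mono (hle.trans inf_le_left)).add (hf'.mono (hle.trans inf_le_right))⟩
  zero_mem' := by
    obtain ⟨N, hN⟩ := 𝒰.nonempty
    exact ⟨N, hN, isLevelAt_zero N M n⟩
  smul_mem' := by
    rintro c f ⟨N, hN, hf⟩
    exact ⟨N, hN, hf.smul c⟩

lemma mem_lvlCochains_iff (𝒰 : LevelSys G) (M : Rep.{u} k G) {n : ℕ} (f : (Fin n → G) → M) :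
    f ∈ lvlCochains 𝒰 M n ↔ ∃ N ∈ 𝒰.sets, IsLevelAt N M f := Iff.rfl

/-- Contracting a pointwise product with a tuple in a normal subgroup. -/
lemma exists_contractNth_mul {N : Subgroup G} (hN : N.Normal) {n : ℕ} (j : Fin (n + 1))
    (g u : Fin (n + 1) → G) (hu : ∀ i, u i ∈ N) :
    ∃ u' : Fin n → G, (∀ i, u' i ∈ N) ∧
      Fin.contractNth j (· * ·) (g * u) = Fin.contractNth j (· * ·) g * u' := by
  refine ⟨fun i => (Fin.contractNth j (· * ·) g i)⁻¹ * Fin.contractNth j (· * ·) (g * u) i,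
    fun i => ?_, ?_⟩
  · simp only [Fin.contractNth, Pi.mul_apply]
    split_ifs with h1 h2
    · simpa using hu _
    · have : (g i.castSucc * g i.succ)⁻¹ * (g i.castSucc * u i.castSucc * (g i.succ * u i.succ))
          = ((g i.succ)⁻¹ * u i.castSucc * (g i.succ)⁻¹⁻¹) * u i.succ := by group
      rw [this]
      exact N.mul_mem (hN.conj_mem _ (hu _) _) (hu _)
    · simpa using hu _
  · funext i
    simp

lemma IsLevelAt.d {N : Subgroup G} (hN : N.Normal) {M : Rep.{u} k G} {n : ℕ}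
    {f : (Fin n → G) → M} (hf : IsLevelAt N M f) :
    IsLevelAt N M ((inhomogeneousCochains.d M n).hom f) := by
  refine ⟨fun g u hu => ?_, fun g s hs => ?_⟩
  · simp only [inhomogeneousCochains.d_hom_apply]
    congr 1
    · have h1 : (fun i : Fin n => (g * u) i.succ) = (fun i => g i.succ) * fun i => u i.succ := rfl
      rw [h1, hf.1 _ _ (fun i => hu _), Pi.mul_apply, map_mul]
      exact congrArg _ (hf.2 _ _ (hu 0))
    · refine Finset.sum_congr rfl fun j _ => ?_
      obtain ⟨u', hu', h⟩ := exists_contractNth_mul hN j g u hu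
      rw [h, hf.1 _ _ hu']
  · simp only [inhomogeneousCochains.d_hom_apply, map_add, map_sum, map_smul]
    congr 1
    · have : M.ρ s (M.ρ (g 0) (f fun i => g i.succ))
          = M.ρ (g 0) (M.ρ ((g 0)⁻¹ * s * (g 0)⁻¹⁻¹) (f fun i => g i.succ)) := by
        rw [← Module.End.mul_apply, ← Module.End.mul_apply, ← map_mul, ← map_mul]
        congr 2
        group
      rw [this, hf.2 _ _ (hN.conj_mem _ hs _)]
    · refine Finset.sum_congr rfl fun j _ => ?_
      rw [hf.2 _ _ hs]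

lemma d_mem_lvlCochains (𝒰 : LevelSys G) (M : Rep.{u} k G) {n : ℕ} {f : (Fin n → G) → M}
    (hf : f ∈ lvlCochains 𝒰 M n) :
    (inhomogeneousCochains.d M n).hom f ∈ lvlCochains 𝒰 M (n + 1) := by
  obtain ⟨N, hN, h⟩ := hf
  exact ⟨N, hN, h.d (𝒰.normal N hN)⟩

/-- The differential of the level complex. -/
noncomputable def lvlD (𝒰 : LevelSys G) (M : Rep.{u} k G) (n : ℕ) :
    lvlCochains 𝒰 M n →ₗ[k] lvlCochains 𝒰 M (n + 1) :=
  ((inhomogeneousCochains.d M n).hom.comp (lvlCochains 𝒰 M n).subtype).codRestrict _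
    fun f => d_mem_lvlCochains 𝒰 M f.2

@[simp] lemma lvlD_coe (𝒰 : LevelSys G) (M : Rep.{u} k G) (n : ℕ) (f : lvlCochains 𝒰 M n) :
    ((lvlD 𝒰 M n f : lvlCochains 𝒰 M (n + 1)) : (Fin (n + 1) → G) → M)
      = (inhomogeneousCochains.d M n).hom f.1 := rfl

lemma lvlD_comp_lvlD (𝒰 : LevelSys G) (M : Rep.{u} k G) (n : ℕ) :
    (lvlD 𝒰 M (n + 1)).comp (lvlD 𝒰 M n) = 0 := by
  ext f : 1
  apply Subtype.ext
  have := congrArg (fun φ => (ModuleCat.Hom.hom φ) f.1) (inhomogeneousCochains.d_comp_d n M)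
  simpa using this

/-- The level cochain complex, a subcomplex of `inhomogeneousCochains M`. -/
noncomputable abbrev lvlComplex (𝒰 : LevelSys G) (M : Rep.{u} k G) : CochainComplex (ModuleCat k) ℕ :=
  CochainComplex.of (fun n => ModuleCat.of k (lvlCochains 𝒰 M n))
    (fun n => ModuleCat.ofHom (lvlD 𝒰 M n)) fun n => by
      rw [← ModuleCat.ofHom_comp, lvlD_comp_lvlD]; rfl

/-- Level cohomology `Hⁿ(𝒰, M)`. -/
noncomputable abbrev lvlH (𝒰 : LevelSys G) (M : Rep.{u} k G) (n : ℕ) : ModuleCat k :=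
  (lvlComplex 𝒰 M).homology n

/-- The inclusion of the level complex into all inhomogeneous cochains. -/
noncomputable def lvlComplexι (𝒰 : LevelSys G) (M : Rep.{u} k G) :
    lvlComplex 𝒰 M ⟶ inhomogeneousCochains M where
  f n := ModuleCat.ofHom (lvlCochains 𝒰 M n).subtype
  comm' i j (hij : _ = _) := by
    subst hij
    ext f
    simp [CochainComplex.of.d]

/-- `M` is smooth for `𝒰`: every vector is fixed by some level. -/
def IsSmooth (𝒰 : LevelSys G) (M : Rep.{u} k G) : Prop :=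
  ∀ m : M, ∃ N ∈ 𝒰.sets, ∀ s ∈ N, M.ρ s m = m

/-- `M` is trivialised by a single level (automatic for finite smooth `M`). -/
def IsTrivialisedBy (𝒰 : LevelSys G) (M : Rep.{u} k G) : Prop :=
  ∃ N ∈ 𝒰.sets, ∀ s ∈ N, M.ρ s = 1

lemma IsTrivialisedBy.isSmooth {𝒰 : LevelSys G} {M : Rep.{u} k G} (h : IsTrivialisedBy 𝒰 M) :
    IsSmooth 𝒰 M := by
  obtain ⟨N, hN, h⟩ := h
  exact fun m => ⟨N, hN, fun s hs => by rw [h s hs]; rfl⟩

/-! ### Functoriality -/

/-- Compatibility of a group homomorphism with level systems ("continuity"). -/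
def LevelSys.Compat {H : Type u} [Group H] (𝒱 : LevelSys G) (𝒰 : LevelSys H) (f : G →* H) : Prop :=
  ∀ N ∈ 𝒰.sets, ∃ N' ∈ 𝒱.sets, N' ≤ N.comap f

lemma LevelSys.compat_id (𝒰 : LevelSys G) : 𝒰.Compat 𝒰 (MonoidHom.id G) :=
  fun N hN => ⟨N, hN, le_rfl⟩

section map

variable {H : Type u} [Group H] {𝒱 : LevelSys G} {𝒰 : LevelSys H}
  {A : Rep.{u} k H} {B : Rep.{u} k G} (f : G →* H) (φ : Rep.res f A ⟶ B)

lemma cochainsMap_mem_lvlCochains (hf : 𝒱.Compat 𝒰 f) {n : ℕ} {x : (Fin n → H) → A}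
    (hx : x ∈ lvlCochains 𝒰 A n) :
    ((cochainsMap f φ).f n).hom x ∈ lvlCochains 𝒱 B n := by
  obtain ⟨N, hN, hx⟩ := hx
  obtain ⟨N', hN', hle⟩ := hf N hN
  refine ⟨N', hN', fun g u hu => ?_, fun g s hs => ?_⟩
  · simp only [cochainsMap_f_hom]
    show φ.hom (x (f ∘ (g * u))) = φ.hom (x (f ∘ g))
    have : (f ∘ (g * u)) = (f ∘ g) * (f ∘ u) := by
      funext i; simp
    rw [this]
    exact congrArg _ (hx.1 (f ∘ g) (f ∘ u) fun i => hle (hu i))
  · simp only [cochainsMap_f_hom]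
    show B.ρ s (φ.hom (x (f ∘ g))) = φ.hom (x (f ∘ g))
    have h1 := Rep.hom_comm_apply φ s (x (f ∘ g))
    rw [← h1]
    exact congrArg _ (hx.2 _ _ (hle hs))

/-- The map of level complexes induced by a compatible group homomorphism and a morphism of
representations (restriction of Mathlib's `cochainsMap`). -/
noncomputable def lvlCochainsMap (hf : 𝒱.Compat 𝒰 f) :
    lvlComplex 𝒰 A ⟶ lvlComplex 𝒱 B where
  f n := ModuleCat.ofHom
    ((((cochainsMap f φ).f n).hom.comp (lvlCochains 𝒰 A n).subtype).codRestrict _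
      fun x => cochainsMap_mem_lvlCochains f φ hf x.2)
  comm' i j (hij : _ = _) := by
    subst hij
    ext x : 2
    apply Subtype.ext
    have := congrArg (fun ψ => (ModuleCat.Hom.hom ψ) x.1) ((cochainsMap f φ).comm i (i + 1))
    simp only [CochainComplex.of.d, dif_pos, eqToHom_refl, Category.comp_id, ModuleCat.hom_comp,
      LinearMap.comp_apply] at this
    simp only [CochainComplex.of.d, dif_pos, eqToHom_refl, Category.comp_id, ModuleCat.hom_comp,
      LinearMap.comp_apply]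
    exact this

@[simp] lemma lvlCochainsMap_f_coe (hf : 𝒱.Compat 𝒰 f) (n : ℕ) (x : lvlCochains 𝒰 A n)
    (g : Fin n → G) :
    (((lvlCochainsMap f φ hf).f n).hom x).1 g = φ.hom (x.1 (f ∘ g)) := rfl

end map

/-- Functoriality in the coefficients. -/
noncomputable abbrev lvlMap (𝒰 : LevelSys G) {A B : Rep.{u} k G} (φ : A ⟶ B) :
    lvlComplex 𝒰 A ⟶ lvlComplex 𝒰 B :=
  lvlCochainsMap (MonoidHom.id G) φ 𝒰.compat_id

/-- Restriction along a compatible group homomorphism. -/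
noncomputable abbrev lvlRes {H : Type u} [Group H] {𝒱 : LevelSys G} {𝒰 : LevelSys H}
    (f : G →* H) (hf : 𝒱.Compat 𝒰 f) (A : Rep.{u} k H) :
    lvlComplex 𝒰 A ⟶ lvlComplex 𝒱 (Rep.res f A) :=
  lvlCochainsMap f (𝟙 _) hf

lemma lvlMap_id (𝒰 : LevelSys G) (A : Rep.{u} k G) : lvlMap 𝒰 (𝟙 A) = 𝟙 _ := by
  ext n x : 3
  rfl

lemma lvlMap_comp (𝒰 : LevelSys G) {A B C : Rep.{u} k G} (φ : A ⟶ B) (ψ : B ⟶ C) :
    lvlMap 𝒰 (φ ≫ ψ) = lvlMap 𝒰 φ ≫ lvlMap 𝒰 ψ := by
  ext n x : 3
  rfl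

/-- The level complex as a functor of the coefficients. -/
noncomputable def lvlFunctor (𝒰 : LevelSys G) : Rep.{u} k G ⥤ CochainComplex (ModuleCat k) ℕ where
  obj M := lvlComplex 𝒰 M
  map φ := lvlMap 𝒰 φ
  map_id A := lvlMap_id 𝒰 A
  map_comp φ ψ := lvlMap_comp 𝒰 φ ψ

end Fermat.Agent.H13.Cft
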