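/-
P-CFT (helper13): the ARITHMETIC level systems (prelude language).

* `globalLevelSys S` on `G_ℚ`: normal, finite-index, open subgroups containing every inertia
  subgroup at every place over a prime `q ∉ S`  (= the open normal subgroups of `G_{ℚ,S}`).
* `pullbackLevelSys r` on a group `Γ` with `r : Γ →* G_ℚ`: normal finite-index subgroups
  containing `r⁻¹(F.fixingSubgroup)` for some finite `F/ℚ`  (prelude level-constancy for `r`).
-/
import Fermat.Agent.H13.Cft.Level
import Fermat.Prelude.Def_GroupCohomology_ContinuousUnramified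

set_option autoImplicit false

open CategoryTheory groupCohomology ExtCitation

namespace Fermat.Agent.H13.Cft

/-- The absolute Galois group of `ℚ` (prelude model). -/
abbrev GQ : Type := AlgebraicClosure ℚ ≃ₐ[ℚ] AlgebraicClosure ℚ

/-- Level system of a group over `G_ℚ`: the normal finite-index subgroups that contain the
preimage of the fixing subgroup of a finite extension of `ℚ`. -/
def pullbackLevelSys {Γ : Type} [Group Γ] (r : Γ →* GQ) : LevelSys Γ where
  sets := {N | N.Normal ∧ N.FiniteIndex ∧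
    ∃ F : IntermediateField ℚ (AlgebraicClosure ℚ), FiniteDimensional ℚ F ∧
      F.fixingSubgroup.comap r ≤ N}
  nonempty := ⟨⊤, inferInstance, inferInstance, ⊥, inferInstance, le_top⟩
  normal := fun _ h => h.1
  finiteIndex := fun _ h => h.2.1
  directed := by
    rintro N ⟨hN1, hN2, F, hF, hFN⟩ N' ⟨hN'1, hN'2, F', hF', hF'N⟩
    refine ⟨N ⊓ N', ⟨inferInstance, inferInstance, F ⊔ F', inferInstance, ?_⟩, le_rfl⟩
    rw [IntermediateField.fixingSubgroup_sup, Subgroup.comap_inf]
    exact inf_le_inf hFN hF'N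

/-- The level system of `G_{ℚ,S}` on `G_ℚ`. -/
def globalLevelSys (S : Finset Nat.Primes) : LevelSys GQ where
  sets := {N | N.Normal ∧ N.FiniteIndex ∧
    (∃ F : IntermediateField ℚ (AlgebraicClosure ℚ), FiniteDimensional ℚ F ∧
      F.fixingSubgroup ≤ N) ∧
    ∀ q : Nat.Primes, q ∉ S → ∀ A : ValuationSubring (AlgebraicClosure ℚ),
      A.LiesOverPrime (q : ℕ) → A.inertiaSubgroupIn ℚ ≤ N}
  nonempty := ⟨⊤, inferInstance, inferInstance, ⟨⊥, inferInstance, le_top⟩,
    fun _ _ _ _ => le_top⟩
  normal := fun _ h => h.1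
  finiteIndex := fun _ h => h.2.1
  directed := by
    rintro N ⟨hN1, hN2, ⟨F, hF, hFN⟩, hI⟩ N' ⟨hN'1, hN'2, ⟨F', hF', hF'N⟩, hI'⟩
    refine ⟨N ⊓ N', ⟨inferInstance, inferInstance, ⟨F ⊔ F', inferInstance, ?_⟩, ?_⟩, le_rfl⟩
    · rw [IntermediateField.fixingSubgroup_sup]
      exact inf_le_inf hFN hF'N
    · exact fun q hq A hA => le_inf (hI q hq A hA) (hI' q hq A hA)

/-- Every map to `G_ℚ` is compatible with the global level system. -/
lemma pullback_compat_global (S : Finset Nat.Primes) {Γ : Type} [Group Γ] (r : Γ →* GQ) :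
    (pullbackLevelSys r).Compat (globalLevelSys S) r := by
  rintro N ⟨hN1, hN2, ⟨F, hF, hFN⟩, -⟩
  have := hN1
  refine ⟨N.comap r, ⟨inferInstance, ⟨?_⟩, F, hF, Subgroup.comap_mono hFN⟩, le_rfl⟩
  rw [Subgroup.index_comap]
  intro h
  exact hN2.index_ne_zero (Subgroup.index_eq_zero_of_relIndex_eq_zero h)

end Fermat.Agent.H13.Cft
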