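/-
P-CFT (helper13): ASSEMBLIES (validated composition of the frame interfaces).

* `frameMain`        : dévissage  —  `GlobalBase` ⟹ `DualityP Θ_M` for every good `M`
                       (from `[F-EXT]`, `[F-RETR]` and helper76/helper42's `PermInductionStatement`).
* `s55Core_of_parts` : `S55CoreStatement` from the frame statements, the bridge and the waist.
Together with `Top.s55_of_core` this is the complete reduction of S55 to the interfaces.
-/
import Fermat.Agent.H13.Cft.Interfaces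
import Fermat.Agent.H76.Cft.Interfaces

set_option autoImplicit false

open CategoryTheory groupCohomology ExtCitation

namespace Fermat.Agent.H13.Cft

/-- A level character with values in `(ZMod p)ˣ` is trivial on every subgroup `U ⊇ N` with
`U/N` a `p`-group, if it is trivial on the normal subgroup `N`. -/
lemma char_trivial_of_pgroup {p : ℕ} [Fact p.Prime] {G : Type} [Group G]
    (χ : G →* (ZMod p)ˣ) (N : Subgroup G) [N.Normal] (hN : ∀ s ∈ N, χ s = 1)
    (U : Subgroup G) {n : ℕ} (hidx : (N.subgroupOf U).index = p ^ n) :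
    ∀ u ∈ U, χ u = 1 := by
  intro u hu
  have h1 : (⟨u, hu⟩ : U) ^ (N.subgroupOf U).index ∈ N.subgroupOf U :=
    Subgroup.pow_index_mem _ _
  rw [hidx] at h1
  have h2 : u ^ (p ^ n) ∈ N := by
    simpa [Subgroup.mem_subgroupOf] using h1
  have h3 : χ u ^ (p ^ n) = 1 := by rw [← map_pow]; exact hN _ h2
  have h4 : χ u ^ (p - 1) = 1 := ZMod.units_pow_card_sub_one_eq_one p (χ u)
  have hcop : Nat.Coprime (p ^ n) (p - 1) := by
    apply Nat.Coprime.pow_left
    have hp : p.Prime := Fact.out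
    exact (Nat.Prime.coprime_iff_not_dvd hp).2 (fun h => by
      have := Nat.le_of_dvd (Nat.sub_pos_of_lt hp.one_lt) h
      have := hp.one_lt
      omega)
  have h5 : orderOf (χ u) ∣ Nat.gcd (p ^ n) (p - 1) :=
    Nat.dvd_gcd (orderOf_dvd_of_pow_eq_one h3) (orderOf_dvd_of_pow_eq_one h4)
  rw [hcop] at h5
  exact orderOf_eq_one_iff.1 (Nat.dvd_one.1 h5)

/-- **Dévissage.** -/
theorem frameMain (hperm : Fermat.Agent.H76.Cft.PermInductionStatement)
    (hext : ExtClosedStatement.{0}) (hretr : RetractClosedStatement.{0})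
    {p : ℕ} [Fact p.Prime] {G : Type} [Group G] (𝔄 : ArithDatum (ZMod p) G) (T : Trace 𝔄)
    (hc : ∀ M : Rep (ZMod p) G, ThetaComm M T) (hbase : GlobalBase 𝔄 T hc)
    (M : Rep (ZMod p) G) (hM : IsGood 𝔄 M) : DualityP (thetaHom M T (hc M)) := by
  obtain ⟨hfin, N₁, hN₁, htriv⟩ := hM
  obtain ⟨N₂, hN₂, hχ⟩ := 𝔄.χ_level
  obtain ⟨N, hN, hle⟩ := 𝔄.lvl.directed N₁ hN₁ N₂ hN₂
  have := 𝔄.lvl.normal N hN
  have := 𝔄.lvl.finiteIndex N hN
  refine hperm p G N (fun M => DualityP (thetaHom M T (hc M))) ?_ ?_ ?_ ?_ M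
    ⟨hfin, fun n hn => htriv n (hle.trans inf_le_left hn)⟩
  · rintro M M' ⟨e⟩ hM
    exact hretr 𝔄 T hc M' M e.inv e.hom e.inv_hom_id hM
  · intro X hX hgood h1 h3
    exact hext 𝔄 T hc X hX ⟨hgood.1, N, hN, hgood.2⟩ h1 h3
  · intro M M' i r hir _ hM'
    exact hretr 𝔄 T hc M M' i r hir hM'
  · rintro U hNU hcop ⟨n, hn⟩
    exact hbase U ⟨N, hN, hNU⟩ hcop
      (char_trivial_of_pgroup 𝔄.χ N (fun s hs => hχ s (hle.trans inf_le_right hs)) U hn)

/-- The dual twist of a good module is good. -/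
lemma IsGood.dualTwist {k G : Type} [Field k] [Group G] {𝔄 : ArithDatum k G} {M : Rep k G}
    (hM : IsGood 𝔄 M) : IsGood 𝔄 (M.dualTwist 𝔄.χ) := by
  obtain ⟨hfin, N₁, hN₁, htriv⟩ := hM
  obtain ⟨N₂, hN₂, hχ⟩ := 𝔄.χ_level
  obtain ⟨N, hN, hle⟩ := 𝔄.lvl.directed N₁ hN₁ N₂ hN₂
  refine ⟨?_, N, hN, fun s hs => ?_⟩
  · have := hfin
    exact inferInstanceAs (Module.Finite k (Module.Dual k M))
  · ext f : 1
    have h1 : M.ρ s⁻¹ = 1 := htriv _ (N₁.inv_mem (hle.trans inf_le_left hs))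
    have h2 : 𝔄.χ s = 1 := hχ s (hle.trans inf_le_right hs)
    rw [Rep.dualTwist_ρ_apply, h1, h2]
    simp only [Units.val_one, one_smul]
    rfl

/-- **Reduction of the S55 core to the frame interfaces, the bridge and the waist.** -/
theorem s55Core_of_parts (hcyc : CycloLevelStatement) (hadm : AdmStatement)
    (hbridge : BridgeStatement) (hcomm : ThetaCommStatement.{0})
    (hext : ExtClosedStatement.{0}) (hretr : RetractClosedStatement.{0})
    (hperm : Fermat.Agent.H76.Cft.PermInductionStatement)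
    (hcore : FrameCoreStatement.{0}) (hwaist : WaistStatement) : S55CoreStatement := by
  intro p _ hp2 S hpS M _ hsm hMur
  have hχ := hcyc p S hpS
  have hc : ∀ (T : Trace (arithDatumQ p S hχ)) (M : Rep (ZMod p) GQ), ThetaComm M T :=
    fun T M => hcomm (arithDatumQ p S hχ) T M
  obtain ⟨T, hbase, hloc⟩ := hwaist p hp2 S hpS hχ hc
  have hM : IsGood (arithDatumQ p S hχ) M := ⟨inferInstance, hadm p S M hsm hMur⟩
  have hP := frameMain hperm hext hretr (arithDatumQ p S hχ) T (hc T) hbase M hM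
  obtain ⟨X, iX, jX, π, Θ, hr, hs, hk⟩ := hcore (arithDatumQ p S hχ) T (hc T) M hM hP (hloc M hM)
  obtain ⟨e₂, he₂⟩ := (hbridge p hp2 S hχ M hM).1
  obtain ⟨e₁⟩ := (hbridge p hp2 S hχ _ hM.dualTwist).2
  refine ⟨X, iX, jX, e₂.toLinearMap ∘ₗ π, e₁.symm.dualMap.toLinearMap ∘ₗ Θ, ?_, ?_, ?_⟩
  · exact (LinearMap.range_comp π e₂.toLinearMap).trans (by rw [hr]; exact he₂)
  · exact e₁.symm.dualMap.surjective.comp hs
  · ext x
    have h1 : x ∈ LinearMap.ker π ↔ x ∈ LinearMap.ker Θ := by rw [hk]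
    simp only [LinearMap.mem_ker] at h1
    simp only [LinearMap.mem_ker, LinearMap.comp_apply, LinearEquiv.coe_coe,
      LinearEquiv.map_eq_zero_iff]
    refine h1.trans ?_
    exact (LinearEquiv.map_eq_zero_iff e₁.symm.dualMap).symm

end Fermat.Agent.H13.Cft
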