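/-
P-CFT (helper13): CUP PRODUCTS on level cochains (Mathlib + prelude `Rep.dualTwist`).

`cupFn β i j a y (g₁,…,g_{i+j}) = β (a (g₁,…,g_i)) (g₁⋯g_i • y (g_{i+1},…,g_{i+j}))`
for an equivariant pairing `β : A × B → C`; `cupLvl` is its restriction to level cochains.
`evPairing χ M : M × M^*(χ) → k(χ)` is the evaluation pairing, `muRep χ = k(χ)`.
-/
import Fermat.Agent.H13.Cft.Level
import Fermat.Prelude.Def_GroupCohomology_Selmer

set_option autoImplicit false
universe u
open CategoryTheory groupCohomology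

namespace Fermat.Agent.H13.Cft

variable {k G : Type u} [CommRing k] [Group G]

/-- An equivariant bilinear pairing of representations `A × B → C`. -/
structure RepPairing (A B C : Rep.{u} k G) where
  /-- the bilinear map -/
  toLin : A →ₗ[k] B →ₗ[k] C
  equivariant : ∀ (g : G) (a : A) (b : B), toLin (A.ρ g a) (B.ρ g b) = C.ρ g (toLin a b)

/-- The ordered product of the first `i` entries of a tuple. -/
def headProd {i j : ℕ} (g : Fin (i + j) → G) : G :=
  (List.ofFn fun t : Fin i => g (Fin.castAdd j t)).prod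

/-- The cup product of inhomogeneous cochains along a pairing:
`(a ∪ y)(g₁,…,g_{i+j}) = β (a (g₁,…,g_i)) (g₁⋯g_i • y (g_{i+1},…,g_{i+j}))`. -/
def cupFn {A B C : Rep.{u} k G} (β : RepPairing A B C) (i j : ℕ)
    (a : (Fin i → G) → A) (y : (Fin j → G) → B) : (Fin (i + j) → G) → C :=
  fun g => β.toLin (a fun t => g (Fin.castAdd j t))
    (B.ρ (headProd (i := i) (j := j) g) (y fun t => g (Fin.natAdd i t)))

lemma exists_listProd_mul {N : Subgroup G} (hN : N.Normal) :
    ∀ (i : ℕ) (f v : Fin i → G), (∀ t, v t ∈ N) →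
      ∃ w ∈ N, (List.ofFn (f * v)).prod = (List.ofFn f).prod * w := by
  intro i
  induction i with
  | zero => intro f v _; exact ⟨1, N.one_mem, by simp⟩
  | succ i ih =>
    intro f v hv
    obtain ⟨w, hw, h⟩ := ih (fun t => f t.succ) (fun t => v t.succ) (fun t => hv _)
    refine ⟨((List.ofFn fun t : Fin i => f t.succ).prod)⁻¹ * v 0
        * ((List.ofFn fun t : Fin i => f t.succ).prod)⁻¹⁻¹ * w,
      N.mul_mem (hN.conj_mem _ (hv 0) _) hw, ?_⟩
    rw [List.ofFn_succ, List.prod_cons, List.ofFn_succ, List.prod_cons]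
    have h' : (List.ofFn fun t : Fin i => (f * v) t.succ).prod
        = (List.ofFn fun t : Fin i => f t.succ).prod * w := h
    rw [h']
    simp only [Pi.mul_apply]
    group

lemma IsLevelAt.cupFn {A B C : Rep.{u} k G} (β : RepPairing A B C) {N : Subgroup G}
    (hN : N.Normal) {i j : ℕ} {a : (Fin i → G) → A} {y : (Fin j → G) → B}
    (ha : IsLevelAt N A a) (hy : IsLevelAt N B y) :
    IsLevelAt N C (cupFn β i j a y) := by
  refine ⟨fun g u hu => ?_, fun g s hs => ?_⟩
  · unfold Fermat.Agent.H13.Cft.cupFn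
    have h1 : (fun t => (g * u) (Fin.castAdd j t))
        = (fun t => g (Fin.castAdd j t)) * fun t => u (Fin.castAdd j t) := rfl
    have h2 : (fun t => (g * u) (Fin.natAdd i t))
        = (fun t => g (Fin.natAdd i t)) * fun t => u (Fin.natAdd i t) := rfl
    obtain ⟨w, hw, h3⟩ := exists_listProd_mul hN i (fun t => g (Fin.castAdd j t))
      (fun t => u (Fin.castAdd j t)) (fun t => hu _)
    have h3' : headProd (i := i) (j := j) (g * u) = headProd (i := i) (j := j) g * w := h3
    rw [h1, h2, ha.1 _ _ (fun t => hu _), hy.1 _ _ (fun t => hu _), h3', map_mul]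
    exact congrArg _ (congrArg _ (hy.2 _ _ hw))
  · unfold Fermat.Agent.H13.Cft.cupFn
    rw [← β.equivariant, ha.2 _ _ hs]
    congr 1
    have : ∀ (P : G) (b : B), B.ρ s (B.ρ P b) = B.ρ P (B.ρ (P⁻¹ * s * P⁻¹⁻¹) b) := by
      intro P b
      rw [← Module.End.mul_apply, ← Module.End.mul_apply, ← map_mul, ← map_mul]
      congr 2
      group
    rw [this, hy.2 _ _ (hN.conj_mem _ hs _)]

lemma cupFn_mem {𝒰 : LevelSys G} {A B C : Rep.{u} k G} (β : RepPairing A B C) {i j : ℕ}
    {a : (Fin i → G) → A} {y : (Fin j → G) → B}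
    (ha : a ∈ lvlCochains 𝒰 A i) (hy : y ∈ lvlCochains 𝒰 B j) :
    cupFn β i j a y ∈ lvlCochains 𝒰 C (i + j) := by
  obtain ⟨N, hN, ha⟩ := ha
  obtain ⟨N', hN', hy⟩ := hy
  obtain ⟨N'', hN'', hle⟩ := 𝒰.directed N hN N' hN'
  exact ⟨N'', hN'', IsLevelAt.cupFn β (𝒰.normal N'' hN'') (ha.mono (hle.trans inf_le_left))
    (hy.mono (hle.trans inf_le_right))⟩

/-- The cup product on level cochains. -/
noncomputable def cupLvl (𝒰 : LevelSys G) {A B C : Rep.{u} k G} (β : RepPairing A B C)
    (i j : ℕ) : lvlCochains 𝒰 A i →ₗ[k] lvlCochains 𝒰 B j →ₗ[k] lvlCochains 𝒰 C (i + j) :=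
  LinearMap.mk₂ k (fun a y => ⟨cupFn β i j a.1 y.1, cupFn_mem β a.2 y.2⟩)
    (fun a a' y => by
      apply Subtype.ext; funext g
      simp [cupFn])
    (fun c a y => by
      apply Subtype.ext; funext g
      simp [cupFn])
    (fun a y y' => by
      apply Subtype.ext; funext g
      simp [cupFn])
    (fun c a y => by
      apply Subtype.ext; funext g
      simp [cupFn])

@[simp] lemma cupLvl_apply (𝒰 : LevelSys G) {A B C : Rep.{u} k G} (β : RepPairing A B C)
    (i j : ℕ) (a : lvlCochains 𝒰 A i) (y : lvlCochains 𝒰 B j) (g : Fin (i + j) → G) :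
    (cupLvl 𝒰 β i j a y).1 g = β.toLin (a.1 fun t => g (Fin.castAdd j t))
      (B.ρ (headProd (i := i) (j := j) g) (y.1 fun t => g (Fin.natAdd i t))) := rfl

/-- Restriction of a pairing along a group homomorphism. -/
def RepPairing.res {H : Type u} [Group H] (f : H →* G) {A B C : Rep.{u} k G}
    (β : RepPairing A B C) : RepPairing (Rep.res f A) (Rep.res f B) (Rep.res f C) where
  toLin := β.toLin
  equivariant := fun h a b => β.equivariant (f h) a b

/-- The coefficient module `μ = k(χ)`. -/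
noncomputable abbrev muRep (χ : G →* kˣ) : Rep.{u} k G :=
  Rep.of ((Representation.trivial k G k).twist χ)

/-- The evaluation pairing `M × M^*(χ) → k(χ)`. -/
noncomputable def evPairing (χ : G →* kˣ) (M : Rep.{u} k G) :
    RepPairing M (M.dualTwist χ) (muRep χ) where
  toLin := Module.Dual.eval k M
  equivariant := fun g m f => by
    show ((M.dualTwist χ).ρ g f) (M.ρ g m) = (χ g : k) • f m
    rw [Rep.dualTwist_ρ_apply]
    simp

end Fermat.Agent.H13.Cft
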