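/-
P-CFT (helper13): generic homological algebra for the frame (Mathlib only).

* `coneShift φ`  : for `φ : K ⟶ L` (cochain complexes of `k`-modules indexed by `ℕ`) the complex
  `C^n = K^n × L^(n-1)`, `d (a, b) = (d a, φ a - d b)`  (= mapping cone shifted by `-1`; this is
  the "compact support" complex when `φ` is the total localisation map).
* `dualCx K`     : the `k`-dual of `K` in degrees `≤ 3`, reindexed by `n ↦ 3 - n`, no signs:
  `D^n = Dual (K^(3-n))`, `d ξ = ξ ∘ d`.
* `DualityP f`   : `H¹(f)` epi, `H²(f)` iso, `H³(f)` mono.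
-/
import Mathlib

set_option autoImplicit false

universe u

open CategoryTheory

namespace Fermat.Agent.H13.Cft

variable {k : Type u} [CommRing k]

section cone

variable {K L : CochainComplex (ModuleCat.{u} k) ℕ} (φ : K ⟶ L)

/-- Objects of the shifted cone. -/
def coneX (K L : CochainComplex (ModuleCat.{u} k) ℕ) : ℕ → ModuleCat.{u} k
  | 0 => K.X 0
  | n + 1 => ModuleCat.of k (K.X (n + 1) × L.X n)

/-- Differential of the shifted cone. -/
noncomputable def coneD : ∀ n, coneX K L n ⟶ coneX K L (n + 1)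
  | 0 => ModuleCat.ofHom (LinearMap.prod (K.d 0 1).hom (φ.f 0).hom)
  | n + 1 => ModuleCat.ofHom
      (LinearMap.prod ((K.d (n + 1) (n + 2)).hom ∘ₗ LinearMap.fst k (K.X (n + 1)) (L.X n))
        ((φ.f (n + 1)).hom ∘ₗ LinearMap.fst k (K.X (n + 1)) (L.X n)
          - (L.d n (n + 1)).hom ∘ₗ LinearMap.snd k (K.X (n + 1)) (L.X n)))

lemma coneD_zero_apply (a : K.X 0) :
    (coneD φ 0).hom a = ((K.d 0 1).hom a, (φ.f 0).hom a) := rfl

lemma coneD_succ_apply (n : ℕ) (a : K.X (n + 1)) (b : L.X n) :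
    (coneD φ (n + 1)).hom (a, b)
      = ((K.d (n + 1) (n + 2)).hom a, (φ.f (n + 1)).hom a - (L.d n (n + 1)).hom b) := rfl

lemma coneD_comp_coneD (n : ℕ) : coneD φ n ≫ coneD φ (n + 1) = 0 := by
  have hK : ∀ (i : ℕ) (a : K.X i), (K.d (i + 1) (i + 2)).hom ((K.d i (i + 1)).hom a) = 0 := by
    intro i a
    have := LinearMap.congr_fun (congrArg ModuleCat.Hom.hom (K.d_comp_d i (i + 1) (i + 2))) a
    exact this
  have hL : ∀ (i : ℕ) (b : L.X i), (L.d (i + 1) (i + 2)).hom ((L.d i (i + 1)).hom b) = 0 := by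
    intro i b
    have := LinearMap.congr_fun (congrArg ModuleCat.Hom.hom (L.d_comp_d i (i + 1) (i + 2))) b
    exact this
  have hφ : ∀ (i : ℕ) (a : K.X i),
      (φ.f (i + 1)).hom ((K.d i (i + 1)).hom a) = (L.d i (i + 1)).hom ((φ.f i).hom a) := by
    intro i a
    have := LinearMap.congr_fun (congrArg ModuleCat.Hom.hom (φ.comm i (i + 1))) a
    exact this.symm
  cases n with
  | zero =>
    have h0 : ∀ a : K.X 0, (coneD φ 1).hom ((coneD φ 0).hom a) = 0 := by
      intro a
      rw [coneD_zero_apply, coneD_succ_apply, hK, hφ, sub_self]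
      rfl
    ext a : 2
    exact h0 a
  | succ n =>
    have h1 : ∀ (a : K.X (n + 1)) (b : L.X n),
        (coneD φ (n + 2)).hom ((coneD φ (n + 1)).hom (a, b)) = 0 := by
      intro a b
      rw [coneD_succ_apply, coneD_succ_apply, hK, map_sub, hL, hφ, sub_zero, sub_self]
      rfl
    ext x : 2
    exact h1 x.1 x.2

/-- The shifted mapping cone `C^n = K^n × L^(n-1)`. -/
noncomputable def coneShift : CochainComplex (ModuleCat.{u} k) ℕ :=
  CochainComplex.of (coneX K L) (coneD φ) (coneD_comp_coneD φ)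

end cone

section dual

variable (K : CochainComplex (ModuleCat.{u} k) ℕ)

/-- Objects of the dual complex (top degree `3`). -/
def dualX : ℕ → ModuleCat.{u} k
  | 0 => ModuleCat.of k (Module.Dual k (K.X 3))
  | 1 => ModuleCat.of k (Module.Dual k (K.X 2))
  | 2 => ModuleCat.of k (Module.Dual k (K.X 1))
  | 3 => ModuleCat.of k (Module.Dual k (K.X 0))
  | _ + 4 => ModuleCat.of k PUnit

/-- Differential of the dual complex: the transpose of `d`. -/
noncomputable def dualD : ∀ n, dualX K n ⟶ dualX K (n + 1)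
  | 0 => ModuleCat.ofHom (Module.Dual.transpose (K.d 2 3).hom)
  | 1 => ModuleCat.ofHom (Module.Dual.transpose (K.d 1 2).hom)
  | 2 => ModuleCat.ofHom (Module.Dual.transpose (K.d 0 1).hom)
  | _ + 3 => 0

lemma dualD_comp_dualD (n : ℕ) : dualD K n ≫ dualD K (n + 1) = 0 := by
  have hK : ∀ (i : ℕ) (a : K.X i), (K.d (i + 1) (i + 2)).hom ((K.d i (i + 1)).hom a) = 0 := by
    intro i a
    have := LinearMap.congr_fun (congrArg ModuleCat.Hom.hom (K.d_comp_d i (i + 1) (i + 2))) a
    exact this
  match n with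
  | 0 =>
    have h0 : ∀ ξ : Module.Dual k (K.X 3), (dualD K 1).hom ((dualD K 0).hom ξ) = 0 := by
      intro ξ
      refine LinearMap.ext fun a => ?_
      show ξ ((K.d 2 3).hom ((K.d 1 2).hom a)) = 0
      rw [hK 1 a, map_zero]
    ext ξ : 2
    exact h0 ξ
  | 1 =>
    have h1 : ∀ ξ : Module.Dual k (K.X 2), (dualD K 2).hom ((dualD K 1).hom ξ) = 0 := by
      intro ξ
      refine LinearMap.ext fun a => ?_
      show ξ ((K.d 1 2).hom ((K.d 0 1).hom a)) = 0
      rw [hK 0 a, map_zero]
    ext ξ : 2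
    exact h1 ξ
  | 2 => exact Limits.comp_zero
  | _ + 3 => exact Limits.comp_zero

/-- The dual complex `D^n = Dual (K^(3-n))` (`0` for `n ≥ 4`), differential = transpose. -/
noncomputable def dualCx : CochainComplex (ModuleCat.{u} k) ℕ :=
  CochainComplex.of (dualX K) (dualD K) (dualD_comp_dualD K)

end dual

/-- The inductive duality property of a morphism of complexes:
`H¹` epi, `H²` iso, `H³` mono. -/
def DualityP {K L : CochainComplex (ModuleCat.{u} k) ℕ} (f : K ⟶ L) : Prop :=
  Epi (HomologicalComplex.homologyMap f 1) ∧ IsIso (HomologicalComplex.homologyMap f 2) ∧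
    Mono (HomologicalComplex.homologyMap f 3)

end Fermat.Agent.H13.Cft
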