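/-
P-CFT (helper13): ARITHMETIC DATA and the COMPACT-SUPPORT complex.

An `ArithDatum k G` is a level system on `G` ("`G_S`"), a level character `χ : G →* kˣ`
("cyclotomic character") and finitely many local groups `Γ v →* G` with level systems
("decomposition groups at the finite places of `S`").
`ccComplex 𝔄 M` = `coneShift` of the total localisation map
`C(G, M) → ∏ v, C(Γ v, M)`:  `C_c^n = C^n(G, M) × ∏ v, C^(n-1)(Γ v, M)`.
-/
import Fermat.Agent.H13.Cft.Level
import Fermat.Agent.H13.Cft.Homological

set_option autoImplicit false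

universe u

open CategoryTheory groupCohomology

namespace Fermat.Agent.H13.Cft

/-- Arithmetic datum: global group with level system and level character, finitely many local
groups with compatible level systems. -/
structure ArithDatum (k : Type u) [CommRing k] (G : Type u) [Group G] where
  /-- the global level system -/
  lvl : LevelSys G
  /-- the "cyclotomic" character -/
  χ : G →* kˣ
  χ_level : ∃ N ∈ lvl.sets, ∀ s ∈ N, χ s = 1
  /-- the (finite) places -/
  ι : Type u
  [fintype : Fintype ι]
  /-- the local groups -/
  Γ : ι → Type u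
  [group : ∀ v, Group (Γ v)]
  /-- the local level systems -/
  lvlv : ∀ v, LevelSys (Γ v)
  /-- the localisation maps -/
  loc : ∀ v, Γ v →* G
  compat : ∀ v, (lvlv v).Compat lvl (loc v)

attribute [instance] ArithDatum.fintype ArithDatum.group

variable {k G : Type u} [CommRing k] [Group G] (𝔄 : ArithDatum k G)

/-- The product of the local level complexes. -/
noncomputable def locComplex (M : Rep.{u} k G) : CochainComplex (ModuleCat.{u} k) ℕ :=
  CochainComplex.of
    (fun n => ModuleCat.of k (∀ v, lvlCochains (𝔄.lvlv v) (Rep.res (𝔄.loc v) M) n))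
    (fun n => ModuleCat.ofHom (LinearMap.pi fun v =>
      lvlD (𝔄.lvlv v) (Rep.res (𝔄.loc v) M) n ∘ₗ LinearMap.proj v))
    (fun n => by
      ext x : 2
      funext v
      exact LinearMap.congr_fun (lvlD_comp_lvlD (𝔄.lvlv v) (Rep.res (𝔄.loc v) M) n) (x v))

/-- The total localisation map `C(G, M) ⟶ ∏ v, C(Γ v, M)`. -/
noncomputable def resTot (M : Rep.{u} k G) : lvlComplex 𝔄.lvl M ⟶ locComplex 𝔄 M where
  f n := ModuleCat.ofHom (LinearMap.pi fun v => ((lvlRes (𝔄.loc v) (𝔄.compat v) M).f n).hom)
  comm' i j (hij : _ = _) := by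
    subst hij
    ext x : 2
    funext v
    have := LinearMap.congr_fun
      (congrArg ModuleCat.Hom.hom ((lvlRes (𝔄.loc v) (𝔄.compat v) M).comm i (i + 1))) x
    simp only [CochainComplex.of.d, dif_pos, eqToHom_refl, Category.comp_id, ModuleCat.hom_comp,
      LinearMap.comp_apply] at this
    simp only [locComplex, CochainComplex.of.d, dif_pos, eqToHom_refl, Category.comp_id,
      ModuleCat.hom_comp, LinearMap.comp_apply]
    exact this

/-- The compact-support complex `C_c^n = C^n(G, M) × ∏ v, C^(n-1)(Γ v, M)`,
`d (a, b) = (d a, res a - d b)`. -/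
noncomputable def ccComplex (M : Rep.{u} k G) : CochainComplex (ModuleCat.{u} k) ℕ :=
  coneShift (resTot 𝔄 M)

/-- Compact-support cohomology. -/
noncomputable abbrev ccH (M : Rep.{u} k G) (n : ℕ) : ModuleCat.{u} k :=
  (ccComplex 𝔄 M).homology n

end Fermat.Agent.H13.Cft
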