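/-
P-CFT (helper13): the DUALITY MAP `Θ : C_c(M) ⟶ dualCx (C(M^*(χ)))` attached to a trace.

`Trace 𝔄`  : a linear form `τ` on `C_c³(k(χ))` with `τ ∘ d = 0`.
`Θⁿ x y = εₙ τ (x ∪ y)`, `ε = (1, -1, -1, 1)`; `ThetaComm M T` says that `Θ` is a morphism of
complexes (Leibniz rule + `τ ∘ d = 0`), `thetaHom M T h` is the morphism.
-/
import Fermat.Agent.H13.Cft.Datum
import Fermat.Agent.H13.Cft.Cup

set_option autoImplicit false
universe u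
open CategoryTheory groupCohomology

namespace Fermat.Agent.H13.Cft

variable {k G : Type u} [CommRing k] [Group G]

section theta


variable (𝔄 : ArithDatum k G) (M : Rep.{u} k G)

/-- `C_c^(n+1)` as an explicit product. -/
abbrev CcProd (n : ℕ) : Type u :=
  lvlCochains 𝔄.lvl M (n + 1) × ∀ v, lvlCochains (𝔄.lvlv v) (Rep.res (𝔄.loc v) M) n

/-- The identification `C_c^(n+1) = C^(n+1)(G, M) × ∏ v, C^n(Γ v, M)` (definitional). -/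
noncomputable def ccMk (n : ℕ) : CcProd 𝔄 M n →ₗ[k] (ccComplex 𝔄 M).X (n + 1) :=
  LinearMap.id

/-- The inverse identification. -/
noncomputable def ccOut (n : ℕ) : (ccComplex 𝔄 M).X (n + 1) →ₗ[k] CcProd 𝔄 M n :=
  LinearMap.id

/-- Restriction of level cochains to the local group at `v`. -/
noncomputable def locRes (v : 𝔄.ι) (n : ℕ) :
    lvlCochains 𝔄.lvl M n →ₗ[k] lvlCochains (𝔄.lvlv v) (Rep.res (𝔄.loc v) M) n :=
  ((lvlRes (𝔄.loc v) (𝔄.compat v) M).f n).hom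

/-- The cup product `C_c^(i+1)(M) × C^j(M^*(χ)) → C_c^(i+1+j)(k(χ))`,
`(a, b) ∪ y = (a ∪ y, (b_v ∪ res_v y)_v)`. -/
noncomputable def ccCup (i j : ℕ) :
    CcProd 𝔄 M i →ₗ[k] lvlCochains 𝔄.lvl (M.dualTwist 𝔄.χ) j →ₗ[k]
      (lvlCochains 𝔄.lvl (muRep 𝔄.χ) (i + 1 + j) ×
        ∀ v, lvlCochains (𝔄.lvlv v) (Rep.res (𝔄.loc v) (muRep 𝔄.χ)) (i + j)) :=
  LinearMap.mk₂ k
    (fun x y => (cupLvl 𝔄.lvl (evPairing 𝔄.χ M) (i + 1) j x.1 y,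
      fun v => cupLvl (𝔄.lvlv v) ((evPairing 𝔄.χ M).res (𝔄.loc v)) i j (x.2 v)
        (locRes 𝔄 (M.dualTwist 𝔄.χ) v j y)))
    (fun x x' y => by ext <;> simp)
    (fun c x y => by ext <;> simp)
    (fun x y y' => by ext <;> simp)
    (fun c x y => by ext <;> simp)

/-- A trace: a linear form on `C_c^3(k(χ))` vanishing on coboundaries. -/
structure Trace where
  /-- the linear form -/
  τ : CcProd 𝔄 (muRep 𝔄.χ) 2 →ₗ[k] k
  τ_d : ∀ x : (ccComplex 𝔄 (muRep 𝔄.χ)).X 2,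
    τ (ccOut 𝔄 (muRep 𝔄.χ) 2 (((ccComplex 𝔄 (muRep 𝔄.χ)).d 2 3).hom x)) = 0

variable {𝔄} in
/-- `Θ⁰ : C_c⁰(M) = C⁰(G, M) → Dual C³(G, M^*(χ))`, `Θ⁰ a y = τ (a ∪ y, 0)`. -/
noncomputable def theta0 (T : Trace 𝔄) :
    lvlCochains 𝔄.lvl M 0 →ₗ[k] Module.Dual k (lvlCochains 𝔄.lvl (M.dualTwist 𝔄.χ) 3) :=
  LinearMap.mk₂ k
    (fun a y => T.τ (cupLvl 𝔄.lvl (evPairing 𝔄.χ M) 0 3 a y, 0))
    (fun a a' y => by rw [← map_add]; congr 1; ext <;> simp)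
    (fun c a y => by rw [← map_smul]; congr 1; ext <;> simp)
    (fun a y y' => by rw [← map_add]; congr 1; ext <;> simp)
    (fun c a y => by rw [← map_smul]; congr 1; ext <;> simp)

variable {𝔄} in
/-- `Θ¹ (a, b) y = - τ ((a, b) ∪ y)` for `(a, b) ∈ C_c¹(M)`, `y ∈ C²(M^*(χ))`. -/
noncomputable def theta1 (T : Trace 𝔄) :
    CcProd 𝔄 M 0 →ₗ[k] Module.Dual k (lvlCochains 𝔄.lvl (M.dualTwist 𝔄.χ) 2) :=
  - (ccCup 𝔄 M 0 2).compr₂ T.τ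

variable {𝔄} in
/-- `Θ² (a, b) y = - τ ((a, b) ∪ y)` for `(a, b) ∈ C_c²(M)`, `y ∈ C¹(M^*(χ))`. -/
noncomputable def theta2 (T : Trace 𝔄) :
    CcProd 𝔄 M 1 →ₗ[k] Module.Dual k (lvlCochains 𝔄.lvl (M.dualTwist 𝔄.χ) 1) :=
  - (ccCup 𝔄 M 1 1).compr₂ T.τ

variable {𝔄} in
/-- `Θ³ (a, b) y = τ ((a, b) ∪ y)` for `(a, b) ∈ C_c³(M)`, `y ∈ C⁰(M^*(χ))`. -/
noncomputable def theta3 (T : Trace 𝔄) :
    CcProd 𝔄 M 2 →ₗ[k] Module.Dual k (lvlCochains 𝔄.lvl (M.dualTwist 𝔄.χ) 0) :=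
  (ccCup 𝔄 M 2 0).compr₂ T.τ

variable {𝔄} in
/-- The components of the duality map `Θ : C_c(M) ⟶ dualCx (C(M^*(χ)))`. -/
noncomputable def thetaF (T : Trace 𝔄) :
    ∀ n, (ccComplex 𝔄 M).X n ⟶ (dualCx (lvlComplex 𝔄.lvl (M.dualTwist 𝔄.χ))).X n
  | 0 => ModuleCat.ofHom (theta0 M T)
  | 1 => ModuleCat.ofHom (theta1 M T)
  | 2 => ModuleCat.ofHom (theta2 M T)
  | 3 => ModuleCat.ofHom (theta3 M T)
  | _ + 4 => 0

variable {𝔄} in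
/-- `Θ` commutes with the differentials (follows from `τ ∘ d = 0` and the Leibniz rule). -/
def ThetaComm (T : Trace 𝔄) : Prop :=
  ∀ n, thetaF M T n ≫ (dualCx (lvlComplex 𝔄.lvl (M.dualTwist 𝔄.χ))).d n (n + 1)
    = (ccComplex 𝔄 M).d n (n + 1) ≫ thetaF M T (n + 1)

variable {𝔄} in
/-- The duality morphism of complexes. -/
noncomputable def thetaHom (T : Trace 𝔄) (h : ThetaComm M T) :
    ccComplex 𝔄 M ⟶ dualCx (lvlComplex 𝔄.lvl (M.dualTwist 𝔄.χ)) where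
  f n := thetaF M T n
  comm' i j (hij : _ = _) := by
    subst hij
    exact h i

end theta

end Fermat.Agent.H13.Cft
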