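/-
P-CFT (helper13): TOP ASSEMBLY of S55.

`s55_of_core` : the frozen S55 conclusion follows from `S55CoreStatement`, which is the purely
linear-algebraic shadow of global duality:
  X = H²_c(G_S, M),  π = "forget supports" : X → H²(G_S, M)  (range = Ш²),
  Θ = global duality map X → Dual (Ш¹(M^*(1)))  (surjective, same kernel as π).
No finite-dimensionality is needed.
-/
import Fermat.Prelude.Def_GroupCohomology_ContinuousUnramified

set_option autoImplicit false

open CategoryTheory Module groupCohomology ExtCitation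

namespace Fermat.Agent.H13.Cft

/-- Pure linear algebra: a span `W ⊇ range π ←π— X —Θ→ Dual V` with `Θ` onto and
`ker π = ker Θ` gives a perfect pairing between `V` and `range π`. -/
theorem exists_perfect_pairing_of_span {k : Type*} [Field k]
    {V W X : Type*} [AddCommGroup V] [Module k V] [AddCommGroup W] [Module k W]
    [AddCommGroup X] [Module k X]
    (π : X →ₗ[k] W) (Θ : X →ₗ[k] Module.Dual k V) (T : Submodule k W)
    (hrange : LinearMap.range π = T) (hΘ : Function.Surjective Θ)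
    (hker : LinearMap.ker π = LinearMap.ker Θ) :
    ∃ B : V →ₗ[k] T →ₗ[k] k,
      (∀ y, (∀ x, B y x = 0) → y = 0) ∧ (∀ x, (∀ y, B y x = 0) → x = 0) := by
  classical
  -- choose a linear section of `π` onto `T`
  have hπT : ∀ x : X, π x ∈ T := fun x => hrange ▸ LinearMap.mem_range_self π x
  let π' : X →ₗ[k] T := π.codRestrict T hπT
  have hπ'surj : Function.Surjective π' := by
    rintro ⟨w, hw⟩
    rw [← hrange] at hw
    obtain ⟨x, rfl⟩ := hw
    exact ⟨x, rfl⟩
  obtain ⟨s, hs⟩ := π'.exists_rightInverse_of_surjective (LinearMap.range_eq_top.2 hπ'surj)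
  have hs' : ∀ t : T, π (s t) = (t : W) := fun t => by
    have := congrArg (fun f : T →ₗ[k] T => ((f t : T) : W)) hs
    simpa [π'] using this
  let Ψ : T →ₗ[k] Module.Dual k V := Θ ∘ₗ s
  have hΨinj : ∀ t : T, Ψ t = 0 → t = 0 := by
    intro t ht
    have h1 : s t ∈ LinearMap.ker Θ := ht
    rw [← hker] at h1
    have h2 : π (s t) = 0 := h1
    rw [hs'] at h2
    exact Subtype.ext h2
  have hΨsurj : Function.Surjective Ψ := by
    intro φ
    obtain ⟨x, rfl⟩ := hΘ φ
    refine ⟨π' x, ?_⟩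
    have hx : s (π' x) - x ∈ LinearMap.ker π := by
      rw [LinearMap.mem_ker, map_sub, hs']
      simp [π']
    rw [hker, LinearMap.mem_ker, map_sub, sub_eq_zero] at hx
    exact hx
  refine ⟨Ψ.flip, ?_, ?_⟩
  · intro y hy
    by_contra hne
    obtain ⟨φ, hφ⟩ : ∃ φ : Module.Dual k V, φ y ≠ 0 := by
      by_contra hcon
      simp only [not_exists, not_not] at hcon
      exact hne ((Module.forall_dual_apply_eq_zero_iff k y).1 hcon)
    obtain ⟨t, rfl⟩ := hΨsurj φ
    exact hφ (hy t)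
  · intro x hx
    apply hΨinj
    ext y
    exact hx y

/-- The linear-algebraic core of S55 (to be produced by the cohomological frame). -/
def S55CoreStatement : Prop :=
  ∀ {p : ℕ} [Fact p.Prime] (_ : p ≠ 2) (S : Finset Nat.Primes) (_ : pPrime p ∈ S)
    (M : Rep (ZMod p) (AlgebraicClosure ℚ ≃ₐ[ℚ] AlgebraicClosure ℚ))
    [FiniteDimensional (ZMod p) M]
    (_ : ∀ m : M, ∃ F : IntermediateField ℚ (AlgebraicClosure ℚ), FiniteDimensional ℚ F ∧
      ∀ s ∈ F.fixingSubgroup, M.ρ s m = m)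
    (_ : ∀ q : Nat.Primes, q ∉ S → ∀ A : ValuationSubring (AlgebraicClosure ℚ),
      A.LiesOverPrime (q : ℕ) → ∀ g ∈ A.inertiaSubgroupIn ℚ, M.ρ g = 1),
    ∃ (X : Type) (_ : AddCommGroup X) (_ : Module (ZMod p) X)
      (π : X →ₗ[ZMod p] continuousH2S S M)
      (Θ : X →ₗ[ZMod p] Module.Dual (ZMod p) (sha₁ S (M.dualTwist (cycloChar p)))),
      LinearMap.range π = sha₂ S M ∧ Function.Surjective Θ ∧
        LinearMap.ker π = LinearMap.ker Θ

/-- TOP ASSEMBLY: the frozen S55 statement from the core. -/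
theorem s55_of_core (h : S55CoreStatement)
    {p : ℕ} [Fact p.Prime] (hp2 : p ≠ 2) (S : Finset Nat.Primes) (hpS : pPrime p ∈ S)
    (M : Rep (ZMod p) (AlgebraicClosure ℚ ≃ₐ[ℚ] AlgebraicClosure ℚ))
    [FiniteDimensional (ZMod p) M]
    (hsm : ∀ m : M, ∃ F : IntermediateField ℚ (AlgebraicClosure ℚ), FiniteDimensional ℚ F ∧
      ∀ s ∈ F.fixingSubgroup, M.ρ s m = m)
    (hMur : ∀ q : Nat.Primes, q ∉ S → ∀ A : ValuationSubring (AlgebraicClosure ℚ),
      A.LiesOverPrime (q : ℕ) → ∀ g ∈ A.inertiaSubgroupIn ℚ, M.ρ g = 1) :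
    ∃ B : sha₁ S (M.dualTwist (cycloChar p)) →ₗ[ZMod p] sha₂ S M →ₗ[ZMod p] ZMod p,
      (∀ y, (∀ x, B y x = 0) → y = 0) ∧ (∀ x, (∀ y, B y x = 0) → x = 0) := by
  obtain ⟨X, _, _, π, Θ, hr, hs, hk⟩ := h hp2 S hpS M hsm hMur
  exact exists_perfect_pairing_of_span π Θ (sha₂ S M) hr hs hk

end Fermat.Agent.H13.Cft
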