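/-
P-CFT (helper13): FRAME INTERFACES (Prop-statements) and the homology constructor `hMk`.

Reading guide (all definitions in `Fermat.Agent.H13.Cft`):
* `Level`       : `LevelSys`, `lvlCochains`, `lvlD`, `lvlComplex`, `lvlH`, `lvlCochainsMap`,
                  `lvlMap`, `lvlRes`, `lvlFunctor`, `IsSmooth`, `IsTrivialisedBy`
* `Homological` : `coneShift`, `dualCx`, `DualityP`
* `Datum`       : `ArithDatum`, `locComplex`, `resTot`, `ccComplex`, `ccH`
* `Cup`         : `RepPairing`, `cupFn`, `cupLvl`, `muRep`, `evPairing`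
* `Theta`       : `CcProd`, `ccCup`, `Trace`, `thetaF`, `ThetaComm`, `thetaHom`
* `Arith`       : `globalLevelSys`, `pullbackLevelSys`
* `Top`         : `S55CoreStatement`, `s55_of_core`
-/
import Fermat.Agent.H13.Cft.Theta
import Fermat.Agent.H13.Cft.Arith
import Fermat.Agent.H13.Cft.Top

set_option autoImplicit false

universe u

open CategoryTheory groupCohomology ExtCitation

namespace Fermat.Agent.H13.Cft

/-! ### Concrete homology classes -/

section hMk

variable {k : Type u} [CommRing k]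

/-- The homology class of a cocycle `x ∈ Kⁿ`, `d x = 0`. -/
noncomputable def hMk (K : CochainComplex (ModuleCat.{u} k) ℕ) (n : ℕ) (x : K.X n)
    (hx : (K.d n (n + 1)).hom x = 0) : K.homology n :=
  (K.homologyπ n).hom (K.cyclesMk x (n + 1) (by simp) hx)

/-- **[F-API]** Concrete description of the homology of a cochain complex of modules. -/
def HomologyApiStatement : Prop :=
  ∀ {k : Type u} [CommRing k] (K : CochainComplex (ModuleCat.{u} k) ℕ) (n : ℕ),
    (∀ z : K.homology n, ∃ (x : K.X n) (hx : (K.d n (n + 1)).hom x = 0), hMk K n x hx = z) ∧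
    (∀ (x y : K.X n) (hx : (K.d n (n + 1)).hom x = 0) (hy : (K.d n (n + 1)).hom y = 0)
      (hxy : (K.d n (n + 1)).hom (x + y) = 0), hMk K n (x + y) hxy = hMk K n x hx + hMk K n y hy) ∧
    (∀ (c : k) (x : K.X n) (hx : (K.d n (n + 1)).hom x = 0)
      (hcx : (K.d n (n + 1)).hom (c • x) = 0), hMk K n (c • x) hcx = c • hMk K n x hx) ∧
    (∀ (x : K.X (n + 1)) (hx : (K.d (n + 1) (n + 2)).hom x = 0),
      hMk K (n + 1) x hx = 0 ↔ ∃ y : K.X n, (K.d n (n + 1)).hom y = x) ∧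
    (∀ (x : K.X 0) (hx : (K.d 0 1).hom x = 0), hMk K 0 x hx = 0 ↔ x = 0) ∧
    (∀ (L : CochainComplex (ModuleCat.{u} k) ℕ) (f : K ⟶ L) (x : K.X n)
      (hx : (K.d n (n + 1)).hom x = 0) (hfx : (L.d n (n + 1)).hom ((f.f n).hom x) = 0),
      (HomologicalComplex.homologyMap f n).hom (hMk K n x hx) = hMk L n ((f.f n).hom x) hfx)

end hMk

variable {k G : Type u} [CommRing k] [Group G]

/-- The class of a level cocycle in level cohomology. -/
noncomputable def lvlHMk (𝒰 : LevelSys G) (M : Rep.{u} k G) (n : ℕ) (x : lvlCochains 𝒰 M n)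
    (hx : lvlD 𝒰 M n x = 0) : lvlH 𝒰 M n :=
  hMk (lvlComplex 𝒰 M) n x (by
    have : ((lvlComplex 𝒰 M).d n (n + 1)).hom x = lvlD 𝒰 M n x := by
      simp [CochainComplex.of.d]
    rw [this, hx])

/-! ### Exactness -/

instance lvlFunctor_preservesZeroMorphisms (𝒰 : LevelSys G) :
    (lvlFunctor (k := k) 𝒰).PreservesZeroMorphisms where
  map_zero A B := by
    ext n x : 3
    apply Subtype.ext
    funext g
    rfl

/-- **[F-SES]** The level complex functor is exact on short exact sequences with smooth middle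
term. -/
def LvlSesStatement : Prop :=
  ∀ {k G : Type u} [CommRing k] [Group G] (𝒰 : LevelSys G) (X : ShortComplex (Rep.{u} k G)),
    X.ShortExact → IsSmooth 𝒰 X.X₂ → (X.map (lvlFunctor 𝒰)).ShortExact

/-! ### The duality machine -/

/-- Good coefficients: finite over `k` and trivialised by a level. -/
def IsGood (𝔄 : ArithDatum k G) (M : Rep.{u} k G) : Prop :=
  Module.Finite k M ∧ IsTrivialisedBy 𝔄.lvl M

/-- **[F-COMM]** `Θ` is a morphism of complexes (Leibniz rule in total degree `≤ 2` and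
`τ ∘ d = 0`). -/
def ThetaCommStatement : Prop :=
  ∀ {k G : Type u} [Field k] [Group G] (𝔄 : ArithDatum k G) (T : Trace 𝔄) (M : Rep.{u} k G),
    ThetaComm M T

/-- **[F-EXT]** The class `{M | Θ¹ epi, Θ² iso, Θ³ mono}` is closed under extensions. -/
def ExtClosedStatement : Prop :=
  ∀ {k G : Type u} [Field k] [Group G] (𝔄 : ArithDatum k G) (T : Trace 𝔄)
    (hc : ∀ M : Rep.{u} k G, ThetaComm M T) (X : ShortComplex (Rep.{u} k G)),
    X.ShortExact → IsGood 𝔄 X.X₂ →
    DualityP (thetaHom X.X₁ T (hc _)) → DualityP (thetaHom X.X₃ T (hc _)) →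
    DualityP (thetaHom X.X₂ T (hc _))

/-- **[F-RETR]** The class `{M | Θ¹ epi, Θ² iso, Θ³ mono}` is closed under retracts. -/
def RetractClosedStatement : Prop :=
  ∀ {k G : Type u} [Field k] [Group G] (𝔄 : ArithDatum k G) (T : Trace 𝔄)
    (hc : ∀ M : Rep.{u} k G, ThetaComm M T) (M M' : Rep.{u} k G) (i : M ⟶ M') (r : M' ⟶ M),
    i ≫ r = 𝟙 M → DualityP (thetaHom M' T (hc _)) → DualityP (thetaHom M T (hc _))

/-- The frame Tate–Shafarevich groups `Шⁿ = ker (Hⁿ(G, M) → Hⁿ(∏ v, C(Γ v, M)))`. -/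
noncomputable def frameSha (𝔄 : ArithDatum k G) (M : Rep.{u} k G) (n : ℕ) :
    Submodule k ((lvlComplex 𝔄.lvl M).homology n) :=
  LinearMap.ker (HomologicalComplex.homologyMap (resTot 𝔄 M) n).hom

/-- The linear-algebraic core in frame language. -/
def FrameCoreConclusion (𝔄 : ArithDatum k G) (M : Rep.{u} k G) : Prop :=
  ∃ (X : Type u) (_ : AddCommGroup X) (_ : Module k X)
    (π : X →ₗ[k] (lvlComplex 𝔄.lvl M).homology 2)
    (Θ : X →ₗ[k] Module.Dual k (frameSha 𝔄 (M.dualTwist 𝔄.χ) 1)),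
    LinearMap.range π = frameSha 𝔄 M 2 ∧ Function.Surjective Θ ∧
      LinearMap.ker π = LinearMap.ker Θ

open Classical in
/-- Local duality, surjectivity form: every linear form on `H¹(Γ_v, M^*(χ))` is
`[y] ↦ τ (0, (a ∪ y) at v)` for a level `1`-cocycle `a` of `Γ_v` with values in `M`. -/
def LocalOnto (𝔄 : ArithDatum k G) (T : Trace 𝔄) (M : Rep.{u} k G) : Prop :=
  ∀ (v : 𝔄.ι)
    (ψ : Module.Dual k (lvlH (𝔄.lvlv v) (Rep.res (𝔄.loc v) (M.dualTwist 𝔄.χ)) 1)),
    ∃ a : lvlCochains (𝔄.lvlv v) (Rep.res (𝔄.loc v) M) 1,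
      lvlD (𝔄.lvlv v) (Rep.res (𝔄.loc v) M) 1 a = 0 ∧
      ∀ (y : lvlCochains (𝔄.lvlv v) (Rep.res (𝔄.loc v) (M.dualTwist 𝔄.χ)) 1)
        (hy : lvlD (𝔄.lvlv v) (Rep.res (𝔄.loc v) (M.dualTwist 𝔄.χ)) 1 y = 0),
        ψ (lvlHMk (𝔄.lvlv v) (Rep.res (𝔄.loc v) (M.dualTwist 𝔄.χ)) 1 y hy)
          = T.τ (0, Pi.single v
              (cupLvl (𝔄.lvlv v) ((evPairing 𝔄.χ M).res (𝔄.loc v)) 1 1 a y))

/-- **[F-CORE]** `Θ²` iso + local duality onto ⟹ the linear-algebraic core. -/
def FrameCoreStatement : Prop :=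
  ∀ {k G : Type u} [Field k] [Group G] (𝔄 : ArithDatum k G) (T : Trace 𝔄)
    (hc : ∀ M : Rep.{u} k G, ThetaComm M T) (M : Rep.{u} k G),
    IsGood 𝔄 M → DualityP (thetaHom M T (hc M)) → LocalOnto 𝔄 T M → FrameCoreConclusion 𝔄 M

/-- The global base case: permutation modules on `G/U`, `U` open of index prime to `p`,
`χ` trivial on `U`. -/
def GlobalBase {p : ℕ} [Fact p.Prime] {G : Type} [Group G] (𝔄 : ArithDatum (ZMod p) G)
    (T : Trace 𝔄) (hc : ∀ M : Rep (ZMod p) G, ThetaComm M T) : Prop :=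
  ∀ U : Subgroup G, (∃ N ∈ 𝔄.lvl.sets, N ≤ U) → Nat.Coprime p U.index →
    (∀ u ∈ U, 𝔄.χ u = 1) →
    DualityP (thetaHom (Rep.ofMulAction (ZMod p) G (G ⧸ U)) T (hc _))

/-! ### The arithmetic datum of `(ℚ, S, p)` -/

/-- **[B-CYC]** The mod `p` cyclotomic character is trivial on a level of `G_{ℚ,S}`, `p ∈ S`. -/
def CycloLevelStatement : Prop :=
  ∀ (p : ℕ) [Fact p.Prime] (S : Finset Nat.Primes), pPrime p ∈ S →
    ∃ N ∈ (globalLevelSys S).sets, ∀ s ∈ N, cycloChar p s = 1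

/-- The arithmetic datum `(G_ℚ, S-levels, cycloChar p, decomposition groups at q ∈ S)`. -/
noncomputable def arithDatumQ (p : ℕ) [Fact p.Prime] (S : Finset Nat.Primes)
    (hχ : ∃ N ∈ (globalLevelSys S).sets, ∀ s ∈ N, cycloChar p s = 1) :
    ArithDatum (ZMod p) GQ where
  lvl := globalLevelSys S
  χ := cycloChar p
  χ_level := hχ
  ι := ↥S
  Γ := fun q => primeLocalGaloisGroup q.1
  lvlv := fun q => pullbackLevelSys (primeLocalToGlobal q.1)
  loc := fun q => primeLocalToGlobal q.1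
  compat := fun _ => pullback_compat_global S _

/-- **[B-ADM]** Admissibility: the coefficient modules of S55 are trivialised by a level of
`G_{ℚ,S}`. -/
def AdmStatement : Prop :=
  ∀ (p : ℕ) [Fact p.Prime] (S : Finset Nat.Primes) (M : Rep (ZMod p) GQ)
    [FiniteDimensional (ZMod p) M],
    (∀ m : M, ∃ F : IntermediateField ℚ (AlgebraicClosure ℚ), FiniteDimensional ℚ F ∧
      ∀ s ∈ F.fixingSubgroup, M.ρ s m = m) →
    (∀ q : Nat.Primes, q ∉ S → ∀ A : ValuationSubring (AlgebraicClosure ℚ),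
      A.LiesOverPrime (q : ℕ) → ∀ g ∈ A.inertiaSubgroupIn ℚ, M.ρ g = 1) →
    IsTrivialisedBy (globalLevelSys S) M

/-- **[B-BRIDGE]** Bridge to the prelude: frame `H²`/`Ш²`/`Ш¹` versus `continuousH2S`, `sha₂`,
`sha₁` (for `p` odd the archimedean conditions are vacuous). -/
def BridgeStatement : Prop :=
  ∀ (p : ℕ) [Fact p.Prime], p ≠ 2 → ∀ (S : Finset Nat.Primes)
    (hχ : ∃ N ∈ (globalLevelSys S).sets, ∀ s ∈ N, cycloChar p s = 1)
    (M : Rep (ZMod p) GQ), IsGood (arithDatumQ p S hχ) M →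
    (∃ e : (lvlComplex (arithDatumQ p S hχ).lvl M).homology 2 ≃ₗ[ZMod p] continuousH2S S M,
      (frameSha (arithDatumQ p S hχ) M 2).map e.toLinearMap = sha₂ S M) ∧
    Nonempty (frameSha (arithDatumQ p S hχ) M 1 ≃ₗ[ZMod p] sha₁ S M)

/-- **[WAIST]** The number-theoretic input: a trace on `C_c³(μ_p)` for which the permutation
modules satisfy global duality and every good module satisfies local duality (onto form). -/
def WaistStatement : Prop :=
  ∀ (p : ℕ) [Fact p.Prime], p ≠ 2 → ∀ (S : Finset Nat.Primes), pPrime p ∈ S →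
    ∀ (hχ : ∃ N ∈ (globalLevelSys S).sets, ∀ s ∈ N, cycloChar p s = 1)
      (hc : ∀ (T : Trace (arithDatumQ p S hχ)) (M : Rep (ZMod p) GQ), ThetaComm M T),
    ∃ T : Trace (arithDatumQ p S hχ),
      GlobalBase (arithDatumQ p S hχ) T (hc T) ∧
      ∀ M : Rep (ZMod p) GQ, IsGood (arithDatumQ p S hχ) M → LocalOnto (arithDatumQ p S hχ) T M

end Fermat.Agent.H13.Cft
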