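/-
P-CFT (helper13): the LOCAL FRAME (top degree 2).

For a group `Γ` with level system `𝒱`, a level character `χ` and a local trace `t`
(a linear form on `C²(Γ, k(χ))` vanishing on coboundaries), the local duality morphism
`λ : C(Γ, M) ⟶ dualCx2 (C(Γ, M^*(χ)))`, `λⁿ x y = εₙ t (x ∪ y)`, `ε = (1, -1, -1)`.
`LDualityP f` : `H⁰(f)` epi, `H¹(f)` iso, `H²(f)` mono.
-/
import Fermat.Agent.H13.Cft.Interfaces
import Fermat.Agent.H76.Cft.Interfaces

set_option autoImplicit false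

universe u

open CategoryTheory groupCohomology

namespace Fermat.Agent.H13.Cft

variable {k : Type u} [CommRing k]

section dual2

variable (K : CochainComplex (ModuleCat.{u} k) ℕ)

/-- Objects of the dual complex with top degree `2`. -/
def dualX2 : ℕ → ModuleCat.{u} k
  | 0 => ModuleCat.of k (Module.Dual k (K.X 2))
  | 1 => ModuleCat.of k (Module.Dual k (K.X 1))
  | 2 => ModuleCat.of k (Module.Dual k (K.X 0))
  | _ + 3 => ModuleCat.of k PUnit

/-- Differential of `dualCx2`: the transpose of `d`. -/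
noncomputable def dualD2 : ∀ n, dualX2 K n ⟶ dualX2 K (n + 1)
  | 0 => ModuleCat.ofHom (Module.Dual.transpose (K.d 1 2).hom)
  | 1 => ModuleCat.ofHom (Module.Dual.transpose (K.d 0 1).hom)
  | _ + 2 => 0

lemma dualD2_comp_dualD2 (n : ℕ) : dualD2 K n ≫ dualD2 K (n + 1) = 0 := by
  have hK : ∀ (i : ℕ) (a : K.X i), (K.d (i + 1) (i + 2)).hom ((K.d i (i + 1)).hom a) = 0 := by
    intro i a
    have := LinearMap.congr_fun (congrArg ModuleCat.Hom.hom (K.d_comp_d i (i + 1) (i + 2))) a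
    exact this
  match n with
  | 0 =>
    have h0 : ∀ ξ : Module.Dual k (K.X 2), (dualD2 K 1).hom ((dualD2 K 0).hom ξ) = 0 := by
      intro ξ
      refine LinearMap.ext fun a => ?_
      show ξ ((K.d 1 2).hom ((K.d 0 1).hom a)) = 0
      rw [hK 0 a, map_zero]
    ext ξ : 2
    exact h0 ξ
  | 1 => exact Limits.comp_zero
  | _ + 2 => exact Limits.comp_zero

/-- The dual complex `D^n = Dual (K^(2-n))` (`0` for `n ≥ 3`), differential = transpose. -/
noncomputable def dualCx2 : CochainComplex (ModuleCat.{u} k) ℕ :=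
  CochainComplex.of (dualX2 K) (dualD2 K) (dualD2_comp_dualD2 K)

end dual2

/-- The local duality property: `H⁰` epi, `H¹` iso, `H²` mono. -/
def LDualityP {K L : CochainComplex (ModuleCat.{u} k) ℕ} (f : K ⟶ L) : Prop :=
  Epi (HomologicalComplex.homologyMap f 0) ∧ IsIso (HomologicalComplex.homologyMap f 1) ∧
    Mono (HomologicalComplex.homologyMap f 2)

variable {Γ : Type u} [Group Γ]

/-- A local trace: a linear form on `C²(Γ, k(χ))` vanishing on coboundaries. -/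
structure LTrace (𝒱 : LevelSys Γ) (χ : Γ →* kˣ) where
  /-- the linear form -/
  t : lvlCochains 𝒱 (muRep χ) 2 →ₗ[k] k
  t_d : ∀ c : lvlCochains 𝒱 (muRep χ) 1, t (lvlD 𝒱 (muRep χ) 1 c) = 0

section ltheta

variable {𝒱 : LevelSys Γ} {χ : Γ →* kˣ} (T : LTrace 𝒱 χ) (M : Rep.{u} k Γ)

/-- `λ⁰ a y = t (a ∪ y)`, `a ∈ C⁰(M)`, `y ∈ C²(M^*(χ))`. -/
noncomputable def ltheta0 :
    lvlCochains 𝒱 M 0 →ₗ[k] Module.Dual k (lvlCochains 𝒱 (M.dualTwist χ) 2) :=
  (cupLvl 𝒱 (evPairing χ M) 0 2).compr₂ T.t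

/-- `λ¹ a y = - t (a ∪ y)`, `a ∈ C¹(M)`, `y ∈ C¹(M^*(χ))`. -/
noncomputable def ltheta1 :
    lvlCochains 𝒱 M 1 →ₗ[k] Module.Dual k (lvlCochains 𝒱 (M.dualTwist χ) 1) :=
  - (cupLvl 𝒱 (evPairing χ M) 1 1).compr₂ T.t

/-- `λ² a y = - t (a ∪ y)`, `a ∈ C²(M)`, `y ∈ C⁰(M^*(χ))`. -/
noncomputable def ltheta2 :
    lvlCochains 𝒱 M 2 →ₗ[k] Module.Dual k (lvlCochains 𝒱 (M.dualTwist χ) 0) :=
  - (cupLvl 𝒱 (evPairing χ M) 2 0).compr₂ T.t

/-- The components of the local duality map. -/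
noncomputable def lthetaF :
    ∀ n, (lvlComplex 𝒱 M).X n ⟶ (dualCx2 (lvlComplex 𝒱 (M.dualTwist χ))).X n
  | 0 => ModuleCat.ofHom (ltheta0 T M)
  | 1 => ModuleCat.ofHom (ltheta1 T M)
  | 2 => ModuleCat.ofHom (ltheta2 T M)
  | _ + 3 => 0

/-- `λ` commutes with the differentials. -/
def LThetaComm : Prop :=
  ∀ n, lthetaF T M n ≫ (dualCx2 (lvlComplex 𝒱 (M.dualTwist χ))).d n (n + 1)
    = (lvlComplex 𝒱 M).d n (n + 1) ≫ lthetaF T M (n + 1)

/-- The local duality morphism of complexes. -/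
noncomputable def lthetaHom (h : LThetaComm T M) :
    lvlComplex 𝒱 M ⟶ dualCx2 (lvlComplex 𝒱 (M.dualTwist χ)) where
  f n := lthetaF T M n
  comm' i j (hij : _ = _) := by
    subst hij
    exact h i

end ltheta

/-! ### Local interface statements -/

/-- **[L-COMM]** `λ` is a morphism of complexes. -/
def LThetaCommStatement : Prop :=
  ∀ {k Γ : Type u} [Field k] [Group Γ] (𝒱 : LevelSys Γ) (χ : Γ →* kˣ) (T : LTrace 𝒱 χ)
    (M : Rep.{u} k Γ), LThetaComm T M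

/-- Good local coefficients. -/
def IsLGood (𝒱 : LevelSys Γ) (M : Rep.{u} k Γ) : Prop :=
  Module.Finite k M ∧ IsTrivialisedBy 𝒱 M

/-- **[L-EXT]** closure of `{M | λ⁰ epi, λ¹ iso, λ² mono}` under extensions. -/
def LExtClosedStatement : Prop :=
  ∀ {k Γ : Type u} [Field k] [Group Γ] (𝒱 : LevelSys Γ) (χ : Γ →* kˣ)
    (_ : ∃ N ∈ 𝒱.sets, ∀ s ∈ N, χ s = 1) (T : LTrace 𝒱 χ)
    (hc : ∀ M : Rep.{u} k Γ, LThetaComm T M) (X : ShortComplex (Rep.{u} k Γ)),
    X.ShortExact → IsLGood 𝒱 X.X₂ →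
    LDualityP (lthetaHom T X.X₁ (hc _)) → LDualityP (lthetaHom T X.X₃ (hc _)) →
    LDualityP (lthetaHom T X.X₂ (hc _))

/-- **[L-RETR]** closure of `{M | λ⁰ epi, λ¹ iso, λ² mono}` under retracts. -/
def LRetractClosedStatement : Prop :=
  ∀ {k Γ : Type u} [Field k] [Group Γ] (𝒱 : LevelSys Γ) (χ : Γ →* kˣ) (T : LTrace 𝒱 χ)
    (hc : ∀ M : Rep.{u} k Γ, LThetaComm T M) (M M' : Rep.{u} k Γ) (i : M ⟶ M') (r : M' ⟶ M),
    i ≫ r = 𝟙 M → LDualityP (lthetaHom T M' (hc _)) → LDualityP (lthetaHom T M (hc _))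

/-- The local base case: permutation modules on `Γ/V`, `V` open of index prime to `p`,
`χ` trivial on `V`. -/
def LocalBase {p : ℕ} [Fact p.Prime] {Γ : Type} [Group Γ] (𝒱 : LevelSys Γ)
    (χ : Γ →* (ZMod p)ˣ) (T : LTrace 𝒱 χ) (hc : ∀ M : Rep (ZMod p) Γ, LThetaComm T M) : Prop :=
  ∀ V : Subgroup Γ, (∃ N ∈ 𝒱.sets, N ≤ V) → Nat.Coprime p V.index →
    (∀ u ∈ V, χ u = 1) →
    LDualityP (lthetaHom T (Rep.ofMulAction (ZMod p) Γ (Γ ⧸ V)) (hc _))

/-- **Local dévissage.** -/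
theorem localMain (hperm : Fermat.Agent.H76.Cft.PermInductionStatement)
    (hext : LExtClosedStatement.{0}) (hretr : LRetractClosedStatement.{0})
    {p : ℕ} [Fact p.Prime] {Γ : Type} [Group Γ] (𝒱 : LevelSys Γ) (χ : Γ →* (ZMod p)ˣ)
    (hχ : ∃ N ∈ 𝒱.sets, ∀ s ∈ N, χ s = 1) (T : LTrace 𝒱 χ)
    (hc : ∀ M : Rep (ZMod p) Γ, LThetaComm T M) (hbase : LocalBase 𝒱 χ T hc)
    (M : Rep (ZMod p) Γ) (hM : IsLGood 𝒱 M) : LDualityP (lthetaHom T M (hc M)) := by
  obtain ⟨hfin, N₁, hN₁, htriv⟩ := hM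
  obtain ⟨N₂, hN₂, hχ⟩ := hχ
  obtain ⟨N, hN, hle⟩ := 𝒱.directed N₁ hN₁ N₂ hN₂
  have := 𝒱.normal N hN
  have := 𝒱.finiteIndex N hN
  refine hperm p Γ N (fun M => LDualityP (lthetaHom T M (hc M))) ?_ ?_ ?_ ?_ M
    ⟨hfin, fun n hn => htriv n (hle.trans inf_le_left hn)⟩
  · rintro M M' ⟨e⟩ hM
    exact hretr 𝒱 χ T hc M' M e.inv e.hom e.inv_hom_id hM
  · intro X hX hgood h1 h3
    exact hext 𝒱 χ ⟨N₂, hN₂, hχ⟩ T hc X hX ⟨hgood.1, N, hN, hgood.2⟩ h1 h3
  · intro M M' i r hir _ hM'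
    exact hretr 𝒱 χ T hc M M' i r hir hM'
  · rintro V hNV hcop ⟨n, hn⟩
    refine hbase V ⟨N, hN, hNV⟩ hcop ?_
    intro u hu
    -- `χ u` has order dividing `p ^ n` and `p - 1`
    have h1 : (⟨u, hu⟩ : V) ^ (N.subgroupOf V).index ∈ N.subgroupOf V :=
      Subgroup.pow_index_mem _ _
    rw [hn] at h1
    have h2 : u ^ (p ^ n) ∈ N := by
      simpa [Subgroup.mem_subgroupOf] using h1
    have h3 : χ u ^ (p ^ n) = 1 := by
      rw [← map_pow]; exact hχ _ (hle.trans inf_le_right h2)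
    have h4 : χ u ^ (p - 1) = 1 := ZMod.units_pow_card_sub_one_eq_one p (χ u)
    have hcop' : Nat.Coprime (p ^ n) (p - 1) := by
      apply Nat.Coprime.pow_left
      have hp : p.Prime := Fact.out
      exact (Nat.Prime.coprime_iff_not_dvd hp).2 (fun h => by
        have := Nat.le_of_dvd (Nat.sub_pos_of_lt hp.one_lt) h
        have := hp.one_lt
        omega)
    have h5 : orderOf (χ u) ∣ Nat.gcd (p ^ n) (p - 1) :=
      Nat.dvd_gcd (orderOf_dvd_of_pow_eq_one h3) (orderOf_dvd_of_pow_eq_one h4)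
    rw [hcop'] at h5
    exact orderOf_eq_one_iff.1 (Nat.dvd_one.1 h5)

/-- The local trace at `v` induced by a global trace: `t_v c = τ (0, c at v)`. -/
noncomputable def Trace.localAt {G : Type u} [Group G] {𝔄 : ArithDatum k G} (T : Trace 𝔄)
    (v : 𝔄.ι) : lvlCochains (𝔄.lvlv v) (Rep.res (𝔄.loc v) (muRep 𝔄.χ)) 2 →ₗ[k] k := by
  classical
  exact T.τ ∘ₗ LinearMap.inr k _ _ ∘ₗ LinearMap.single k
    (fun v => lvlCochains (𝔄.lvlv v) (Rep.res (𝔄.loc v) (muRep 𝔄.χ)) 2) v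

/-- **[L-ONTO]** Local dévissage output ⟹ `LocalOnto`: if at every place `v` the local trace
`t_v = τ (0, · at v)` satisfies the local base case (for the local group `Γ_v`, level system
`lvlv v`, character `χ ∘ loc v`), then `LocalOnto 𝔄 T M` holds for every good `M`.
(The statement quantifies over a local trace `Tv` whose linear form agrees with `T.localAt v`
under the identification `Rep.res (loc v) (muRep χ) = muRep (χ ∘ loc v)` of underlying types.) -/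
def LocalOntoOfBaseStatement : Prop :=
  ∀ {p : ℕ} [Fact p.Prime] {G : Type} [Group G] (𝔄 : ArithDatum (ZMod p) G) (T : Trace 𝔄),
    (∀ v : 𝔄.ι, ∃ (Tv : LTrace (𝔄.lvlv v) (𝔄.χ.comp (𝔄.loc v)))
        (hc : ∀ M : Rep (ZMod p) (𝔄.Γ v), LThetaComm Tv M),
        (∀ c : (Fin 2 → 𝔄.Γ v) → ZMod p,
          ∀ (h1 : c ∈ lvlCochains (𝔄.lvlv v) (muRep (𝔄.χ.comp (𝔄.loc v))) 2)
            (h2 : c ∈ lvlCochains (𝔄.lvlv v) (Rep.res (𝔄.loc v) (muRep 𝔄.χ)) 2),
            Tv.t ⟨c, h1⟩ = T.localAt v ⟨c, h2⟩) ∧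
        LocalBase (𝔄.lvlv v) (𝔄.χ.comp (𝔄.loc v)) Tv hc) →
    ∀ M : Rep (ZMod p) G, IsGood 𝔄 M → LocalOnto 𝔄 T M

open ExtCitation in
/-- **[WAIST-B]** The number-theoretic input in BASE-CASE form: a trace on `C_c³(μ_p)` with the
global base case (permutation modules over `ℚ`) and, at every `q ∈ S`, the local base case for
the local trace `t_q = τ (0, · at q)`. -/
def WaistBaseStatement : Prop :=
  ∀ (p : ℕ) [Fact p.Prime], p ≠ 2 → ∀ (S : Finset Nat.Primes), pPrime p ∈ S →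
    ∀ (hχ : ∃ N ∈ (globalLevelSys S).sets, ∀ s ∈ N, cycloChar p s = 1)
      (hc : ∀ (T : Trace (arithDatumQ p S hχ)) (M : Rep (ZMod p) GQ), ThetaComm M T),
    ∃ T : Trace (arithDatumQ p S hχ),
      GlobalBase (arithDatumQ p S hχ) T (hc T) ∧
      ∀ v : (arithDatumQ p S hχ).ι,
        ∃ (Tv : LTrace ((arithDatumQ p S hχ).lvlv v)
            ((arithDatumQ p S hχ).χ.comp ((arithDatumQ p S hχ).loc v)))
          (hcv : ∀ M : Rep (ZMod p) ((arithDatumQ p S hχ).Γ v), LThetaComm Tv M),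
          (∀ c : (Fin 2 → (arithDatumQ p S hχ).Γ v) → ZMod p,
            ∀ (h1 : c ∈ lvlCochains ((arithDatumQ p S hχ).lvlv v)
                (muRep ((arithDatumQ p S hχ).χ.comp ((arithDatumQ p S hχ).loc v))) 2)
              (h2 : c ∈ lvlCochains ((arithDatumQ p S hχ).lvlv v)
                (Rep.res ((arithDatumQ p S hχ).loc v) (muRep (arithDatumQ p S hχ).χ)) 2),
              Tv.t ⟨c, h1⟩ = T.localAt v ⟨c, h2⟩) ∧
          LocalBase ((arithDatumQ p S hχ).lvlv v)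
            ((arithDatumQ p S hχ).χ.comp ((arithDatumQ p S hχ).loc v)) Tv hcv

/-- The base-case waist implies the waist consumed by `s55Core_of_parts`. -/
theorem waist_of_base (h : LocalOntoOfBaseStatement) (hw : WaistBaseStatement) :
    WaistStatement := by
  intro p _ hp2 S hpS hχ hc
  obtain ⟨T, hG, hL⟩ := hw p hp2 S hpS hχ hc
  exact ⟨T, hG, fun M hM => h (arithDatumQ p S hχ) T hL M hM⟩

end Fermat.Agent.H13.Cft
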