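/-
P-CFT (helper13): CURRENT STATE of the reduction of S55 (updated as rows land).

`s55_of_waistBase` : the frozen S55 conclusion from the single remaining input
`WaistBaseStatement` (number theory: trace + global base cases + local base cases).

Discharged here: `CycloLevelStatement` (helper94), `AdmStatement` (helper21),
`PermInductionStatement` (helper42), `RetractClosedStatement` (helper89),
`BridgeStatement` (helper58), `ThetaCommStatement` (helper98), `ExtClosedStatement` (helper50),
`FrameCoreStatement` (helper77), `LocalOntoOfBaseStatement` (helper95).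
-/
import Fermat.Agent.H13.Cft.Assembly
import Fermat.Agent.H13.Cft.Local
import Fermat.Agent.H94.Cft.CycloLevel
import Fermat.Agent.H21.Cft.Adm
import Fermat.Agent.H42.CftPermInduction
import Fermat.Agent.H89.CftRetract
import Fermat.Agent.H58.Cft.BridgeFinal
import Fermat.Agent.H98.Cft.ThetaComm
import Fermat.Agent.H50.Cft.ExtFinal
import Fermat.Agent.H77.FrCore.Main
import Fermat.Agent.H95.Cft.LocalOnto

set_option autoImplicit false

open CategoryTheory groupCohomology ExtCitation

namespace Fermat.Agent.H13.Cft

/-- The waist consumed by the assembly, from the base-case waist. -/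
theorem waist_of_waistBase (hwaist : WaistBaseStatement) : WaistStatement :=
  waist_of_base Fermat.Agent.H95.Cft.localOntoOfBase hwaist

/-- The core statement of S55 from the base-case waist. -/
theorem s55Core_of_waistBase (hwaist : WaistBaseStatement) : S55CoreStatement :=
  s55Core_of_parts Fermat.Agent.H94.Cft.cycloLevel Fermat.Agent.H21.Cft.admStatement
    Fermat.Agent.H58.Cft.bridgeStatement Fermat.Agent.H98.Cft.thetaCommStatement
    Fermat.Agent.H50.extClosed Fermat.Agent.H89.retractClosedStatement
    Fermat.Agent.H42.Cft.permInduction Fermat.Agent.H77.frameCore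
    (waist_of_waistBase hwaist)

/-- S55 from the base-case waist (the only open input). -/
theorem s55_of_waistBase (hwaist : WaistBaseStatement)
    {p : ℕ} [Fact p.Prime] (hp2 : p ≠ 2) (S : Finset Nat.Primes) (hpS : pPrime p ∈ S)
    (M : Rep (ZMod p) (AlgebraicClosure ℚ ≃ₐ[ℚ] AlgebraicClosure ℚ))
    [FiniteDimensional (ZMod p) M]
    (hsm : ∀ m : M, ∃ F : IntermediateField ℚ (AlgebraicClosure ℚ), FiniteDimensional ℚ F ∧
      ∀ s ∈ F.fixingSubgroup, M.ρ s m = m)
    (hMur : ∀ q : Nat.Primes, q ∉ S → ∀ A : ValuationSubring (AlgebraicClosure ℚ),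
      A.LiesOverPrime (q : ℕ) → ∀ g ∈ A.inertiaSubgroupIn ℚ, M.ρ g = 1) :
    ∃ B : sha₁ S (M.dualTwist (cycloChar p)) →ₗ[ZMod p] sha₂ S M →ₗ[ZMod p] ZMod p,
      (∀ y, (∀ x, B y x = 0) → y = 0) ∧ (∀ x, (∀ y, B y x = 0) → x = 0) :=
  s55_of_core (s55Core_of_waistBase hwaist) hp2 S hpS M hsm hMur

end Fermat.Agent.H13.Cft
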