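/-
P-CFT (helper13): STEP D v2, abstract part - DIMENSION SHIFTING for a natural transformation
`η : F ⟶ F'` of cochain-complex valued functors on `Rep k G`.

* `DsEpiStatement`   : abstract shifting lemma for a morphism of short exact sequences of complexes
* `shiftStep`        : one step of dimension shifting (`Hⁿ⁺¹(η)` epi on good modules and mono on an
                       effacing module `I ↠ M` with `Hⁿ(F' π) = 0` ⟹ `Hⁿ(η_M)` epi)
* `IsFiniteSumOf P I`: `I` is a finite direct sum of copies of `P` (impredicative form)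
* `SumMonoStatement` : `Hⁿ(η)` mono passes to finite direct sums (additive functors)
-/
import Fermat.Agent.H13.Cft.Local

set_option autoImplicit false

universe u

open CategoryTheory CategoryTheory.Limits

namespace Fermat.Agent.H13.Cft

/-- **[DS]** Abstract dimension shifting: for a morphism `φ` of short exact sequences of cochain
complexes, if `Hⁿ(S₂.g) = 0`, `Hⁿ⁺¹(φ.τ₁)` is epi and `Hⁿ⁺¹(φ.τ₂)` is mono, then `Hⁿ(φ.τ₃)` is
epi. -/
def DsEpiStatement : Prop :=
  ∀ {k : Type u} [CommRing k] {S₁ S₂ : ShortComplex (CochainComplex (ModuleCat.{u} k) ℕ)}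
    (φ : S₁ ⟶ S₂), S₁.ShortExact → S₂.ShortExact → ∀ n : ℕ,
    HomologicalComplex.homologyMap S₂.g n = 0 →
    Epi (HomologicalComplex.homologyMap φ.τ₁ (n + 1)) →
    Mono (HomologicalComplex.homologyMap φ.τ₂ (n + 1)) →
    Epi (HomologicalComplex.homologyMap φ.τ₃ n)

section engine

variable {k G : Type u} [CommRing k] [Group G]

/-- `I` is a finite direct sum of copies of `P`: every class of objects which contains `P` and
the zero objects and is closed under isomorphisms and binary biproducts contains `I`. -/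
def IsFiniteSumOf (P I : Rep.{u} k G) : Prop :=
  ∀ 𝒞 : Rep.{u} k G → Prop,
    (∀ A B : Rep.{u} k G, Nonempty (A ≅ B) → 𝒞 A → 𝒞 B) →
    (∀ Z : Rep.{u} k G, IsZero Z → 𝒞 Z) →
    (∀ A B : Rep.{u} k G, 𝒞 A → 𝒞 B → 𝒞 (A ⊞ B)) →
    𝒞 P → 𝒞 I

lemma IsFiniteSumOf.self (P : Rep.{u} k G) : IsFiniteSumOf P P := fun _ _ _ _ h => h

lemma IsFiniteSumOf.zero (P Z : Rep.{u} k G) (hZ : IsZero Z) : IsFiniteSumOf P Z :=
  fun _ _ h0 _ _ => h0 Z hZ

lemma IsFiniteSumOf.biprod {P A B : Rep.{u} k G} (hA : IsFiniteSumOf P A)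
    (hB : IsFiniteSumOf P B) : IsFiniteSumOf P (A ⊞ B) :=
  fun 𝒞 hi h0 hb hP => hb A B (hA 𝒞 hi h0 hb hP) (hB 𝒞 hi h0 hb hP)

lemma IsFiniteSumOf.of_iso {P A B : Rep.{u} k G} (e : A ≅ B) (hA : IsFiniteSumOf P A) :
    IsFiniteSumOf P B :=
  fun 𝒞 hi h0 hb hP => hi A B ⟨e⟩ (hA 𝒞 hi h0 hb hP)

/-- **[SUM]** For additive functors, `Hⁿ(η)` mono passes to finite direct sums. -/
def SumMonoStatement : Prop :=
  ∀ {k G : Type u} [CommRing k] [Group G]
    (F F' : Rep.{u} k G ⥤ CochainComplex (ModuleCat.{u} k) ℕ) [F.Additive] [F'.Additive]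
    (η : F ⟶ F') (n : ℕ) (P I : Rep.{u} k G), IsFiniteSumOf P I →
    Mono (HomologicalComplex.homologyMap (η.app P) n) →
    Mono (HomologicalComplex.homologyMap (η.app I) n)

variable (F F' : Rep.{u} k G ⥤ CochainComplex (ModuleCat.{u} k) ℕ)
  [F.PreservesZeroMorphisms] [F'.PreservesZeroMorphisms] (η : F ⟶ F')

/-- One step of dimension shifting. -/
theorem shiftStep (hds : DsEpiStatement.{u}) (good : Rep.{u} k G → Prop)
    (hexact : ∀ X : ShortComplex (Rep.{u} k G), X.ShortExact → good X.X₂ →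
      (X.map F).ShortExact ∧ (X.map F').ShortExact)
    (hsub : ∀ X : ShortComplex (Rep.{u} k G), X.ShortExact → good X.X₂ → good X.X₁)
    (n : ℕ) (hE : ∀ M, good M → Epi (HomologicalComplex.homologyMap (η.app M) (n + 1)))
    (M : Rep.{u} k G)
    (heff : ∃ (I : Rep.{u} k G) (π : I ⟶ M), Epi π ∧ good I ∧
      Mono (HomologicalComplex.homologyMap (η.app I) (n + 1)) ∧
      HomologicalComplex.homologyMap (F'.map π) n = 0) :
    Epi (HomologicalComplex.homologyMap (η.app M) n) := by
  obtain ⟨I, π, hπ, hI, hmono, hzero⟩ := heff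
  let X : ShortComplex (Rep.{u} k G) := ShortComplex.mk (kernel.ι π) π (kernel.condition π)
  have hX : X.ShortExact :=
    { exact := ShortComplex.exact_of_f_is_kernel _ (kernelIsKernel π)
      mono_f := inferInstanceAs (Mono (kernel.ι π))
      epi_g := hπ }
  obtain ⟨h1, h2⟩ := hexact X hX hI
  exact hds (X.mapNatTrans η) h1 h2 n hzero (hE _ (hsub X hX hI)) hmono

end engine

end Fermat.Agent.H13.Cft
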