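/-
P-CFT (helper13): STEP D v3, abstract part - DIMENSION SHIFTING RELATIVE TO A SUB-FUNCTOR
`A(M) ⊆ Hⁿ⁺¹(F M)` for a natural transformation `η : F ⟶ F'` of cochain-complex valued functors
on `Rep k G`.

* `DsEpiRelStatement`   : abstract shifting lemma for a morphism of short exact sequences of
                          complexes, relative to submodules `A₁`, `A₂`
* `SumMonoRelStatement` : injectivity of `Hⁿ(η)` on `A` passes to finite direct sums
* `shiftStepRel`        : one step of dimension shifting: if every class of `Hⁿ⁺¹(F' M)` is hit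
                          from `A(M)` (good `M`), and `Hⁿ⁺¹(η_I)` is injective on `A(I)` for an
                          effacing module `I ↠ M` with `Hⁿ(F' π) = 0`, then `Hⁿ(η_M)` is epi
(The absolute versions `DsEpiStatement`, `SumMonoStatement`, `shiftStep` are in `Shift.lean`.)
-/
import Fermat.Agent.H13.Cft.Shift

set_option autoImplicit false

universe u

open CategoryTheory CategoryTheory.Limits

namespace Fermat.Agent.H13.Cft

/-- **[DS-REL]** Abstract dimension shifting, relative form: for a morphism `φ` of short exact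
sequences of cochain complexes of modules and submodules `A₁ ⊆ Hⁿ⁺¹(S₁.X₁)`,
`A₂ ⊆ Hⁿ⁺¹(S₁.X₂)` with `Hⁿ⁺¹(S₁.f) A₁ ⊆ A₂`: if `Hⁿ(S₂.g) = 0`, every class of `Hⁿ⁺¹(S₂.X₁)`
is the image under `Hⁿ⁺¹(φ.τ₁)` of an element of `A₁`, and `Hⁿ⁺¹(φ.τ₂)` is injective on `A₂`,
then `Hⁿ(φ.τ₃)` is epi. -/
def DsEpiRelStatement : Prop :=
  ∀ {k : Type u} [CommRing k] {S₁ S₂ : ShortComplex (CochainComplex (ModuleCat.{u} k) ℕ)}
    (φ : S₁ ⟶ S₂), S₁.ShortExact → S₂.ShortExact → ∀ (n : ℕ)
    (A₁ : Submodule k (S₁.X₁.homology (n + 1))) (A₂ : Submodule k (S₁.X₂.homology (n + 1))),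
    (∀ x ∈ A₁, (HomologicalComplex.homologyMap S₁.f (n + 1)).hom x ∈ A₂) →
    HomologicalComplex.homologyMap S₂.g n = 0 →
    (∀ y : S₂.X₁.homology (n + 1),
      ∃ x ∈ A₁, (HomologicalComplex.homologyMap φ.τ₁ (n + 1)).hom x = y) →
    (∀ x ∈ A₂, (HomologicalComplex.homologyMap φ.τ₂ (n + 1)).hom x = 0 → x = 0) →
    Epi (HomologicalComplex.homologyMap φ.τ₃ n)

/-- **[SUM-REL]** For additive functors and a sub-functor `A(M) ⊆ Hⁿ(F M)`: injectivity of
`Hⁿ(η)` on `A` passes to finite direct sums. -/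
def SumMonoRelStatement : Prop :=
  ∀ {k G : Type u} [CommRing k] [Group G]
    (F F' : Rep.{u} k G ⥤ CochainComplex (ModuleCat.{u} k) ℕ) [F.Additive] [F'.Additive]
    (η : F ⟶ F') (n : ℕ) (A : ∀ M : Rep.{u} k G, Submodule k ((F.obj M).homology n)),
    (∀ (M M' : Rep.{u} k G) (f : M ⟶ M'), ∀ x ∈ A M,
      (HomologicalComplex.homologyMap (F.map f) n).hom x ∈ A M') →
    ∀ (P I : Rep.{u} k G), IsFiniteSumOf P I →
    (∀ x ∈ A P, (HomologicalComplex.homologyMap (η.app P) n).hom x = 0 → x = 0) →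
    (∀ x ∈ A I, (HomologicalComplex.homologyMap (η.app I) n).hom x = 0 → x = 0)

section engine

variable {k G : Type u} [CommRing k] [Group G]
  (F F' : Rep.{u} k G ⥤ CochainComplex (ModuleCat.{u} k) ℕ)
  [F.PreservesZeroMorphisms] [F'.PreservesZeroMorphisms] (η : F ⟶ F')

/-- One step of dimension shifting, relative to a sub-functor `A`. -/
theorem shiftStepRel (hds : DsEpiRelStatement.{u}) (good : Rep.{u} k G → Prop)
    (hexact : ∀ X : ShortComplex (Rep.{u} k G), X.ShortExact → good X.X₂ →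
      (X.map F).ShortExact ∧ (X.map F').ShortExact)
    (hsub : ∀ X : ShortComplex (Rep.{u} k G), X.ShortExact → good X.X₂ → good X.X₁)
    (n : ℕ) (A : ∀ M : Rep.{u} k G, Submodule k ((F.obj M).homology (n + 1)))
    (hA : ∀ (M M' : Rep.{u} k G) (f : M ⟶ M'), ∀ x ∈ A M,
      (HomologicalComplex.homologyMap (F.map f) (n + 1)).hom x ∈ A M')
    (hE : ∀ M, good M → ∀ y : (F'.obj M).homology (n + 1),
      ∃ x ∈ A M, (HomologicalComplex.homologyMap (η.app M) (n + 1)).hom x = y)
    (M : Rep.{u} k G)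
    (heff : ∃ (I : Rep.{u} k G) (π : I ⟶ M), Epi π ∧ good I ∧
      (∀ x ∈ A I, (HomologicalComplex.homologyMap (η.app I) (n + 1)).hom x = 0 → x = 0) ∧
      HomologicalComplex.homologyMap (F'.map π) n = 0) :
    Epi (HomologicalComplex.homologyMap (η.app M) n) := by
  obtain ⟨I, π, hπ, hI, hmono, hzero⟩ := heff
  let X : ShortComplex (Rep.{u} k G) := ShortComplex.mk (kernel.ι π) π (kernel.condition π)
  have hX : X.ShortExact :=
    { exact := ShortComplex.exact_of_f_is_kernel _ (kernelIsKernel π)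
      mono_f := inferInstanceAs (Mono (kernel.ι π))
      epi_g := hπ }
  obtain ⟨h1, h2⟩ := hexact X hX hI
  exact hds (X.mapNatTrans η) h1 h2 n (A X.X₁) (A X.X₂) (hA _ _ X.f) hzero
    (hE _ (hsub X hX hI)) hmono

end engine

end Fermat.Agent.H13.Cft
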