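/-
P-CFT (helper13): STEP D v2 - the base cases by DIMENSION SHIFTING.

`globalBase_of_shift` : `GlobalBase` from
  * `Θ³` onto on good modules, `Θ³`, `Θ²` injective on permutation modules (given onto),
  * finiteness of `H¹`, `H²`, effacement, direct sums, the abstract shifting lemma.
`localBase_of_shift`  : the local twin (`λ²` onto on good modules, `λ²`, `λ¹` injective on
  permutation modules given onto).
-/
import Fermat.Agent.H13.Cft.Shift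
import Fermat.Agent.H53.Cft.FrNatExact
import Fermat.Agent.H47.Cft.LocalExt
import Fermat.Agent.H87.Cft.LvlSes

set_option autoImplicit false

universe u

open CategoryTheory CategoryTheory.Limits

namespace Fermat.Agent.H13.Cft

open Fermat.Agent.H53 Fermat.Agent.H47.Cft

/-! ### Interface statements (frame side) -/

/-- **[DZ]** Over a field: if `Hⁿ(g) = 0` then `H³⁻ⁿ(dualCxMap g) = 0` (`n = 1, 2`). -/
def DualZeroStatement : Prop :=
  ∀ {k : Type u} [Field k] {K K' : CochainComplex (ModuleCat.{u} k) ℕ} (g : K ⟶ K'),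
    (HomologicalComplex.homologyMap g 1 = 0 →
      HomologicalComplex.homologyMap (dualCxMap g) 2 = 0) ∧
    (HomologicalComplex.homologyMap g 2 = 0 →
      HomologicalComplex.homologyMap (dualCxMap g) 1 = 0)

/-- **[L-DZ]** Local twin: if `Hⁿ(g) = 0` then `H²⁻ⁿ(dualCx2Map g) = 0` (`n = 1, 2`). -/
def LDualZeroStatement : Prop :=
  ∀ {k : Type u} [Field k] {K K' : CochainComplex (ModuleCat.{u} k) ℕ} (g : K ⟶ K'),
    (HomologicalComplex.homologyMap g 1 = 0 →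
      HomologicalComplex.homologyMap (dualCx2Map g) 1 = 0) ∧
    (HomologicalComplex.homologyMap g 2 = 0 →
      HomologicalComplex.homologyMap (dualCx2Map g) 0 = 0)

/-- **[EFF]** Effacement: for a good module `M` and `n ≥ 1` with `Hⁿ(G, M^*(χ))` finite there is
a level `N` (with `χ` trivial on it), a finite direct sum `I` of copies of `k[G/N]` and a
surjection `π : I ↠ M` such that `Hⁿ(G, M^*(χ)) → Hⁿ(G, I^*(χ))` is zero. -/
def EffaceStatement : Prop :=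
  ∀ {k G : Type u} [Field k] [Group G] (𝒰 : LevelSys G) (χ : G →* kˣ),
    (∃ N ∈ 𝒰.sets, ∀ s ∈ N, χ s = 1) →
    ∀ (M : Rep.{u} k G), Module.Finite k M → IsTrivialisedBy 𝒰 M →
    ∀ n : ℕ, 1 ≤ n → Module.Finite k (lvlH 𝒰 (M.dualTwist χ) n) →
    ∃ N ∈ 𝒰.sets, (∀ s ∈ N, χ s = 1) ∧ ∃ (I : Rep.{u} k G) (π : I ⟶ M), Epi π ∧
      Module.Finite k I ∧ IsTrivialisedBy 𝒰 I ∧
      IsFiniteSumOf (Rep.ofMulAction k G (G ⧸ N)) I ∧
      HomologicalComplex.homologyMap (lvlMap 𝒰 (dualTwistMap χ π)) n = 0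

/-- **[SUB]** Subobjects of good modules are good. -/
def GoodSubStatement : Prop :=
  ∀ {k G : Type u} [Field k] [Group G] (𝒰 : LevelSys G) (X : ShortComplex (Rep.{u} k G)),
    X.ShortExact → Module.Finite k X.X₂ → IsTrivialisedBy 𝒰 X.X₂ →
    Module.Finite k X.X₁ ∧ IsTrivialisedBy 𝒰 X.X₁

/-- **[PERM]** Permutation modules on `G/U`, `U` open, are good. -/
def PermGoodStatement : Prop :=
  ∀ {k G : Type u} [Field k] [Group G] (𝒰 : LevelSys G) (U : Subgroup G),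
    (∃ N ∈ 𝒰.sets, N ≤ U) →
    Module.Finite k (Rep.ofMulAction k G (G ⧸ U)) ∧
      IsTrivialisedBy 𝒰 (Rep.ofMulAction k G (G ⧸ U))

/-- **[ADD]** The four functors are additive. -/
def AdditiveStatement : Prop :=
  ∀ {k G : Type u} [Field k] [Group G],
    (∀ 𝔄 : ArithDatum k G, (ccFunctor 𝔄).Additive ∧ (dualSideFunctor 𝔄).Additive) ∧
    (∀ (𝒱 : LevelSys G) (χ : G →* kˣ),
      (lvlFunctor (k := k) 𝒱).Additive ∧ (lDualSideFunctor 𝒱 χ).Additive)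

/-! ### The global engine -/

section global

variable {k G : Type u} [Field k] [Group G]

/-- `U` is open and `χ` is trivial on `U`. -/
def IsChiOpen (𝒰 : LevelSys G) (χ : G →* kˣ) (U : Subgroup G) : Prop :=
  (∃ N ∈ 𝒰.sets, N ≤ U) ∧ ∀ u ∈ U, χ u = 1

variable (𝔄 : ArithDatum k G) (T : Trace 𝔄) (hc : ∀ M : Rep.{u} k G, ThetaComm M T)

/-- Dimension shifting, global: `E1`, `E2`, `M2`, `M3` for permutation modules. -/
theorem global_shift (hds : DsEpiStatement.{u}) (heff : EffaceStatement.{u})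
    (hsum : SumMonoStatement.{u}) (hdz : DualZeroStatement.{u}) (hsub : GoodSubStatement.{u})
    (hperm : PermGoodStatement.{u}) (hadd : AdditiveStatement.{u})
    (hfin : ∀ M : Rep.{u} k G, IsGood 𝔄 M →
      Module.Finite k (lvlH 𝔄.lvl (M.dualTwist 𝔄.χ) 1) ∧
      Module.Finite k (lvlH 𝔄.lvl (M.dualTwist 𝔄.χ) 2))
    (hE3 : ∀ M : Rep.{u} k G, IsGood 𝔄 M →
      Epi (HomologicalComplex.homologyMap (thetaHom M T (hc M)) 3))
    (hM3 : ∀ U : Subgroup G, IsChiOpen 𝔄.lvl 𝔄.χ U →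
      Epi (HomologicalComplex.homologyMap
        (thetaHom (Rep.ofMulAction k G (G ⧸ U)) T (hc _)) 3) →
      Mono (HomologicalComplex.homologyMap
        (thetaHom (Rep.ofMulAction k G (G ⧸ U)) T (hc _)) 3))
    (hM2 : ∀ U : Subgroup G, IsChiOpen 𝔄.lvl 𝔄.χ U →
      Epi (HomologicalComplex.homologyMap
        (thetaHom (Rep.ofMulAction k G (G ⧸ U)) T (hc _)) 2) →
      Mono (HomologicalComplex.homologyMap
        (thetaHom (Rep.ofMulAction k G (G ⧸ U)) T (hc _)) 2))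
    (U : Subgroup G) (hU : IsChiOpen 𝔄.lvl 𝔄.χ U) :
    DualityP (thetaHom (Rep.ofMulAction k G (G ⧸ U)) T (hc _)) := by
  obtain ⟨hadd1, hadd2⟩ := (hadd (k := k) (G := G)).1 𝔄
  have hexact : ∀ X : ShortComplex (Rep.{u} k G), X.ShortExact → IsGood 𝔄 X.X₂ →
      (X.map (ccFunctor 𝔄)).ShortExact ∧ (X.map (dualSideFunctor 𝔄)).ShortExact :=
    fun X hX hg => frNat_shortExact 𝔄 Fermat.Agent.H87.Cft.lvlSes X hX hg
  have hsub' : ∀ X : ShortComplex (Rep.{u} k G), X.ShortExact → IsGood 𝔄 X.X₂ →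
      IsGood 𝔄 X.X₁ := fun X hX hg => hsub 𝔄.lvl X hX hg.1 hg.2
  have hP : ∀ V : Subgroup G, IsChiOpen 𝔄.lvl 𝔄.χ V →
      IsGood 𝔄 (Rep.ofMulAction k G (G ⧸ V)) := fun V hV => hperm 𝔄.lvl V hV.1
  -- M3 on permutation modules
  have M3 : ∀ V : Subgroup G, IsChiOpen 𝔄.lvl 𝔄.χ V →
      Mono (HomologicalComplex.homologyMap
        (thetaHom (Rep.ofMulAction k G (G ⧸ V)) T (hc _)) 3) :=
    fun V hV => hM3 V hV (hE3 _ (hP V hV))
  -- E2 on good modules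
  have E2 : ∀ M : Rep.{u} k G, IsGood 𝔄 M →
      Epi (HomologicalComplex.homologyMap (thetaHom M T (hc M)) 2) := by
    intro M hM
    obtain ⟨N, hN, hχN, I, π, hπ, hI1, hI2, hIsum, hzero⟩ :=
      heff 𝔄.lvl 𝔄.χ 𝔄.χ_level M hM.1 hM.2 1 le_rfl (hfin M hM).1
    refine shiftStep (ccFunctor 𝔄) (dualSideFunctor 𝔄) (thetaNatTrans T hc) hds (IsGood 𝔄)
      hexact hsub' 2 hE3 M ⟨I, π, hπ, ⟨hI1, hI2⟩, ?_, ?_⟩
    · exact hsum (ccFunctor 𝔄) (dualSideFunctor 𝔄) (thetaNatTrans T hc) 3 _ I hIsum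
        (M3 N ⟨⟨N, hN, le_rfl⟩, hχN⟩)
    · exact (hdz (lvlMap 𝔄.lvl (dualTwistMap 𝔄.χ π))).1 hzero
  -- M2 on permutation modules
  have M2 : ∀ V : Subgroup G, IsChiOpen 𝔄.lvl 𝔄.χ V →
      Mono (HomologicalComplex.homologyMap
        (thetaHom (Rep.ofMulAction k G (G ⧸ V)) T (hc _)) 2) :=
    fun V hV => hM2 V hV (E2 _ (hP V hV))
  -- E1 on good modules
  have E1 : ∀ M : Rep.{u} k G, IsGood 𝔄 M →
      Epi (HomologicalComplex.homologyMap (thetaHom M T (hc M)) 1) := by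
    intro M hM
    obtain ⟨N, hN, hχN, I, π, hπ, hI1, hI2, hIsum, hzero⟩ :=
      heff 𝔄.lvl 𝔄.χ 𝔄.χ_level M hM.1 hM.2 2 (by norm_num) (hfin M hM).2
    refine shiftStep (ccFunctor 𝔄) (dualSideFunctor 𝔄) (thetaNatTrans T hc) hds (IsGood 𝔄)
      hexact hsub' 1 E2 M ⟨I, π, hπ, ⟨hI1, hI2⟩, ?_, ?_⟩
    · exact hsum (ccFunctor 𝔄) (dualSideFunctor 𝔄) (thetaNatTrans T hc) 2 _ I hIsum
        (M2 N ⟨⟨N, hN, le_rfl⟩, hχN⟩)
    · exact (hdz (lvlMap 𝔄.lvl (dualTwistMap 𝔄.χ π))).2 hzero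
  have hPU := hP U hU
  have e2 := E2 _ hPU
  have m2 := M2 U hU
  exact ⟨E1 _ hPU, isIso_of_mono_of_epi _, M3 U hU⟩

end global

/-! ### The local engine -/

section local_

variable {k Γ : Type u} [Field k] [Group Γ] {𝒱 : LevelSys Γ} {χ : Γ →* kˣ}

/-- `λ` as a natural transformation. -/
noncomputable def lthetaNatTrans (Tv : LTrace 𝒱 χ) (hcv : ∀ M : Rep.{u} k Γ, LThetaComm Tv M) :
    lvlFunctor 𝒱 ⟶ lDualSideFunctor 𝒱 χ where
  app M := lthetaHom Tv M (hcv M)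
  naturality _ _ f := lthetaHom_naturality Tv f (hcv _) (hcv _)

variable (hχ : ∃ N ∈ 𝒱.sets, ∀ s ∈ N, χ s = 1) (Tv : LTrace 𝒱 χ)
  (hcv : ∀ M : Rep.{u} k Γ, LThetaComm Tv M)

include hχ in
/-- Dimension shifting, local: `LE0`, `LE1`, `LM1`, `LM2` for permutation modules. -/
theorem local_shift (hds : DsEpiStatement.{u}) (heff : EffaceStatement.{u})
    (hsum : SumMonoStatement.{u}) (hdz : LDualZeroStatement.{u}) (hsub : GoodSubStatement.{u})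
    (hperm : PermGoodStatement.{u}) (hadd : AdditiveStatement.{u})
    (hfin : ∀ M : Rep.{u} k Γ, IsLGood 𝒱 M →
      Module.Finite k (lvlH 𝒱 (M.dualTwist χ) 1) ∧
      Module.Finite k (lvlH 𝒱 (M.dualTwist χ) 2))
    (hE2 : ∀ M : Rep.{u} k Γ, IsLGood 𝒱 M →
      Epi (HomologicalComplex.homologyMap (lthetaHom Tv M (hcv M)) 2))
    (hM2 : ∀ V : Subgroup Γ, IsChiOpen 𝒱 χ V →
      Epi (HomologicalComplex.homologyMap
        (lthetaHom Tv (Rep.ofMulAction k Γ (Γ ⧸ V)) (hcv _)) 2) →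
      Mono (HomologicalComplex.homologyMap
        (lthetaHom Tv (Rep.ofMulAction k Γ (Γ ⧸ V)) (hcv _)) 2))
    (hM1 : ∀ V : Subgroup Γ, IsChiOpen 𝒱 χ V →
      Epi (HomologicalComplex.homologyMap
        (lthetaHom Tv (Rep.ofMulAction k Γ (Γ ⧸ V)) (hcv _)) 1) →
      Mono (HomologicalComplex.homologyMap
        (lthetaHom Tv (Rep.ofMulAction k Γ (Γ ⧸ V)) (hcv _)) 1))
    (V : Subgroup Γ) (hV : IsChiOpen 𝒱 χ V) :
    LDualityP (lthetaHom Tv (Rep.ofMulAction k Γ (Γ ⧸ V)) (hcv _)) := by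
  obtain ⟨hadd1, hadd2⟩ := (hadd (k := k) (G := Γ)).2 𝒱 χ
  have hexact : ∀ X : ShortComplex (Rep.{u} k Γ), X.ShortExact → IsLGood 𝒱 X.X₂ →
      (X.map (lvlFunctor 𝒱)).ShortExact ∧ (X.map (lDualSideFunctor 𝒱 χ)).ShortExact :=
    fun X hX hg => ⟨Fermat.Agent.H87.Cft.lvlSes 𝒱 X hX hg.2.isSmooth,
      lDualSide_shortExact 𝒱 χ X hX
        (Fermat.Agent.H47.Cft.isTrivialisedBy_dualTwist χ 𝒱 hχ _ hg.2).isSmooth⟩
  have hsub' : ∀ X : ShortComplex (Rep.{u} k Γ), X.ShortExact → IsLGood 𝒱 X.X₂ →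
      IsLGood 𝒱 X.X₁ := fun X hX hg => hsub 𝒱 X hX hg.1 hg.2
  have hP : ∀ W : Subgroup Γ, IsChiOpen 𝒱 χ W →
      IsLGood 𝒱 (Rep.ofMulAction k Γ (Γ ⧸ W)) := fun W hW => hperm 𝒱 W hW.1
  have M2 : ∀ W : Subgroup Γ, IsChiOpen 𝒱 χ W →
      Mono (HomologicalComplex.homologyMap
        (lthetaHom Tv (Rep.ofMulAction k Γ (Γ ⧸ W)) (hcv _)) 2) :=
    fun W hW => hM2 W hW (hE2 _ (hP W hW))
  have E1 : ∀ M : Rep.{u} k Γ, IsLGood 𝒱 M →
      Epi (HomologicalComplex.homologyMap (lthetaHom Tv M (hcv M)) 1) := by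
    intro M hM
    obtain ⟨N, hN, hχN, I, π, hπ, hI1, hI2, hIsum, hzero⟩ :=
      heff 𝒱 χ hχ M hM.1 hM.2 1 le_rfl (hfin M hM).1
    refine shiftStep (lvlFunctor 𝒱) (lDualSideFunctor 𝒱 χ) (lthetaNatTrans Tv hcv) hds
      (IsLGood 𝒱) hexact hsub' 1 hE2 M ⟨I, π, hπ, ⟨hI1, hI2⟩, ?_, ?_⟩
    · exact hsum (lvlFunctor 𝒱) (lDualSideFunctor 𝒱 χ) (lthetaNatTrans Tv hcv) 2 _ I hIsum
        (M2 N ⟨⟨N, hN, le_rfl⟩, hχN⟩)
    · exact (hdz (lvlMap 𝒱 (dualTwistMap χ π))).1 hzero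
  have M1 : ∀ W : Subgroup Γ, IsChiOpen 𝒱 χ W →
      Mono (HomologicalComplex.homologyMap
        (lthetaHom Tv (Rep.ofMulAction k Γ (Γ ⧸ W)) (hcv _)) 1) :=
    fun W hW => hM1 W hW (E1 _ (hP W hW))
  have E0 : ∀ M : Rep.{u} k Γ, IsLGood 𝒱 M →
      Epi (HomologicalComplex.homologyMap (lthetaHom Tv M (hcv M)) 0) := by
    intro M hM
    obtain ⟨N, hN, hχN, I, π, hπ, hI1, hI2, hIsum, hzero⟩ :=
      heff 𝒱 χ hχ M hM.1 hM.2 2 (by norm_num) (hfin M hM).2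
    refine shiftStep (lvlFunctor 𝒱) (lDualSideFunctor 𝒱 χ) (lthetaNatTrans Tv hcv) hds
      (IsLGood 𝒱) hexact hsub' 0 E1 M ⟨I, π, hπ, ⟨hI1, hI2⟩, ?_, ?_⟩
    · exact hsum (lvlFunctor 𝒱) (lDualSideFunctor 𝒱 χ) (lthetaNatTrans Tv hcv) 1 _ I hIsum
        (M1 N ⟨⟨N, hN, le_rfl⟩, hχN⟩)
    · exact (hdz (lvlMap 𝒱 (dualTwistMap χ π))).2 hzero
  have hPV := hP V hV
  have e1 := E1 _ hPV
  have m1 := M1 V hV
  exact ⟨E0 _ hPV, isIso_of_mono_of_epi _, M2 V hV⟩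

end local_

end Fermat.Agent.H13.Cft
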