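/-
P-CFT (helper13): FRAME TOOLS for the number-theory side — definitions and Prop-statements.

* cone long exact sequence : `coneFst`, `ConeLesStatement`
* Shapiro                   : `LevelSys.restrict`, `coindEval`, `shapiroMap`, `ShapiroStatement`
-/
import Fermat.Agent.H13.Cft.Interfaces

set_option autoImplicit false

universe u

open CategoryTheory groupCohomology

namespace Fermat.Agent.H13.Cft

variable {k G : Type u} [CommRing k] [Group G]

/-! ### The cone -/

section cone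

variable {K L : CochainComplex (ModuleCat.{u} k) ℕ} (φ : K ⟶ L)

/-- Components of the projection `coneShift φ ⟶ K`. -/
noncomputable def coneFstF : ∀ n, (coneShift φ).X n ⟶ K.X n
  | 0 => 𝟙 _
  | n + 1 => ModuleCat.ofHom (LinearMap.fst k (K.X (n + 1)) (L.X n))

/-- **[F-CONE]** The long exact sequence of the shifted cone, in cocycle form.
`bd [b] = [(0, b)]`, `π [(a, b)] = [a]`:
`Hⁿ(K) → Hⁿ(L) →bd Hⁿ⁺¹(cone) →π Hⁿ⁺¹(K) → Hⁿ⁺¹(L)` is exact. -/
def ConeLesStatement : Prop :=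
  ∀ {k : Type u} [CommRing k] {K L : CochainComplex (ModuleCat.{u} k) ℕ} (φ : K ⟶ L),
    ∃ (π : coneShift φ ⟶ K) (bd : ∀ n, L.homology n ⟶ (coneShift φ).homology (n + 1)),
      (∀ n, π.f n = coneFstF φ n) ∧
      (∀ (n : ℕ) (b : L.X n) (hb : (L.d n (n + 1)).hom b = 0)
        (h0 : ((coneShift φ).d (n + 1) (n + 2)).hom ((0, b) : K.X (n + 1) × L.X n) = 0),
        (bd n).hom (hMk L n b hb) = hMk (coneShift φ) (n + 1) ((0, b) : K.X (n + 1) × L.X n) h0) ∧
      (∀ n, Function.Exact (HomologicalComplex.homologyMap φ n).hom (bd n).hom) ∧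
      (∀ n, Function.Exact (bd n).hom (HomologicalComplex.homologyMap π (n + 1)).hom) ∧
      (∀ n, Function.Exact (HomologicalComplex.homologyMap π n).hom
        (HomologicalComplex.homologyMap φ n).hom)

end cone

/-! ### Shapiro -/

/-- The level system induced on an open subgroup `U` (one containing a level). -/
def LevelSys.restrict (𝒰 : LevelSys G) (U : Subgroup G) (hU : ∃ N ∈ 𝒰.sets, N ≤ U) :
    LevelSys U where
  sets := {N' | ∃ N ∈ 𝒰.sets, N ≤ U ∧ N.subgroupOf U = N'}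
  nonempty := by
    obtain ⟨N, hN, hNU⟩ := hU
    exact ⟨_, N, hN, hNU, rfl⟩
  normal := by
    rintro _ ⟨N, hN, -, rfl⟩
    have := 𝒰.normal N hN
    exact Subgroup.normal_subgroupOf
  finiteIndex := by
    rintro _ ⟨N, hN, -, rfl⟩
    have := 𝒰.finiteIndex N hN
    exact inferInstance
  directed := by
    rintro _ ⟨N, hN, hNU, rfl⟩ _ ⟨N', hN', hN'U, rfl⟩
    obtain ⟨N'', hN'', hle⟩ := 𝒰.directed N hN N' hN'
    refine ⟨_, ⟨N'', hN'', (hle.trans inf_le_left).trans hNU, rfl⟩, ?_⟩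
    intro x hx
    exact ⟨hle.trans inf_le_left hx, hle.trans inf_le_right hx⟩

lemma LevelSys.restrict_compat (𝒰 : LevelSys G) (U : Subgroup G)
    (hU : ∃ N ∈ 𝒰.sets, N ≤ U) : (𝒰.restrict U hU).Compat 𝒰 U.subtype := by
  intro N hN
  obtain ⟨N₀, hN₀, hN₀U⟩ := hU
  obtain ⟨N', hN', hle⟩ := 𝒰.directed N hN N₀ hN₀
  exact ⟨_, ⟨N', hN', (hle.trans inf_le_right).trans hN₀U, rfl⟩,
    fun x hx => hle.trans inf_le_left hx⟩

/-- Evaluation at `1`: the counit `Res_U (Coind_U^G A) ⟶ A`. -/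
noncomputable def coindEval (U : Subgroup G) (A : Rep.{u} k U) :
    Rep.res U.subtype (Rep.coind U.subtype A) ⟶ A :=
  Rep.ofHom ⟨LinearMap.proj 1 ∘ₗ (A.ρ.coindV U.subtype).subtype, fun g => by
    ext x
    have h := x.2 g 1
    simp only [mul_one] at h
    show x.1 (1 * (g : G)) = A.ρ g (x.1 1)
    rw [one_mul]
    exact h⟩

/-- The Shapiro map on level cochains: restrict to `U` and evaluate at `1`. -/
noncomputable def shapiroMap (𝒰 : LevelSys G) (U : Subgroup G) (hU : ∃ N ∈ 𝒰.sets, N ≤ U)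
    (A : Rep.{u} k U) :
    lvlComplex 𝒰 (Rep.coind U.subtype A) ⟶ lvlComplex (𝒰.restrict U hU) A :=
  lvlCochainsMap U.subtype (coindEval U A) (𝒰.restrict_compat U hU)

/-- **[F-SHAP]** Shapiro's lemma for level cohomology: the Shapiro map is a quasi-isomorphism
for smooth coefficients. -/
def ShapiroStatement : Prop :=
  ∀ {k G : Type u} [CommRing k] [Group G] (𝒰 : LevelSys G) (U : Subgroup G)
    (hU : ∃ N ∈ 𝒰.sets, N ≤ U) (A : Rep.{u} k U), IsSmooth (𝒰.restrict U hU) A →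
    ∀ n, IsIso (HomologicalComplex.homologyMap (shapiroMap 𝒰 U hU A) n)

end Fermat.Agent.H13.Cft
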