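/-
P-CFT (helper13): STEP D v3 - the global engine WITHOUT the global `H³`.

`global_shift3` : `Θ¹`, `Θ²` onto on good modules and `Θ²` injective on permutation modules, from
  * every class of `H³(dual side)` is `Θ³` of a boundary class at one place `v₀` (good modules),
  * `Θ³` injective on the boundary classes at `v₀` of `k[G/N]`, `N` a level with `χ|N = 1`,
  * `Θ²` injective on permutation modules (given onto),
  * finiteness of `H¹`, `H²`, effacement, direct sums, the abstract shifting lemmas.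
-/
import Fermat.Agent.H13.Cft.ShiftRel
import Fermat.Agent.H13.Cft.StepD
import Fermat.Agent.H34.Cft.ConeLes
import Fermat.Agent.H77.FrCore.KerB

set_option autoImplicit false

universe u

open CategoryTheory CategoryTheory.Limits

namespace Fermat.Agent.H13.Cft

open Fermat.Agent.H53 Fermat.Agent.H47.Cft

section global

variable {k G : Type u} [Field k] [Group G] (𝔄 : ArithDatum k G)

/-- Local cocycles supported at the place `v`, as cocycles of the product of the local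
complexes. -/
noncomputable def locSingleCocycles (M : Rep.{u} k G) (v : 𝔄.ι) (n : ℕ) :
    LinearMap.ker (lvlD (𝔄.lvlv v) (Rep.res (𝔄.loc v) M) n) →ₗ[k]
      LinearMap.ker ((locComplex 𝔄 M).d n (n + 1)).hom :=
  LinearMap.codRestrict _
    (Fermat.Agent.H77.frcLocSingle 𝔄 M v n ∘ₗ
      (LinearMap.ker (lvlD (𝔄.lvlv v) (Rep.res (𝔄.loc v) M) n)).subtype)
    (fun a => by
      rw [LinearMap.mem_ker, LinearMap.comp_apply, Submodule.subtype_apply,
        Fermat.Agent.H77.frcLocSingle_d, LinearMap.mem_ker.1 a.2, map_zero])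

/-- The boundary classes at `v`: the image of `Z²(Γ_v, M) → H_c³(M)`, `a ↦ [(0, a at v)]`. -/
noncomputable def bdRange (v : 𝔄.ι) (M : Rep.{u} k G) :
    Submodule k ((ccComplex 𝔄 M).homology 3) :=
  LinearMap.range
    (Fermat.Agent.H34.coneBdCocycles (resTot 𝔄 M) 2 ∘ₗ locSingleCocycles 𝔄 M v 2)

/-- **[BD-NAT]** The boundary classes are natural in the coefficients. -/
def BdRangeNatStatement : Prop :=
  ∀ {k G : Type u} [Field k] [Group G] (𝔄 : ArithDatum k G) (v : 𝔄.ι)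
    (M M' : Rep.{u} k G) (f : M ⟶ M'), ∀ x ∈ bdRange 𝔄 v M,
    (HomologicalComplex.homologyMap ((ccFunctor 𝔄).map f) 3).hom x ∈ bdRange 𝔄 v M'

variable (T : Trace 𝔄) (hc : ∀ M : Rep.{u} k G, ThetaComm M T)

/-- Dimension shifting, global, v3: `Θ¹`, `Θ²` onto on good modules, `Θ²` injective on
permutation modules. -/
theorem global_shift3 (hds : DsEpiStatement.{u}) (hdsr : DsEpiRelStatement.{u})
    (heff : EffaceStatement.{u}) (hsum : SumMonoStatement.{u})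
    (hsumr : SumMonoRelStatement.{u}) (hdz : DualZeroStatement.{u})
    (hsub : GoodSubStatement.{u}) (hperm : PermGoodStatement.{u})
    (hadd : AdditiveStatement.{u}) (hbd : BdRangeNatStatement.{u})
    (hfin : ∀ M : Rep.{u} k G, IsGood 𝔄 M →
      Module.Finite k (lvlH 𝔄.lvl (M.dualTwist 𝔄.χ) 1) ∧
      Module.Finite k (lvlH 𝔄.lvl (M.dualTwist 𝔄.χ) 2))
    (v₀ : 𝔄.ι)
    (hE3 : ∀ M : Rep.{u} k G, IsGood 𝔄 M →
      ∀ y : (dualCx (lvlComplex 𝔄.lvl (M.dualTwist 𝔄.χ))).homology 3,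
        ∃ x ∈ bdRange 𝔄 v₀ M,
          (HomologicalComplex.homologyMap (thetaHom M T (hc M)) 3).hom x = y)
    (hM3 : ∀ N ∈ 𝔄.lvl.sets, (∀ s ∈ N, 𝔄.χ s = 1) →
      ∀ x ∈ bdRange 𝔄 v₀ (Rep.ofMulAction k G (G ⧸ N)),
        (HomologicalComplex.homologyMap
          (thetaHom (Rep.ofMulAction k G (G ⧸ N)) T (hc _)) 3).hom x = 0 → x = 0)
    (hM2 : ∀ U : Subgroup G, IsChiOpen 𝔄.lvl 𝔄.χ U →
      Epi (HomologicalComplex.homologyMap
        (thetaHom (Rep.ofMulAction k G (G ⧸ U)) T (hc _)) 2) →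
      Mono (HomologicalComplex.homologyMap
        (thetaHom (Rep.ofMulAction k G (G ⧸ U)) T (hc _)) 2)) :
    (∀ M : Rep.{u} k G, IsGood 𝔄 M →
      Epi (HomologicalComplex.homologyMap (thetaHom M T (hc M)) 1)) ∧
    (∀ M : Rep.{u} k G, IsGood 𝔄 M →
      Epi (HomologicalComplex.homologyMap (thetaHom M T (hc M)) 2)) ∧
    (∀ U : Subgroup G, IsChiOpen 𝔄.lvl 𝔄.χ U →
      Mono (HomologicalComplex.homologyMap
        (thetaHom (Rep.ofMulAction k G (G ⧸ U)) T (hc _)) 2)) := by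
  obtain ⟨hadd1, hadd2⟩ := (hadd (k := k) (G := G)).1 𝔄
  have hexact : ∀ X : ShortComplex (Rep.{u} k G), X.ShortExact → IsGood 𝔄 X.X₂ →
      (X.map (ccFunctor 𝔄)).ShortExact ∧ (X.map (dualSideFunctor 𝔄)).ShortExact :=
    fun X hX hg => frNat_shortExact 𝔄 Fermat.Agent.H87.Cft.lvlSes X hX hg
  have hsub' : ∀ X : ShortComplex (Rep.{u} k G), X.ShortExact → IsGood 𝔄 X.X₂ →
      IsGood 𝔄 X.X₁ := fun X hX hg => hsub 𝔄.lvl X hX hg.1 hg.2
  have hP : ∀ V : Subgroup G, IsChiOpen 𝔄.lvl 𝔄.χ V →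
      IsGood 𝔄 (Rep.ofMulAction k G (G ⧸ V)) := fun V hV => hperm 𝔄.lvl V hV.1
  -- E2 on good modules
  have E2 : ∀ M : Rep.{u} k G, IsGood 𝔄 M →
      Epi (HomologicalComplex.homologyMap (thetaHom M T (hc M)) 2) := by
    intro M hM
    obtain ⟨N, hN, hχN, I, π, hπ, hI1, hI2, hIsum, hzero⟩ :=
      heff 𝔄.lvl 𝔄.χ 𝔄.χ_level M hM.1 hM.2 1 le_rfl (hfin M hM).1
    refine shiftStepRel (ccFunctor 𝔄) (dualSideFunctor 𝔄) (thetaNatTrans T hc) hdsr (IsGood 𝔄)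
      hexact hsub' 2 (bdRange 𝔄 v₀) (hbd 𝔄 v₀) hE3 M ⟨I, π, hπ, ⟨hI1, hI2⟩, ?_, ?_⟩
    · exact hsumr (ccFunctor 𝔄) (dualSideFunctor 𝔄) (thetaNatTrans T hc) 3 (bdRange 𝔄 v₀)
        (hbd 𝔄 v₀) _ I hIsum (hM3 N hN hχN)
    · exact (hdz (lvlMap 𝔄.lvl (dualTwistMap 𝔄.χ π))).1 hzero
  -- M2 on permutation modules
  have M2 : ∀ V : Subgroup G, IsChiOpen 𝔄.lvl 𝔄.χ V →
      Mono (HomologicalComplex.homologyMap
        (thetaHom (Rep.ofMulAction k G (G ⧸ V)) T (hc _)) 2) :=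
    fun V hV => hM2 V hV (E2 _ (hP V hV))
  -- E1 on good modules
  have E1 : ∀ M : Rep.{u} k G, IsGood 𝔄 M →
      Epi (HomologicalComplex.homologyMap (thetaHom M T (hc M)) 1) := by
    intro M hM
    obtain ⟨N, hN, hχN, I, π, hπ, hI1, hI2, hIsum, hzero⟩ :=
      heff 𝔄.lvl 𝔄.χ 𝔄.χ_level M hM.1 hM.2 2 (by norm_num) (hfin M hM).2
    refine shiftStep (ccFunctor 𝔄) (dualSideFunctor 𝔄) (thetaNatTrans T hc) hds (IsGood 𝔄)
      hexact hsub' 1 E2 M ⟨I, π, hπ, ⟨hI1, hI2⟩, ?_, ?_⟩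
    · exact hsum (ccFunctor 𝔄) (dualSideFunctor 𝔄) (thetaNatTrans T hc) 2 _ I hIsum
        (M2 N ⟨⟨N, hN, le_rfl⟩, hχN⟩)
    · exact (hdz (lvlMap 𝔄.lvl (dualTwistMap 𝔄.χ π))).2 hzero
  exact ⟨E1, E2, M2⟩

end global

end Fermat.Agent.H13.Cft
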