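/-
P-CFT (helper13): STEP D v2 - THE WAIST IN DIMENSION FORM.

Number theory delivers four statements about DIMENSIONS of cohomology groups of permutation
modules (`p` odd, `p ∈ S`; `U`, `V` open with trivial cyclotomic character):

* `TraceNonzeroStatement` [TR] : a trace `T` on `C_c³(μ_p)` with every local component nonzero on
                                 the local `2`-cocycles;
* `GlobalTopStatement`    [GA] : `dim H_c³(𝔽_p[G/U]) ≤ 1`;
* `GlobalCountStatement`  [GC] : `H¹(G, P)`, `Ш²(P)` finite and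
                                 `dim H¹(loc, P) + 2 dim Ш²(P) ≤ 2 dim H¹(G, P)`, `P = 𝔽_p[G/U]`;
* `LocalCohStatement`     [LC] : `H¹(Γ_q, P)` finite, `dim H²(Γ_q, P) ≤ 1`, `H³(Γ_q, P) = 0`,
                                 `P = 𝔽_p[Γ_q/V]`.

`waistBase_of_v2` : these four (+ the frame statements listed in its hypotheses) imply
`WaistBaseStatement`, hence S55 (`Final.s55_of_waistBase`).
-/
import Fermat.Agent.H13.Cft.StepD

set_option autoImplicit false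

open CategoryTheory CategoryTheory.Limits ExtCitation

namespace Fermat.Agent.H13.Cft

open Fermat.Agent.H53 Fermat.Agent.H47.Cft

/-! ### Frame statements used by the assembly -/

/-- **[FIN]** Finiteness dévissage: if `Hⁿ(G, 𝔽_p[G/U])` is finite for all `χ`-open `U`, then
`Hⁿ(G, M)` is finite for every good `M`. -/
def FinDevissageStatement : Prop :=
  ∀ {p : ℕ} [Fact p.Prime] {G : Type} [Group G] (𝒰 : LevelSys G) (χ : G →* (ZMod p)ˣ),
    (∃ N ∈ 𝒰.sets, ∀ s ∈ N, χ s = 1) → ∀ n : ℕ,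
    (∀ U : Subgroup G, IsChiOpen 𝒰 χ U →
      Module.Finite (ZMod p) (lvlH 𝒰 (Rep.ofMulAction (ZMod p) G (G ⧸ U)) n)) →
    ∀ M : Rep (ZMod p) G, Module.Finite (ZMod p) M → IsTrivialisedBy 𝒰 M →
      Module.Finite (ZMod p) (lvlH 𝒰 M n)

/-- **[VAN]** Vanishing dévissage: if `Hⁿ(G, 𝔽_p[G/U]) = 0` for all `χ`-open `U`, then
`Hⁿ(G, M) = 0` for every good `M`. -/
def VanishDevissageStatement : Prop :=
  ∀ {p : ℕ} [Fact p.Prime] {G : Type} [Group G] (𝒰 : LevelSys G) (χ : G →* (ZMod p)ˣ),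
    (∃ N ∈ 𝒰.sets, ∀ s ∈ N, χ s = 1) → ∀ n : ℕ,
    (∀ U : Subgroup G, IsChiOpen 𝒰 χ U →
      IsZero (lvlH 𝒰 (Rep.ofMulAction (ZMod p) G (G ⧸ U)) n)) →
    ∀ M : Rep (ZMod p) G, Module.Finite (ZMod p) M → IsTrivialisedBy 𝒰 M →
      IsZero (lvlH 𝒰 M n)

/-- **[E3]** `Θ³` is onto on good modules, if at one place `v` the local `H³` vanishes on good
modules and the local component of the trace is nonzero on the `2`-cocycles. -/
def TopOntoStatement : Prop :=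
  ∀ {p : ℕ} [Fact p.Prime] {G : Type} [Group G] (𝔄 : ArithDatum (ZMod p) G) (T : Trace 𝔄)
    (hc : ∀ M : Rep (ZMod p) G, ThetaComm M T) (v : 𝔄.ι),
    (∀ N : Rep (ZMod p) (𝔄.Γ v), IsLGood (𝔄.lvlv v) N → IsZero (lvlH (𝔄.lvlv v) N 3)) →
    (∃ a : lvlCochains (𝔄.lvlv v) (Rep.res (𝔄.loc v) (muRep 𝔄.χ)) 2,
      lvlD (𝔄.lvlv v) (Rep.res (𝔄.loc v) (muRep 𝔄.χ)) 2 a = 0 ∧ T.localAt v a ≠ 0) →
    ∀ M : Rep (ZMod p) G, IsGood 𝔄 M →
      Epi (HomologicalComplex.homologyMap (thetaHom M T (hc M)) 3)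

/-- **[L-E2]** `λ²` is onto on good modules, if the local `H³` vanishes on good modules and the
local trace is nonzero on the `2`-cocycles. -/
def LTopOntoStatement : Prop :=
  ∀ {p : ℕ} [Fact p.Prime] {Γ : Type} [Group Γ] (𝒱 : LevelSys Γ) (χ : Γ →* (ZMod p)ˣ),
    (∃ N ∈ 𝒱.sets, ∀ s ∈ N, χ s = 1) →
    ∀ (Tv : LTrace 𝒱 χ) (hcv : ∀ M : Rep (ZMod p) Γ, LThetaComm Tv M),
    (∀ N : Rep (ZMod p) Γ, IsLGood 𝒱 N → IsZero (lvlH 𝒱 N 3)) →
    (∃ a : lvlCochains 𝒱 (muRep χ) 2, lvlD 𝒱 (muRep χ) 2 a = 0 ∧ Tv.t a ≠ 0) →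
    ∀ M : Rep (ZMod p) Γ, IsLGood 𝒱 M →
      Epi (HomologicalComplex.homologyMap (lthetaHom Tv M (hcv M)) 2)

/-- **[M3]** On a permutation module `P = 𝔽_p[G/U]` (`U` `χ`-open): `Θ³` onto and
`dim H_c³(P) ≤ 1` imply `Θ³` injective. -/
def TopMonoStatement : Prop :=
  ∀ {p : ℕ} [Fact p.Prime] {G : Type} [Group G] (𝔄 : ArithDatum (ZMod p) G) (T : Trace 𝔄)
    (hc : ∀ M : Rep (ZMod p) G, ThetaComm M T) (U : Subgroup G), IsChiOpen 𝔄.lvl 𝔄.χ U →
    Epi (HomologicalComplex.homologyMap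
      (thetaHom (Rep.ofMulAction (ZMod p) G (G ⧸ U)) T (hc _)) 3) →
    Module.Finite (ZMod p) ((ccComplex 𝔄 (Rep.ofMulAction (ZMod p) G (G ⧸ U))).homology 3) →
    Module.finrank (ZMod p)
      ((ccComplex 𝔄 (Rep.ofMulAction (ZMod p) G (G ⧸ U))).homology 3) ≤ 1 →
    Mono (HomologicalComplex.homologyMap
      (thetaHom (Rep.ofMulAction (ZMod p) G (G ⧸ U)) T (hc _)) 3)

/-- **[L-M2]** On a permutation module `P = 𝔽_p[Γ/V]` (`V` `χ`-open): `λ²` onto and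
`dim H²(Γ, P) ≤ 1` imply `λ²` injective. -/
def LTopMonoStatement : Prop :=
  ∀ {p : ℕ} [Fact p.Prime] {Γ : Type} [Group Γ] (𝒱 : LevelSys Γ) (χ : Γ →* (ZMod p)ˣ)
    (Tv : LTrace 𝒱 χ) (hcv : ∀ M : Rep (ZMod p) Γ, LThetaComm Tv M) (V : Subgroup Γ),
    IsChiOpen 𝒱 χ V →
    Epi (HomologicalComplex.homologyMap
      (lthetaHom Tv (Rep.ofMulAction (ZMod p) Γ (Γ ⧸ V)) (hcv _)) 2) →
    Module.Finite (ZMod p) (lvlH 𝒱 (Rep.ofMulAction (ZMod p) Γ (Γ ⧸ V)) 2) →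
    Module.finrank (ZMod p) (lvlH 𝒱 (Rep.ofMulAction (ZMod p) Γ (Γ ⧸ V)) 2) ≤ 1 →
    Mono (HomologicalComplex.homologyMap
      (lthetaHom Tv (Rep.ofMulAction (ZMod p) Γ (Γ ⧸ V)) (hcv _)) 2)

/-- **[L-M1]** On a permutation module `P = 𝔽_p[Γ/V]` (`V` `χ`-open, so `P ≅ P^*(χ)`): `λ¹` onto
and `H¹(Γ, P)` finite imply `λ¹` injective. -/
def LMidMonoStatement : Prop :=
  ∀ {p : ℕ} [Fact p.Prime] {Γ : Type} [Group Γ] (𝒱 : LevelSys Γ) (χ : Γ →* (ZMod p)ˣ)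
    (Tv : LTrace 𝒱 χ) (hcv : ∀ M : Rep (ZMod p) Γ, LThetaComm Tv M) (V : Subgroup Γ),
    IsChiOpen 𝒱 χ V →
    Epi (HomologicalComplex.homologyMap
      (lthetaHom Tv (Rep.ofMulAction (ZMod p) Γ (Γ ⧸ V)) (hcv _)) 1) →
    Module.Finite (ZMod p) (lvlH 𝒱 (Rep.ofMulAction (ZMod p) Γ (Γ ⧸ V)) 1) →
    Mono (HomologicalComplex.homologyMap
      (lthetaHom Tv (Rep.ofMulAction (ZMod p) Γ (Γ ⧸ V)) (hcv _)) 1)

/-- **[M2]** The counting lemma: on a permutation module `P = 𝔽_p[G/U]` (`U` `χ`-open), `Θ²` onto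
and `dim H¹(loc, P) + 2 dim Ш²(P) ≤ 2 dim H¹(G, P)` imply `Θ²` injective. -/
def CountMonoStatement : Prop :=
  ∀ {p : ℕ} [Fact p.Prime] {G : Type} [Group G] (𝔄 : ArithDatum (ZMod p) G) (T : Trace 𝔄)
    (hc : ∀ M : Rep (ZMod p) G, ThetaComm M T) (U : Subgroup G), IsChiOpen 𝔄.lvl 𝔄.χ U →
    Epi (HomologicalComplex.homologyMap
      (thetaHom (Rep.ofMulAction (ZMod p) G (G ⧸ U)) T (hc _)) 2) →
    Module.Finite (ZMod p) (lvlH 𝔄.lvl (Rep.ofMulAction (ZMod p) G (G ⧸ U)) 1) →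
    Module.Finite (ZMod p) ((locComplex 𝔄 (Rep.ofMulAction (ZMod p) G (G ⧸ U))).homology 1) →
    Module.Finite (ZMod p) (frameSha 𝔄 (Rep.ofMulAction (ZMod p) G (G ⧸ U)) 2) →
    Module.finrank (ZMod p) ((locComplex 𝔄 (Rep.ofMulAction (ZMod p) G (G ⧸ U))).homology 1)
        + 2 * Module.finrank (ZMod p) (frameSha 𝔄 (Rep.ofMulAction (ZMod p) G (G ⧸ U)) 2)
      ≤ 2 * Module.finrank (ZMod p) (lvlH 𝔄.lvl (Rep.ofMulAction (ZMod p) G (G ⧸ U)) 1) →
    Mono (HomologicalComplex.homologyMap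
      (thetaHom (Rep.ofMulAction (ZMod p) G (G ⧸ U)) T (hc _)) 2)

/-- **[L-TR]** The local trace induced by a global trace. -/
def LTraceOfTraceStatement : Prop :=
  ∀ {p : ℕ} [Fact p.Prime] {G : Type} [Group G] (𝔄 : ArithDatum (ZMod p) G) (T : Trace 𝔄)
    (v : 𝔄.ι),
    ∃ Tv : LTrace (𝔄.lvlv v) (𝔄.χ.comp (𝔄.loc v)),
      (∀ c : (Fin 2 → 𝔄.Γ v) → ZMod p,
        ∀ (h1 : c ∈ lvlCochains (𝔄.lvlv v) (muRep (𝔄.χ.comp (𝔄.loc v))) 2)
          (h2 : c ∈ lvlCochains (𝔄.lvlv v) (Rep.res (𝔄.loc v) (muRep 𝔄.χ)) 2),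
          Tv.t ⟨c, h1⟩ = T.localAt v ⟨c, h2⟩) ∧
      ((∃ a : lvlCochains (𝔄.lvlv v) (Rep.res (𝔄.loc v) (muRep 𝔄.χ)) 2,
          lvlD (𝔄.lvlv v) (Rep.res (𝔄.loc v) (muRep 𝔄.χ)) 2 a = 0 ∧ T.localAt v a ≠ 0) →
        ∃ a : lvlCochains (𝔄.lvlv v) (muRep (𝔄.χ.comp (𝔄.loc v))) 2,
          lvlD (𝔄.lvlv v) (muRep (𝔄.χ.comp (𝔄.loc v))) 2 a = 0 ∧ Tv.t a ≠ 0)

/-- **[LOCFIN]** Finiteness of the cohomology of the product of the local complexes, and of
`Hⁿ(G, M)` from `Шⁿ(M)` and the local cohomology. -/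
def LocFiniteStatement : Prop :=
  ∀ {p : ℕ} [Fact p.Prime] {G : Type} [Group G] (𝔄 : ArithDatum (ZMod p) G)
    (M : Rep (ZMod p) G) (n : ℕ),
    (∀ v, Module.Finite (ZMod p) (lvlH (𝔄.lvlv v) (Rep.res (𝔄.loc v) M) n)) →
    Module.Finite (ZMod p) ((locComplex 𝔄 M).homology n) ∧
      (Module.Finite (ZMod p) (frameSha 𝔄 M n) → Module.Finite (ZMod p) (lvlH 𝔄.lvl M n))

/-! ### The number-theoretic inputs -/

/-- **[TR]** A trace whose local components are nonzero on the local `2`-cocycles. -/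
def TraceNonzeroStatement : Prop :=
  ∀ (p : ℕ) [Fact p.Prime], p ≠ 2 → ∀ (S : Finset Nat.Primes), pPrime p ∈ S →
    ∀ (hχ : ∃ N ∈ (globalLevelSys S).sets, ∀ s ∈ N, cycloChar p s = 1),
    ∃ T : Trace (arithDatumQ p S hχ), ∀ v : (arithDatumQ p S hχ).ι,
      ∃ a : lvlCochains ((arithDatumQ p S hχ).lvlv v)
          (Rep.res ((arithDatumQ p S hχ).loc v) (muRep (arithDatumQ p S hχ).χ)) 2,
        lvlD ((arithDatumQ p S hχ).lvlv v)
          (Rep.res ((arithDatumQ p S hχ).loc v) (muRep (arithDatumQ p S hχ).χ)) 2 a = 0 ∧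
        T.localAt v a ≠ 0

/-- **[GA]** `dim H_c³(𝔽_p[G_ℚ/U]) ≤ 1` for every open `U ≤ G_ℚ` (containing an `S`-level) on
which the cyclotomic character is trivial. -/
def GlobalTopStatement : Prop :=
  ∀ (p : ℕ) [Fact p.Prime], p ≠ 2 → ∀ (S : Finset Nat.Primes), pPrime p ∈ S →
    ∀ (hχ : ∃ N ∈ (globalLevelSys S).sets, ∀ s ∈ N, cycloChar p s = 1) (U : Subgroup GQ),
    IsChiOpen (globalLevelSys S) (cycloChar p) U →
    Module.Finite (ZMod p)
      ((ccComplex (arithDatumQ p S hχ) (Rep.ofMulAction (ZMod p) GQ (GQ ⧸ U))).homology 3) ∧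
    Module.finrank (ZMod p)
      ((ccComplex (arithDatumQ p S hχ) (Rep.ofMulAction (ZMod p) GQ (GQ ⧸ U))).homology 3) ≤ 1

/-- **[GC]** The count: `H¹(G, P)` and `Ш²(P)` are finite and
`dim H¹(loc, P) + 2 dim Ш²(P) ≤ 2 dim H¹(G, P)` for `P = 𝔽_p[G_ℚ/U]`. -/
def GlobalCountStatement : Prop :=
  ∀ (p : ℕ) [Fact p.Prime], p ≠ 2 → ∀ (S : Finset Nat.Primes), pPrime p ∈ S →
    ∀ (hχ : ∃ N ∈ (globalLevelSys S).sets, ∀ s ∈ N, cycloChar p s = 1) (U : Subgroup GQ),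
    IsChiOpen (globalLevelSys S) (cycloChar p) U →
    Module.Finite (ZMod p)
      (lvlH (arithDatumQ p S hχ).lvl (Rep.ofMulAction (ZMod p) GQ (GQ ⧸ U)) 1) ∧
    Module.Finite (ZMod p)
      (frameSha (arithDatumQ p S hχ) (Rep.ofMulAction (ZMod p) GQ (GQ ⧸ U)) 2) ∧
    Module.finrank (ZMod p)
        ((locComplex (arithDatumQ p S hχ) (Rep.ofMulAction (ZMod p) GQ (GQ ⧸ U))).homology 1)
      + 2 * Module.finrank (ZMod p)
        (frameSha (arithDatumQ p S hχ) (Rep.ofMulAction (ZMod p) GQ (GQ ⧸ U)) 2)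
      ≤ 2 * Module.finrank (ZMod p)
        (lvlH (arithDatumQ p S hχ).lvl (Rep.ofMulAction (ZMod p) GQ (GQ ⧸ U)) 1)

/-- **[LC]** Local cohomology of permutation modules: for every prime `q` and every open
`V ≤ Γ_q` on which the cyclotomic character is trivial, `P = 𝔽_p[Γ_q/V]`:
`H¹(Γ_q, P)` finite, `dim H²(Γ_q, P) ≤ 1`, `H³(Γ_q, P) = 0`. -/
def LocalCohStatement : Prop :=
  ∀ (p : ℕ) [Fact p.Prime], p ≠ 2 → ∀ (q : Nat.Primes) (V : Subgroup (primeLocalGaloisGroup q)),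
    IsChiOpen (pullbackLevelSys (primeLocalToGlobal q))
      ((cycloChar p).comp (primeLocalToGlobal q)) V →
    Module.Finite (ZMod p) (lvlH (pullbackLevelSys (primeLocalToGlobal q))
      (Rep.ofMulAction (ZMod p) (primeLocalGaloisGroup q) (primeLocalGaloisGroup q ⧸ V)) 1) ∧
    Module.Finite (ZMod p) (lvlH (pullbackLevelSys (primeLocalToGlobal q))
      (Rep.ofMulAction (ZMod p) (primeLocalGaloisGroup q) (primeLocalGaloisGroup q ⧸ V)) 2) ∧
    Module.finrank (ZMod p) (lvlH (pullbackLevelSys (primeLocalToGlobal q))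
      (Rep.ofMulAction (ZMod p) (primeLocalGaloisGroup q) (primeLocalGaloisGroup q ⧸ V)) 2) ≤ 1 ∧
    IsZero (lvlH (pullbackLevelSys (primeLocalToGlobal q))
      (Rep.ofMulAction (ZMod p) (primeLocalGaloisGroup q) (primeLocalGaloisGroup q ⧸ V)) 3)

end Fermat.Agent.H13.Cft

namespace Fermat.Agent.H13.Cft

open Fermat.Agent.H53 Fermat.Agent.H47.Cft

/-! ### Small facts about good modules -/

section good

variable {k G : Type} [Field k] [Group G]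

lemma finite_dualTwist (χ : G →* kˣ) (M : Rep k G) (h : Module.Finite k M) :
    Module.Finite k (M.dualTwist χ) :=
  inferInstanceAs (Module.Finite k (Module.Dual k M))

lemma isLGood_dualTwist (𝒰 : LevelSys G) (χ : G →* kˣ) (hχ : ∃ N ∈ 𝒰.sets, ∀ s ∈ N, χ s = 1)
    (M : Rep k G) (hM : IsLGood 𝒰 M) : IsLGood 𝒰 (M.dualTwist χ) :=
  ⟨finite_dualTwist χ M hM.1, Fermat.Agent.H47.Cft.isTrivialisedBy_dualTwist χ 𝒰 hχ M hM.2⟩

lemma isGood_dualTwist (𝔄 : ArithDatum k G) (M : Rep k G) (hM : IsGood 𝔄 M) :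
    IsGood 𝔄 (M.dualTwist 𝔄.χ) :=
  isLGood_dualTwist 𝔄.lvl 𝔄.χ 𝔄.χ_level M hM

lemma isLGood_res (𝔄 : ArithDatum k G) (M : Rep k G) (hM : IsGood 𝔄 M) (v : 𝔄.ι) :
    IsLGood (𝔄.lvlv v) (Rep.res (𝔄.loc v) M) := by
  obtain ⟨hfin, N, hN, htriv⟩ := hM
  obtain ⟨N', hN', hle⟩ := 𝔄.compat v N hN
  exact ⟨hfin, N', hN', fun s hs => htriv _ (hle hs)⟩

lemma chi_level_loc (𝔄 : ArithDatum k G) (v : 𝔄.ι) :
    ∃ N ∈ (𝔄.lvlv v).sets, ∀ s ∈ N, (𝔄.χ.comp (𝔄.loc v)) s = 1 := by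
  obtain ⟨N, hN, h⟩ := 𝔄.χ_level
  obtain ⟨N', hN', hle⟩ := 𝔄.compat v N hN
  exact ⟨N', hN', fun s hs => h _ (hle hs)⟩

end good

end Fermat.Agent.H13.Cft

namespace Fermat.Agent.H13.Cft

open Fermat.Agent.H53 Fermat.Agent.H47.Cft

/-- **STEP D v2.** The base-case waist from the four number-theoretic inputs
`[TR]`, `[GA]`, `[GC]`, `[LC]` and the frame statements. -/
theorem waistBase_of_v2
    (hds : DsEpiStatement.{0}) (heff : EffaceStatement.{0}) (hsum : SumMonoStatement.{0})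
    (hdz : DualZeroStatement.{0}) (hldz : LDualZeroStatement.{0}) (hsub : GoodSubStatement.{0})
    (hperm : PermGoodStatement.{0}) (hadd : AdditiveStatement.{0})
    (hfindev : FinDevissageStatement) (hvan : VanishDevissageStatement)
    (hE3 : TopOntoStatement) (hLE2 : LTopOntoStatement) (hM3 : TopMonoStatement)
    (hLM2 : LTopMonoStatement) (hLM1 : LMidMonoStatement) (hM2 : CountMonoStatement)
    (hltr : LTraceOfTraceStatement) (hlocfin : LocFiniteStatement)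
    (hlcomm : LThetaCommStatement.{0})
    (hTR : TraceNonzeroStatement) (hGA : GlobalTopStatement) (hGC : GlobalCountStatement)
    (hLC : LocalCohStatement) : WaistBaseStatement := by
  intro p _ hp2 S hpS hχ hc
  obtain ⟨T, hT⟩ := hTR p hp2 S hpS hχ
  -- local cohomology of good modules
  have hLfin : ∀ (v : (arithDatumQ p S hχ).ι) (n : ℕ), n = 1 ∨ n = 2 →
      ∀ N : Rep (ZMod p) ((arithDatumQ p S hχ).Γ v), IsLGood ((arithDatumQ p S hχ).lvlv v) N →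
      Module.Finite (ZMod p) (lvlH ((arithDatumQ p S hχ).lvlv v) N n) := by
    intro v n hn N hN
    refine hfindev ((arithDatumQ p S hχ).lvlv v)
      ((arithDatumQ p S hχ).χ.comp ((arithDatumQ p S hχ).loc v))
      (chi_level_loc (arithDatumQ p S hχ) v) n ?_ N hN.1 hN.2
    intro V hV
    rcases hn with rfl | rfl
    · exact (hLC p hp2 v.1 V hV).1
    · exact (hLC p hp2 v.1 V hV).2.1
  have hLvan : ∀ (v : (arithDatumQ p S hχ).ι)
      (N : Rep (ZMod p) ((arithDatumQ p S hχ).Γ v)), IsLGood ((arithDatumQ p S hχ).lvlv v) N →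
      IsZero (lvlH ((arithDatumQ p S hχ).lvlv v) N 3) := by
    intro v N hN
    refine hvan ((arithDatumQ p S hχ).lvlv v)
      ((arithDatumQ p S hχ).χ.comp ((arithDatumQ p S hχ).loc v))
      (chi_level_loc (arithDatumQ p S hχ) v) 3 ?_ N hN.1 hN.2
    intro V hV
    exact (hLC p hp2 v.1 V hV).2.2.2
  have hPgood : ∀ U : Subgroup GQ,
      IsChiOpen (arithDatumQ p S hχ).lvl (arithDatumQ p S hχ).χ U →
      IsGood (arithDatumQ p S hχ) (Rep.ofMulAction (ZMod p) GQ (GQ ⧸ U)) :=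
    fun U hU => hperm (arithDatumQ p S hχ).lvl U hU.1
  refine ⟨T, ?_, ?_⟩
  · -- the global base case
    intro U hopen _ hχU
    refine global_shift (arithDatumQ p S hχ) T (hc T) hds heff hsum hdz hsub hperm hadd
      ?_ ?_ ?_ ?_ U ⟨hopen, hχU⟩
    · -- finiteness of `H¹`, `H²` on good modules
      intro M hM
      have hM' := isGood_dualTwist (arithDatumQ p S hχ) M hM
      constructor
      · refine hfindev (arithDatumQ p S hχ).lvl (arithDatumQ p S hχ).χ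
          (arithDatumQ p S hχ).χ_level 1 ?_ _ hM'.1 hM'.2
        intro U' hU'
        exact (hGC p hp2 S hpS hχ U' hU').1
      · refine hfindev (arithDatumQ p S hχ).lvl (arithDatumQ p S hχ).χ
          (arithDatumQ p S hχ).χ_level 2 ?_ _ hM'.1 hM'.2
        intro U' hU'
        exact (hlocfin (arithDatumQ p S hχ) _ 2 (fun v => hLfin v 2 (Or.inr rfl) _
          (isLGood_res (arithDatumQ p S hχ) _ (hPgood U' hU') v))).2
          (hGC p hp2 S hpS hχ U' hU').2.1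
    · -- `Θ³` onto
      exact hE3 (arithDatumQ p S hχ) T (hc T) ⟨pPrime p, hpS⟩ (hLvan _) (hT _)
    · -- `Θ³` injective on permutation modules
      intro U' hU' hepi
      exact hM3 (arithDatumQ p S hχ) T (hc T) U' hU' hepi (hGA p hp2 S hpS hχ U' hU').1
        (hGA p hp2 S hpS hχ U' hU').2
    · -- `Θ²` injective on permutation modules
      intro U' hU' hepi
      exact hM2 (arithDatumQ p S hχ) T (hc T) U' hU' hepi (hGC p hp2 S hpS hχ U' hU').1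
        (hlocfin (arithDatumQ p S hχ) _ 1 (fun v => hLfin v 1 (Or.inl rfl) _
          (isLGood_res (arithDatumQ p S hχ) _ (hPgood U' hU') v))).1
        (hGC p hp2 S hpS hχ U' hU').2.1 (hGC p hp2 S hpS hχ U' hU').2.2
  · -- the local base cases
    intro v
    obtain ⟨Tv, hagree, hnz⟩ := hltr (arithDatumQ p S hχ) T v
    have hcv : ∀ M : Rep (ZMod p) ((arithDatumQ p S hχ).Γ v), LThetaComm Tv M :=
      fun M => hlcomm _ _ Tv M
    refine ⟨Tv, hcv, hagree, ?_⟩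
    intro V hopen _ hχV
    refine local_shift (chi_level_loc (arithDatumQ p S hχ) v) Tv hcv hds heff hsum hldz hsub
      hperm hadd ?_ ?_ ?_ ?_ V ⟨hopen, hχV⟩
    · intro M hM
      have hM' := isLGood_dualTwist ((arithDatumQ p S hχ).lvlv v) _
        (chi_level_loc (arithDatumQ p S hχ) v) M hM
      exact ⟨hLfin v 1 (Or.inl rfl) _ hM', hLfin v 2 (Or.inr rfl) _ hM'⟩
    · exact hLE2 _ _ (chi_level_loc (arithDatumQ p S hχ) v) Tv hcv (hLvan v) (hnz (hT v))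
    · intro W hW hepi
      exact hLM2 _ _ Tv hcv W hW hepi (hLC p hp2 v.1 W hW).2.1 (hLC p hp2 v.1 W hW).2.2.1
    · intro W hW hepi
      exact hLM1 _ _ Tv hcv W hW hepi (hLC p hp2 v.1 W hW).1

end Fermat.Agent.H13.Cft
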