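/-
P-CFT (helper13): STEP D v3 - THE WAIST IN DIMENSION FORM, WITHOUT THE GLOBAL `H³`.

Number theory delivers three statements (`p` odd, `p ∈ S`; `U`, `V` open with trivial cyclotomic
character, `N` an `S`-level with trivial cyclotomic character):

* `TraceRealStatement`   [TR+GA'] : a trace `T` on `C_c³(μ_p)` with every local component nonzero
     on the local `2`-cocycles, and such that `Θ³` is injective on the boundary classes at the
     place `p` of `𝔽_p[G/N]` (realisation of `p`-torsion Brauer classes supported over `p`);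
* `GlobalCountStatement` [GC] : `H¹(G, P)`, `Ш²(P)` finite and
     `dim H¹(loc, P) + 2 dim Ш²(P) ≤ 2 dim H¹(G, P)`, `P = 𝔽_p[G/U]`          (in `WaistV2`);
* `LocalCohStatement`    [LC] : `H¹(Γ_q, P)` finite, `dim H²(Γ_q, P) ≤ 1`, `H³(Γ_q, P) = 0`,
     `P = 𝔽_p[Γ_q/V]`                                                          (in `WaistV2`).

`s55Core_of_v3` : these three (+ the frame statements listed in its hypotheses) imply
`S55CoreStatement`, hence S55 (`s55_of_v3`).

Structure of the proof: `global_shift3` gives `Θ¹`, `Θ²` onto on all good modules and `Θ²`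
injective on permutation modules; `theta2_mono_all` (dévissage for the class `{Θ² mono}`, which is
closed under extensions because `Θ¹` is onto on ALL good modules) gives `Θ²` bijective on all good
modules; `frameCore2` (helper77's proof) and helper85's `localOnto_of_v2` give the frame core.
-/
import Fermat.Agent.H13.Cft.StepD3
import Fermat.Agent.H13.Cft.WaistV2
import Fermat.Agent.H13.Cft.Assembly
import Fermat.Agent.H85.Cft.LocalE1
import Fermat.Agent.H50.Cft.ExtCore
import Fermat.Agent.H77.FrCore.Main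
import Fermat.Agent.H42.CftPermInduction

set_option autoImplicit false

open CategoryTheory CategoryTheory.Limits ExtCitation

namespace Fermat.Agent.H13.Cft

open Fermat.Agent.H53 Fermat.Agent.H47.Cft

/-! ### Frame statement: `Θ³` hits everything from the boundary classes -/

/-- **[E3-BD]** Every class of `H³` of the dual side of a good module is `Θ³` of a boundary class
at the place `v`, if the local `H³` at `v` vanishes on good modules and the local component of
the trace at `v` is nonzero on the `2`-cocycles. -/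
def TopOntoBdStatement : Prop :=
  ∀ {p : ℕ} [Fact p.Prime] {G : Type} [Group G] (𝔄 : ArithDatum (ZMod p) G) (T : Trace 𝔄)
    (hc : ∀ M : Rep (ZMod p) G, ThetaComm M T) (v : 𝔄.ι),
    (∀ N : Rep (ZMod p) (𝔄.Γ v), IsLGood (𝔄.lvlv v) N → IsZero (lvlH (𝔄.lvlv v) N 3)) →
    (∃ a : lvlCochains (𝔄.lvlv v) (Rep.res (𝔄.loc v) (muRep 𝔄.χ)) 2,
      lvlD (𝔄.lvlv v) (Rep.res (𝔄.loc v) (muRep 𝔄.χ)) 2 a = 0 ∧ T.localAt v a ≠ 0) →
    ∀ M : Rep (ZMod p) G, IsGood 𝔄 M →
      ∀ y : (dualCx (lvlComplex 𝔄.lvl (M.dualTwist 𝔄.χ))).homology 3,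
        ∃ x ∈ bdRange 𝔄 v M,
          (HomologicalComplex.homologyMap (thetaHom M T (hc M)) 3).hom x = y

/-! ### The number-theoretic input `[TR+GA']` -/

/-- **[TR+GA']** A trace `T` whose local components are nonzero on the local `2`-cocycles and
for which `Θ³` is injective on the boundary classes at the place `p` of the permutation modules
`𝔽_p[G_ℚ/N]`, `N` an `S`-level on which the cyclotomic character is trivial.

In classical terms (`K = ℚ̄^N`): `T = ∑_{q ∈ S} inv_q`, and a family of `p`-torsion Brauer classes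
at the places of `K` over `p` whose invariants sum to zero is the family of localisations of a
class in `H²(G_{K,S}, μ_p)` which is trivial at the other places over `S`. -/
def TraceRealStatement : Prop :=
  ∀ (p : ℕ) [Fact p.Prime], p ≠ 2 → ∀ (S : Finset Nat.Primes) (hpS : pPrime p ∈ S)
    (hχ : ∃ N ∈ (globalLevelSys S).sets, ∀ s ∈ N, cycloChar p s = 1)
    (hc : ∀ (T : Trace (arithDatumQ p S hχ)) (M : Rep (ZMod p) GQ), ThetaComm M T),
    ∃ T : Trace (arithDatumQ p S hχ),
      (∀ v : (arithDatumQ p S hχ).ι,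
        ∃ a : lvlCochains ((arithDatumQ p S hχ).lvlv v)
            (Rep.res ((arithDatumQ p S hχ).loc v) (muRep (arithDatumQ p S hχ).χ)) 2,
          lvlD ((arithDatumQ p S hχ).lvlv v)
            (Rep.res ((arithDatumQ p S hχ).loc v) (muRep (arithDatumQ p S hχ).χ)) 2 a = 0 ∧
          T.localAt v a ≠ 0) ∧
      ∀ N ∈ (globalLevelSys S).sets, (∀ s ∈ N, cycloChar p s = 1) →
        ∀ x ∈ bdRange (arithDatumQ p S hχ) ⟨pPrime p, hpS⟩
            (Rep.ofMulAction (ZMod p) GQ (GQ ⧸ N)),
          (HomologicalComplex.homologyMap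
            (thetaHom (Rep.ofMulAction (ZMod p) GQ (GQ ⧸ N)) T (hc T _)) 3).hom x = 0 → x = 0

/-! ### Dévissage for the injectivity of `Θ²` -/

lemma isGood_quot {k G : Type} [Field k] [Group G]
    (X : ShortComplex (Rep k G)) (hX : X.ShortExact) (N : Subgroup G)
    (h : Module.Finite k X.X₂ ∧ ∀ n ∈ N, X.X₂.ρ n = 1) :
    Module.Finite k X.X₃ ∧ ∀ n ∈ N, X.X₃.ρ n = 1 := by
  have hsurj : Function.Surjective X.g.hom := (Rep.epi_iff_surjective X.g).mp hX.epi_g
  refine ⟨?_, fun n hn => ?_⟩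
  · have := h.1
    exact Module.Finite.of_surjective X.g.hom.toLinearMap hsurj
  · refine LinearMap.ext fun y => ?_
    obtain ⟨x, rfl⟩ := hsurj y
    have h1 := Rep.hom_comm_apply X.g n x
    rw [h.2 n hn] at h1
    exact h1.symm

/-- `Θ²` is injective on every good module, if `Θ¹` is onto on every good module and `Θ²` is
injective on the permutation modules. -/
theorem theta2_mono_all (hperm : Fermat.Agent.H76.Cft.PermInductionStatement)
    {p : ℕ} [Fact p.Prime] {G : Type} [Group G] (𝔄 : ArithDatum (ZMod p) G) (T : Trace 𝔄)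
    (hc : ∀ M : Rep (ZMod p) G, ThetaComm M T)
    (hE1 : ∀ M : Rep (ZMod p) G, IsGood 𝔄 M →
      Epi (HomologicalComplex.homologyMap (thetaHom M T (hc M)) 1))
    (hM2 : ∀ U : Subgroup G, IsChiOpen 𝔄.lvl 𝔄.χ U →
      Mono (HomologicalComplex.homologyMap
        (thetaHom (Rep.ofMulAction (ZMod p) G (G ⧸ U)) T (hc _)) 2))
    (M : Rep (ZMod p) G) (hM : IsGood 𝔄 M) :
    Mono (HomologicalComplex.homologyMap (thetaHom M T (hc M)) 2) := by
  obtain ⟨hfin, N₁, hN₁, htriv⟩ := hM
  obtain ⟨N₂, hN₂, hχ⟩ := 𝔄.χ_level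
  obtain ⟨N, hN, hle⟩ := 𝔄.lvl.directed N₁ hN₁ N₂ hN₂
  have := 𝔄.lvl.normal N hN
  have := 𝔄.lvl.finiteIndex N hN
  have hretr : ∀ (A B : Rep (ZMod p) G) (i : A ⟶ B) (r : B ⟶ A), i ≫ r = 𝟙 A →
      Mono (HomologicalComplex.homologyMap (thetaHom B T (hc B)) 2) →
      Mono (HomologicalComplex.homologyMap (thetaHom A T (hc A)) 2) := by
    intro A B i r hir hB
    refine retr_mono_homologyMap (thetaHom A T (hc A)) (thetaHom B T (hc B)) (ccMap 𝔄 i)
      (ccMap 𝔄 r) (dualSideMap 𝔄 i) ?_ ?_ 2 hB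
    · rw [← ccMap_comp, hir, ccMap_id]
    · exact theta_naturality i T (hc A) (hc B)
  refine hperm p G N
    (fun M => Mono (HomologicalComplex.homologyMap (thetaHom M T (hc M)) 2)) ?_ ?_ ?_ ?_ M
    ⟨hfin, fun n hn => htriv n (hle.trans inf_le_left hn)⟩
  · rintro A B ⟨e⟩ hA
    exact hretr B A e.inv e.hom e.inv_hom_id hA
  · intro X hX hgood h1 h3
    have hg2 : IsGood 𝔄 X.X₂ := ⟨hgood.1, N, hN, hgood.2⟩
    have hq := isGood_quot X hX N hgood
    have hg3 : IsGood 𝔄 X.X₃ := ⟨hq.1, N, hN, hq.2⟩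
    obtain ⟨hS₁, hS₂⟩ := frNat_shortExact 𝔄 Fermat.Agent.H87.Cft.lvlSes X hX hg2
    exact Fermat.Agent.H50.frExt_mono_homologyMap_τ₂ (X.mapNatTrans (thetaNatTrans T hc))
      hS₁ hS₂ 1 2 rfl (hE1 _ hg3) h1 h3
  · intro A B i r hir _ hB
    exact hretr A B i r hir hB
  · rintro U hNU _ ⟨n, hn⟩
    exact hM2 U ⟨⟨N, hN, hNU⟩,
      char_trivial_of_pgroup 𝔄.χ N (fun s hs => hχ s (hle.trans inf_le_right hs)) U hn⟩

/-- The frame core from the bijectivity of `Θ²` alone (helper77's proof). -/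
theorem frameCore2 {k G : Type} [Field k] [Group G] (𝔄 : ArithDatum k G) (T : Trace 𝔄)
    (hc : ∀ M : Rep k G, ThetaComm M T) (M : Rep k G)
    (hbij : Function.Bijective
      (HomologicalComplex.homologyMap (thetaHom M T (hc M)) 2).hom)
    (hloc : LocalOnto 𝔄 T M) : FrameCoreConclusion 𝔄 M := by
  refine ⟨Fermat.Agent.H77.FrcX 𝔄 M, inferInstance, inferInstance,
    Fermat.Agent.H77.frcPi Fermat.Agent.H19.homologyApi 𝔄 M,
    Fermat.Agent.H77.frcTheta Fermat.Agent.H19.homologyApi T M (hc M),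
    Fermat.Agent.H77.frc_range_pi Fermat.Agent.H19.homologyApi 𝔄 M,
    Fermat.Agent.H77.frc_theta_surjective Fermat.Agent.H19.homologyApi T M (hc M) hbij.2, ?_⟩
  exact le_antisymm (Fermat.Agent.H77.frc_ker_pi_le Fermat.Agent.H19.homologyApi T M (hc M))
    (Fermat.Agent.H77.frc_ker_theta_le Fermat.Agent.H19.homologyApi T M (hc M) hbij.1 hloc)

/-! ### The assembly -/

/-- **STEP D v3.** The frame core for every good module of the arithmetic datum of `(ℚ, S, p)`,
from the three number-theoretic inputs `[TR+GA']`, `[GC]`, `[LC]` and the frame statements. -/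
theorem frameCore_of_v3
    (hpi : Fermat.Agent.H76.Cft.PermInductionStatement)
    (hcomm : ThetaCommStatement.{0}) (hlcomm : LThetaCommStatement.{0})
    (hds : DsEpiStatement.{0}) (hdsr : DsEpiRelStatement.{0}) (heff : EffaceStatement.{0})
    (hsum : SumMonoStatement.{0}) (hsumr : SumMonoRelStatement.{0})
    (hdz : DualZeroStatement.{0}) (hldz : Fermat.Agent.H85.Cft.LDualZero1Statement.{0})
    (hsub : GoodSubStatement.{0}) (hperm : PermGoodStatement.{0})
    (hadd : AdditiveStatement.{0}) (hbd : BdRangeNatStatement.{0})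
    (hfindev : FinDevissageStatement) (hvan : VanishDevissageStatement)
    (hE3 : TopOntoBdStatement) (hLE2 : LTopOntoStatement) (hLM2 : LTopMonoStatement)
    (hM2 : CountMonoStatement) (hltr : LTraceOfTraceStatement)
    (hlocfin : LocFiniteStatement)
    (hTR : TraceRealStatement) (hGC : GlobalCountStatement) (hLC : LocalCohStatement)
    (p : ℕ) [Fact p.Prime] (hp2 : p ≠ 2) (S : Finset Nat.Primes) (hpS : pPrime p ∈ S)
    (hχ : ∃ N ∈ (globalLevelSys S).sets, ∀ s ∈ N, cycloChar p s = 1)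
    (M : Rep (ZMod p) GQ) (hM : IsGood (arithDatumQ p S hχ) M) :
    FrameCoreConclusion (arithDatumQ p S hχ) M := by
  have hc : ∀ (T : Trace (arithDatumQ p S hχ)) (M : Rep (ZMod p) GQ), ThetaComm M T :=
    fun T M => hcomm (arithDatumQ p S hχ) T M
  obtain ⟨T, hT, hM3⟩ := hTR p hp2 S hpS hχ hc
  -- local cohomology of good modules
  have hLfin : ∀ (v : (arithDatumQ p S hχ).ι) (n : ℕ), n = 1 ∨ n = 2 →
      ∀ N : Rep (ZMod p) ((arithDatumQ p S hχ).Γ v), IsLGood ((arithDatumQ p S hχ).lvlv v) N →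
      Module.Finite (ZMod p) (lvlH ((arithDatumQ p S hχ).lvlv v) N n) := by
    intro v n hn N hN
    refine hfindev ((arithDatumQ p S hχ).lvlv v)
      ((arithDatumQ p S hχ).χ.comp ((arithDatumQ p S hχ).loc v))
      (chi_level_loc (arithDatumQ p S hχ) v) n ?_ N hN.1 hN.2
    intro V hV
    rcases hn with rfl | rfl
    · exact (hLC p hp2 v.1 V hV).1
    · exact (hLC p hp2 v.1 V hV).2.1
  have hLvan : ∀ (v : (arithDatumQ p S hχ).ι)
      (N : Rep (ZMod p) ((arithDatumQ p S hχ).Γ v)), IsLGood ((arithDatumQ p S hχ).lvlv v) N →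
      IsZero (lvlH ((arithDatumQ p S hχ).lvlv v) N 3) := by
    intro v N hN
    refine hvan ((arithDatumQ p S hχ).lvlv v)
      ((arithDatumQ p S hχ).χ.comp ((arithDatumQ p S hχ).loc v))
      (chi_level_loc (arithDatumQ p S hχ) v) 3 ?_ N hN.1 hN.2
    intro V hV
    exact (hLC p hp2 v.1 V hV).2.2.2
  have hPgood : ∀ U : Subgroup GQ,
      IsChiOpen (arithDatumQ p S hχ).lvl (arithDatumQ p S hχ).χ U →
      IsGood (arithDatumQ p S hχ) (Rep.ofMulAction (ZMod p) GQ (GQ ⧸ U)) :=
    fun U hU => hperm (arithDatumQ p S hχ).lvl U hU.1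
  -- the global engine
  obtain ⟨E1, E2, M2⟩ := global_shift3 (arithDatumQ p S hχ) T (hc T) hds hdsr heff hsum hsumr
    hdz hsub hperm hadd hbd
    (by
      intro M hM
      have hM' := isGood_dualTwist (arithDatumQ p S hχ) M hM
      constructor
      · refine hfindev (arithDatumQ p S hχ).lvl (arithDatumQ p S hχ).χ
          (arithDatumQ p S hχ).χ_level 1 ?_ _ hM'.1 hM'.2
        intro U' hU'
        exact (hGC p hp2 S hpS hχ U' hU').1
      · refine hfindev (arithDatumQ p S hχ).lvl (arithDatumQ p S hχ).χ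
          (arithDatumQ p S hχ).χ_level 2 ?_ _ hM'.1 hM'.2
        intro U' hU'
        exact (hlocfin (arithDatumQ p S hχ) _ 2 (fun v => hLfin v 2 (Or.inr rfl) _
          (isLGood_res (arithDatumQ p S hχ) _ (hPgood U' hU') v))).2
          (hGC p hp2 S hpS hχ U' hU').2.1)
    ⟨pPrime p, hpS⟩
    (hE3 (arithDatumQ p S hχ) T (hc T) ⟨pPrime p, hpS⟩ (hLvan _) (hT _))
    hM3
    (by
      intro U' hU' hepi
      exact hM2 (arithDatumQ p S hχ) T (hc T) U' hU' hepi (hGC p hp2 S hpS hχ U' hU').1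
        (hlocfin (arithDatumQ p S hχ) _ 1 (fun v => hLfin v 1 (Or.inl rfl) _
          (isLGood_res (arithDatumQ p S hχ) _ (hPgood U' hU') v))).1
        (hGC p hp2 S hpS hχ U' hU').2.1 (hGC p hp2 S hpS hχ U' hU').2.2)
  -- `Θ²` bijective on `M`
  have hmono := theta2_mono_all hpi (arithDatumQ p S hχ) T (hc T) E1 M2 M hM
  have hepi := E2 M hM
  have hbij : Function.Bijective
      (HomologicalComplex.homologyMap (thetaHom M T (hc T M)) 2).hom :=
    ⟨(ModuleCat.mono_iff_injective _).1 hmono, (ModuleCat.epi_iff_surjective _).1 hepi⟩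
  -- local duality (onto form)
  have hloc : LocalOnto (arithDatumQ p S hχ) T M :=
    Fermat.Agent.H85.Cft.localOnto_of_v2 hds heff hsum hldz hsub hperm hadd hfindev hvan
      hLE2 hLM2 hltr hlcomm hLC p hp2 S hχ T hT M hM
  exact frameCore2 (arithDatumQ p S hχ) T (hc T) M hbij hloc

/-- **Reduction of the S55 core to the v3 waist** `[TR+GA']`, `[GC]`, `[LC]` (and the frame
statements). -/
theorem s55Core_of_v3
    (hcyc : CycloLevelStatement) (hadm : AdmStatement) (hbridge : BridgeStatement)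
    (hpi : Fermat.Agent.H76.Cft.PermInductionStatement)
    (hcomm : ThetaCommStatement.{0}) (hlcomm : LThetaCommStatement.{0})
    (hds : DsEpiStatement.{0}) (hdsr : DsEpiRelStatement.{0}) (heff : EffaceStatement.{0})
    (hsum : SumMonoStatement.{0}) (hsumr : SumMonoRelStatement.{0})
    (hdz : DualZeroStatement.{0}) (hldz : Fermat.Agent.H85.Cft.LDualZero1Statement.{0})
    (hsub : GoodSubStatement.{0}) (hperm : PermGoodStatement.{0})
    (hadd : AdditiveStatement.{0}) (hbd : BdRangeNatStatement.{0})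
    (hfindev : FinDevissageStatement) (hvan : VanishDevissageStatement)
    (hE3 : TopOntoBdStatement) (hLE2 : LTopOntoStatement) (hLM2 : LTopMonoStatement)
    (hM2 : CountMonoStatement) (hltr : LTraceOfTraceStatement)
    (hlocfin : LocFiniteStatement)
    (hTR : TraceRealStatement) (hGC : GlobalCountStatement) (hLC : LocalCohStatement) :
    S55CoreStatement := by
  intro p _ hp2 S hpS M _ hsm hMur
  have hχ := hcyc p S hpS
  have hM : IsGood (arithDatumQ p S hχ) M := ⟨inferInstance, hadm p S M hsm hMur⟩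
  obtain ⟨X, iX, jX, π, Θ, hr, hs, hk⟩ := frameCore_of_v3 hpi hcomm hlcomm hds hdsr heff hsum
    hsumr hdz hldz hsub hperm hadd hbd hfindev hvan hE3 hLE2 hLM2 hM2 hltr hlocfin hTR hGC hLC
    p hp2 S hpS hχ M hM
  obtain ⟨e₂, he₂⟩ := (hbridge p hp2 S hχ M hM).1
  obtain ⟨e₁⟩ := (hbridge p hp2 S hχ _ hM.dualTwist).2
  refine ⟨X, iX, jX, e₂.toLinearMap ∘ₗ π, e₁.symm.dualMap.toLinearMap ∘ₗ Θ, ?_, ?_, ?_⟩
  · exact (LinearMap.range_comp π e₂.toLinearMap).trans (by rw [hr]; exact he₂)
  · exact e₁.symm.dualMap.surjective.comp hs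
  · ext x
    have h1 : x ∈ LinearMap.ker π ↔ x ∈ LinearMap.ker Θ := by rw [hk]
    simp only [LinearMap.mem_ker] at h1
    simp only [LinearMap.mem_ker, LinearMap.comp_apply, LinearEquiv.coe_coe,
      LinearEquiv.map_eq_zero_iff]
    refine h1.trans ?_
    exact (LinearEquiv.map_eq_zero_iff e₁.symm.dualMap).symm

end Fermat.Agent.H13.Cft
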