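/-
P-CFT (helper13): STEP D v4 = v3 with a COFINAL family of levels and `[GA']` in SPAN form.

Number theory delivers FOUR statements (`p` odd, `p ∈ S`):

* `TraceNonzeroStatement` [TR]  : a trace `T` on `C_c³(μ_p)` with every local component nonzero
     on the local `2`-cocycles                                                   (in `WaistV2`);
* `BdSpanStatement`       [GA'] : for every `S`-level `N₀` there is an `S`-level `N ≤ N₀` with
     trivial cyclotomic character such that the boundary classes at the place `p` of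
     `𝔽_p[G_ℚ/N]` (the image of `Z²(Γ_p, 𝔽_p[G/N]) → H_c³`) are spanned by ONE element
     (independent of the trace);
* `GlobalCountStatement`  [GC]  : `H¹(G, P)`, `Ш²(P)` finite and
     `dim H¹(loc, P) + 2 dim Ш²(P) ≤ 2 dim H¹(G, P)`, `P = 𝔽_p[G/U]`            (in `WaistV2`);
* `LocalCohStatement`     [LC]  : `H¹(Γ_q, P)` finite, `dim H²(Γ_q, P) ≤ 1`, `H³(Γ_q, P) = 0`,
     `P = 𝔽_p[Γ_q/V]`                                                            (in `WaistV2`).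

`s55Core_of_v4` : these four (+ the frame statements listed in its hypotheses) imply
`S55CoreStatement`.
-/
import Fermat.Agent.H13.Cft.WaistV3

set_option autoImplicit false

universe u

open CategoryTheory CategoryTheory.Limits ExtCitation

namespace Fermat.Agent.H13.Cft

open Fermat.Agent.H53 Fermat.Agent.H47.Cft

/-! ### Frame statements -/

/-- **[EFF-COF]** Effacement with the level in a cofinal family `𝒩`. -/
def EffaceCofStatement : Prop :=
  ∀ {k G : Type u} [Field k] [Group G] (𝒰 : LevelSys G) (χ : G →* kˣ),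
    (∃ N ∈ 𝒰.sets, ∀ s ∈ N, χ s = 1) →
    ∀ 𝒩 : Subgroup G → Prop, (∀ N₀ ∈ 𝒰.sets, ∃ N ∈ 𝒰.sets, N ≤ N₀ ∧ 𝒩 N) →
    ∀ (M : Rep.{u} k G), Module.Finite k M → IsTrivialisedBy 𝒰 M →
    ∀ n : ℕ, 1 ≤ n → Module.Finite k (lvlH 𝒰 (M.dualTwist χ) n) →
    ∃ N ∈ 𝒰.sets, 𝒩 N ∧ (∀ s ∈ N, χ s = 1) ∧ ∃ (I : Rep.{u} k G) (π : I ⟶ M), Epi π ∧
      Module.Finite k I ∧ IsTrivialisedBy 𝒰 I ∧
      IsFiniteSumOf (Rep.ofMulAction k G (G ⧸ N)) I ∧
      HomologicalComplex.homologyMap (lvlMap 𝒰 (dualTwistMap χ π)) n = 0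

/-- The plain effacement statement is the case of the trivial family. -/
theorem efface_of_cof (h : EffaceCofStatement.{u}) : EffaceStatement.{u} := by
  intro k G _ _ 𝒰 χ hχ M hM1 hM2 n hn hfin
  obtain ⟨N, hN, -, hχN, hI⟩ := h 𝒰 χ hχ (fun _ => True)
    (fun N₀ hN₀ => ⟨N₀, hN₀, le_rfl, trivial⟩) M hM1 hM2 n hn hfin
  exact ⟨N, hN, hχN, hI⟩

/-- **[M3-BD]** If the boundary classes at `v` of `P = 𝔽_p[G/N]` (`N` a level with `χ|N = 1`) are
spanned by one element and every class of `H³` of the dual side is `Θ³` of a boundary class,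
then `Θ³` is injective on the boundary classes (`H³` of the dual side, `Dual (H⁰(G, P^*(χ)))`, is
not zero). -/
def BdMonoStatement : Prop :=
  ∀ {p : ℕ} [Fact p.Prime] {G : Type} [Group G] (𝔄 : ArithDatum (ZMod p) G) (T : Trace 𝔄)
    (hc : ∀ M : Rep (ZMod p) G, ThetaComm M T) (v : 𝔄.ι) (N : Subgroup G), N ∈ 𝔄.lvl.sets →
    (∀ s ∈ N, 𝔄.χ s = 1) →
    (∀ y : (dualCx (lvlComplex 𝔄.lvl
        ((Rep.ofMulAction (ZMod p) G (G ⧸ N)).dualTwist 𝔄.χ))).homology 3,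
      ∃ x ∈ bdRange 𝔄 v (Rep.ofMulAction (ZMod p) G (G ⧸ N)),
        (HomologicalComplex.homologyMap
          (thetaHom (Rep.ofMulAction (ZMod p) G (G ⧸ N)) T (hc _)) 3).hom x = y) →
    (∃ x₀ ∈ bdRange 𝔄 v (Rep.ofMulAction (ZMod p) G (G ⧸ N)),
      ∀ x ∈ bdRange 𝔄 v (Rep.ofMulAction (ZMod p) G (G ⧸ N)), ∃ c : ZMod p, x = c • x₀) →
    ∀ x ∈ bdRange 𝔄 v (Rep.ofMulAction (ZMod p) G (G ⧸ N)),
      (HomologicalComplex.homologyMap
        (thetaHom (Rep.ofMulAction (ZMod p) G (G ⧸ N)) T (hc _)) 3).hom x = 0 → x = 0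

/-! ### The number-theoretic input `[GA']` -/

/-- The boundary classes at the place `p` of `𝔽_p[G_ℚ/N]` are spanned by one element. -/
def BdSpanAt (p : ℕ) [Fact p.Prime] (S : Finset Nat.Primes) (hpS : pPrime p ∈ S)
    (hχ : ∃ N ∈ (globalLevelSys S).sets, ∀ s ∈ N, cycloChar p s = 1) (N : Subgroup GQ) : Prop :=
  ∃ x₀ ∈ bdRange (arithDatumQ p S hχ) ⟨pPrime p, hpS⟩ (Rep.ofMulAction (ZMod p) GQ (GQ ⧸ N)),
    ∀ x ∈ bdRange (arithDatumQ p S hχ) ⟨pPrime p, hpS⟩ (Rep.ofMulAction (ZMod p) GQ (GQ ⧸ N)),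
      ∃ c : ZMod p, x = c • x₀

/-- **[GA']** For every `S`-level `N₀` there is an `S`-level `N ≤ N₀` on which the cyclotomic
character is trivial and such that the boundary classes at the place `p` of `𝔽_p[G_ℚ/N]` are
spanned by one element.

In classical terms (`K = ℚ̄^N`, `W` = the places of `K` over `p`, `T` = the places over `S`):
the cokernel of `{z ∈ H²(G_{K,S}, μ_p) | z_w = 0 for w ∈ T ∖ W} → ⊕_{w ∈ W} H²(K_w, μ_p)` has
dimension `≤ 1`. -/
def BdSpanStatement : Prop :=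
  ∀ (p : ℕ) [Fact p.Prime], p ≠ 2 → ∀ (S : Finset Nat.Primes) (hpS : pPrime p ∈ S)
    (hχ : ∃ N ∈ (globalLevelSys S).sets, ∀ s ∈ N, cycloChar p s = 1),
    ∀ N₀ ∈ (globalLevelSys S).sets, ∃ N ∈ (globalLevelSys S).sets, N ≤ N₀ ∧
      (∀ s ∈ N, cycloChar p s = 1) ∧ BdSpanAt p S hpS hχ N

/-! ### The global engine with a cofinal family -/

section global

variable {k G : Type u} [Field k] [Group G] (𝔄 : ArithDatum k G)
  (T : Trace 𝔄) (hc : ∀ M : Rep.{u} k G, ThetaComm M T)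

/-- Dimension shifting, global, v4: as `global_shift3`, with the injectivity of `Θ³` on the
boundary classes only required for the levels of a cofinal family `𝒩`. -/
theorem global_shift4 (hds : DsEpiStatement.{u}) (hdsr : DsEpiRelStatement.{u})
    (heff : EffaceCofStatement.{u}) (hsum : SumMonoStatement.{u})
    (hsumr : SumMonoRelStatement.{u}) (hdz : DualZeroStatement.{u})
    (hsub : GoodSubStatement.{u}) (hperm : PermGoodStatement.{u})
    (hadd : AdditiveStatement.{u}) (hbd : BdRangeNatStatement.{u})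
    (hfin : ∀ M : Rep.{u} k G, IsGood 𝔄 M →
      Module.Finite k (lvlH 𝔄.lvl (M.dualTwist 𝔄.χ) 1) ∧
      Module.Finite k (lvlH 𝔄.lvl (M.dualTwist 𝔄.χ) 2))
    (v₀ : 𝔄.ι)
    (hE3 : ∀ M : Rep.{u} k G, IsGood 𝔄 M →
      ∀ y : (dualCx (lvlComplex 𝔄.lvl (M.dualTwist 𝔄.χ))).homology 3,
        ∃ x ∈ bdRange 𝔄 v₀ M,
          (HomologicalComplex.homologyMap (thetaHom M T (hc M)) 3).hom x = y)
    (𝒩 : Subgroup G → Prop) (hcof : ∀ N₀ ∈ 𝔄.lvl.sets, ∃ N ∈ 𝔄.lvl.sets, N ≤ N₀ ∧ 𝒩 N)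
    (hM3 : ∀ N ∈ 𝔄.lvl.sets, 𝒩 N → (∀ s ∈ N, 𝔄.χ s = 1) →
      ∀ x ∈ bdRange 𝔄 v₀ (Rep.ofMulAction k G (G ⧸ N)),
        (HomologicalComplex.homologyMap
          (thetaHom (Rep.ofMulAction k G (G ⧸ N)) T (hc _)) 3).hom x = 0 → x = 0)
    (hM2 : ∀ U : Subgroup G, IsChiOpen 𝔄.lvl 𝔄.χ U →
      Epi (HomologicalComplex.homologyMap
        (thetaHom (Rep.ofMulAction k G (G ⧸ U)) T (hc _)) 2) →
      Mono (HomologicalComplex.homologyMap
        (thetaHom (Rep.ofMulAction k G (G ⧸ U)) T (hc _)) 2)) :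
    (∀ M : Rep.{u} k G, IsGood 𝔄 M →
      Epi (HomologicalComplex.homologyMap (thetaHom M T (hc M)) 1)) ∧
    (∀ M : Rep.{u} k G, IsGood 𝔄 M →
      Epi (HomologicalComplex.homologyMap (thetaHom M T (hc M)) 2)) ∧
    (∀ U : Subgroup G, IsChiOpen 𝔄.lvl 𝔄.χ U →
      Mono (HomologicalComplex.homologyMap
        (thetaHom (Rep.ofMulAction k G (G ⧸ U)) T (hc _)) 2)) := by
  obtain ⟨hadd1, hadd2⟩ := (hadd (k := k) (G := G)).1 𝔄
  have hexact : ∀ X : ShortComplex (Rep.{u} k G), X.ShortExact → IsGood 𝔄 X.X₂ →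
      (X.map (ccFunctor 𝔄)).ShortExact ∧ (X.map (dualSideFunctor 𝔄)).ShortExact :=
    fun X hX hg => frNat_shortExact 𝔄 Fermat.Agent.H87.Cft.lvlSes X hX hg
  have hsub' : ∀ X : ShortComplex (Rep.{u} k G), X.ShortExact → IsGood 𝔄 X.X₂ →
      IsGood 𝔄 X.X₁ := fun X hX hg => hsub 𝔄.lvl X hX hg.1 hg.2
  have hP : ∀ V : Subgroup G, IsChiOpen 𝔄.lvl 𝔄.χ V →
      IsGood 𝔄 (Rep.ofMulAction k G (G ⧸ V)) := fun V hV => hperm 𝔄.lvl V hV.1
  -- E2 on good modules
  have E2 : ∀ M : Rep.{u} k G, IsGood 𝔄 M →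
      Epi (HomologicalComplex.homologyMap (thetaHom M T (hc M)) 2) := by
    intro M hM
    obtain ⟨N, hN, h𝒩, hχN, I, π, hπ, hI1, hI2, hIsum, hzero⟩ :=
      heff 𝔄.lvl 𝔄.χ 𝔄.χ_level 𝒩 hcof M hM.1 hM.2 1 le_rfl (hfin M hM).1
    refine shiftStepRel (ccFunctor 𝔄) (dualSideFunctor 𝔄) (thetaNatTrans T hc) hdsr (IsGood 𝔄)
      hexact hsub' 2 (bdRange 𝔄 v₀) (hbd 𝔄 v₀) hE3 M ⟨I, π, hπ, ⟨hI1, hI2⟩, ?_, ?_⟩
    · exact hsumr (ccFunctor 𝔄) (dualSideFunctor 𝔄) (thetaNatTrans T hc) 3 (bdRange 𝔄 v₀)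
        (hbd 𝔄 v₀) _ I hIsum (hM3 N hN h𝒩 hχN)
    · exact (hdz (lvlMap 𝔄.lvl (dualTwistMap 𝔄.χ π))).1 hzero
  -- M2 on permutation modules
  have M2 : ∀ V : Subgroup G, IsChiOpen 𝔄.lvl 𝔄.χ V →
      Mono (HomologicalComplex.homologyMap
        (thetaHom (Rep.ofMulAction k G (G ⧸ V)) T (hc _)) 2) :=
    fun V hV => hM2 V hV (E2 _ (hP V hV))
  -- E1 on good modules
  have E1 : ∀ M : Rep.{u} k G, IsGood 𝔄 M →
      Epi (HomologicalComplex.homologyMap (thetaHom M T (hc M)) 1) := by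
    intro M hM
    obtain ⟨N, hN, hχN, I, π, hπ, hI1, hI2, hIsum, hzero⟩ :=
      efface_of_cof heff 𝔄.lvl 𝔄.χ 𝔄.χ_level M hM.1 hM.2 2 (by norm_num) (hfin M hM).2
    refine shiftStep (ccFunctor 𝔄) (dualSideFunctor 𝔄) (thetaNatTrans T hc) hds (IsGood 𝔄)
      hexact hsub' 1 E2 M ⟨I, π, hπ, ⟨hI1, hI2⟩, ?_, ?_⟩
    · exact hsum (ccFunctor 𝔄) (dualSideFunctor 𝔄) (thetaNatTrans T hc) 2 _ I hIsum
        (M2 N ⟨⟨N, hN, le_rfl⟩, hχN⟩)
    · exact (hdz (lvlMap 𝔄.lvl (dualTwistMap 𝔄.χ π))).2 hzero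
  exact ⟨E1, E2, M2⟩

end global

/-! ### The assembly -/

/-- **STEP D v4.** The frame core for every good module of the arithmetic datum of `(ℚ, S, p)`,
from the four number-theoretic inputs `[TR]`, `[GA']`, `[GC]`, `[LC]` and the frame statements. -/
theorem frameCore_of_v4
    (hpi : Fermat.Agent.H76.Cft.PermInductionStatement)
    (hcomm : ThetaCommStatement.{0}) (hlcomm : LThetaCommStatement.{0})
    (hds : DsEpiStatement.{0}) (hdsr : DsEpiRelStatement.{0}) (heff : EffaceCofStatement.{0})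
    (hsum : SumMonoStatement.{0}) (hsumr : SumMonoRelStatement.{0})
    (hdz : DualZeroStatement.{0}) (hldz : Fermat.Agent.H85.Cft.LDualZero1Statement.{0})
    (hsub : GoodSubStatement.{0}) (hperm : PermGoodStatement.{0})
    (hadd : AdditiveStatement.{0}) (hbd : BdRangeNatStatement.{0})
    (hfindev : FinDevissageStatement) (hvan : VanishDevissageStatement)
    (hE3 : TopOntoBdStatement) (hM3 : BdMonoStatement)
    (hLE2 : LTopOntoStatement) (hLM2 : LTopMonoStatement)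
    (hM2 : CountMonoStatement) (hltr : LTraceOfTraceStatement)
    (hlocfin : LocFiniteStatement)
    (hTR : TraceNonzeroStatement) (hGA : BdSpanStatement) (hGC : GlobalCountStatement)
    (hLC : LocalCohStatement)
    (p : ℕ) [Fact p.Prime] (hp2 : p ≠ 2) (S : Finset Nat.Primes) (hpS : pPrime p ∈ S)
    (hχ : ∃ N ∈ (globalLevelSys S).sets, ∀ s ∈ N, cycloChar p s = 1)
    (M : Rep (ZMod p) GQ) (hM : IsGood (arithDatumQ p S hχ) M) :
    FrameCoreConclusion (arithDatumQ p S hχ) M := by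
  have hc : ∀ (T : Trace (arithDatumQ p S hχ)) (M : Rep (ZMod p) GQ), ThetaComm M T :=
    fun T M => hcomm (arithDatumQ p S hχ) T M
  obtain ⟨T, hT⟩ := hTR p hp2 S hpS hχ
  -- local cohomology of good modules
  have hLfin : ∀ (v : (arithDatumQ p S hχ).ι) (n : ℕ), n = 1 ∨ n = 2 →
      ∀ N : Rep (ZMod p) ((arithDatumQ p S hχ).Γ v), IsLGood ((arithDatumQ p S hχ).lvlv v) N →
      Module.Finite (ZMod p) (lvlH ((arithDatumQ p S hχ).lvlv v) N n) := by
    intro v n hn N hN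
    refine hfindev ((arithDatumQ p S hχ).lvlv v)
      ((arithDatumQ p S hχ).χ.comp ((arithDatumQ p S hχ).loc v))
      (chi_level_loc (arithDatumQ p S hχ) v) n ?_ N hN.1 hN.2
    intro V hV
    rcases hn with rfl | rfl
    · exact (hLC p hp2 v.1 V hV).1
    · exact (hLC p hp2 v.1 V hV).2.1
  have hLvan : ∀ (v : (arithDatumQ p S hχ).ι)
      (N : Rep (ZMod p) ((arithDatumQ p S hχ).Γ v)), IsLGood ((arithDatumQ p S hχ).lvlv v) N →
      IsZero (lvlH ((arithDatumQ p S hχ).lvlv v) N 3) := by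
    intro v N hN
    refine hvan ((arithDatumQ p S hχ).lvlv v)
      ((arithDatumQ p S hχ).χ.comp ((arithDatumQ p S hχ).loc v))
      (chi_level_loc (arithDatumQ p S hχ) v) 3 ?_ N hN.1 hN.2
    intro V hV
    exact (hLC p hp2 v.1 V hV).2.2.2
  have hPgood : ∀ U : Subgroup GQ,
      IsChiOpen (arithDatumQ p S hχ).lvl (arithDatumQ p S hχ).χ U →
      IsGood (arithDatumQ p S hχ) (Rep.ofMulAction (ZMod p) GQ (GQ ⧸ U)) :=
    fun U hU => hperm (arithDatumQ p S hχ).lvl U hU.1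
  have hE3' := hE3 (arithDatumQ p S hχ) T (hc T) ⟨pPrime p, hpS⟩ (hLvan _) (hT _)
  -- the global engine
  obtain ⟨E1, E2, M2⟩ := global_shift4 (arithDatumQ p S hχ) T (hc T) hds hdsr heff hsum hsumr
    hdz hsub hperm hadd hbd
    (by
      intro M hM
      have hM' := isGood_dualTwist (arithDatumQ p S hχ) M hM
      constructor
      · refine hfindev (arithDatumQ p S hχ).lvl (arithDatumQ p S hχ).χ
          (arithDatumQ p S hχ).χ_level 1 ?_ _ hM'.1 hM'.2
        intro U' hU'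
        exact (hGC p hp2 S hpS hχ U' hU').1
      · refine hfindev (arithDatumQ p S hχ).lvl (arithDatumQ p S hχ).χ
          (arithDatumQ p S hχ).χ_level 2 ?_ _ hM'.1 hM'.2
        intro U' hU'
        exact (hlocfin (arithDatumQ p S hχ) _ 2 (fun v => hLfin v 2 (Or.inr rfl) _
          (isLGood_res (arithDatumQ p S hχ) _ (hPgood U' hU') v))).2
          (hGC p hp2 S hpS hχ U' hU').2.1)
    ⟨pPrime p, hpS⟩ hE3'
    (fun N => (∀ s ∈ N, cycloChar p s = 1) ∧ BdSpanAt p S hpS hχ N)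
    (fun N₀ hN₀ => by
      obtain ⟨N, hN, hle, h1, h2⟩ := hGA p hp2 S hpS hχ N₀ hN₀
      exact ⟨N, hN, hle, h1, h2⟩)
    (fun N hN h𝒩 hχN => hM3 (arithDatumQ p S hχ) T (hc T) ⟨pPrime p, hpS⟩ N hN hχN
      (hE3' _ (hPgood N ⟨⟨N, hN, le_rfl⟩, hχN⟩)) h𝒩.2)
    (by
      intro U' hU' hepi
      exact hM2 (arithDatumQ p S hχ) T (hc T) U' hU' hepi (hGC p hp2 S hpS hχ U' hU').1
        (hlocfin (arithDatumQ p S hχ) _ 1 (fun v => hLfin v 1 (Or.inl rfl) _
          (isLGood_res (arithDatumQ p S hχ) _ (hPgood U' hU') v))).1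
        (hGC p hp2 S hpS hχ U' hU').2.1 (hGC p hp2 S hpS hχ U' hU').2.2)
  -- `Θ²` bijective on `M`
  have hmono := theta2_mono_all hpi (arithDatumQ p S hχ) T (hc T) E1 M2 M hM
  have hepi := E2 M hM
  have hbij : Function.Bijective
      (HomologicalComplex.homologyMap (thetaHom M T (hc T M)) 2).hom :=
    ⟨(ModuleCat.mono_iff_injective _).1 hmono, (ModuleCat.epi_iff_surjective _).1 hepi⟩
  -- local duality (onto form)
  have hloc : LocalOnto (arithDatumQ p S hχ) T M :=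
    Fermat.Agent.H85.Cft.localOnto_of_v2 hds (efface_of_cof heff) hsum hldz hsub hperm hadd
      hfindev hvan hLE2 hLM2 hltr hlcomm hLC p hp2 S hχ T hT M hM
  exact frameCore2 (arithDatumQ p S hχ) T (hc T) M hbij hloc

/-- **Reduction of the S55 core to the v4 waist** `[TR]`, `[GA']`, `[GC]`, `[LC]` (and the frame
statements). -/
theorem s55Core_of_v4
    (hcyc : CycloLevelStatement) (hadm : AdmStatement) (hbridge : BridgeStatement)
    (hpi : Fermat.Agent.H76.Cft.PermInductionStatement)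
    (hcomm : ThetaCommStatement.{0}) (hlcomm : LThetaCommStatement.{0})
    (hds : DsEpiStatement.{0}) (hdsr : DsEpiRelStatement.{0}) (heff : EffaceCofStatement.{0})
    (hsum : SumMonoStatement.{0}) (hsumr : SumMonoRelStatement.{0})
    (hdz : DualZeroStatement.{0}) (hldz : Fermat.Agent.H85.Cft.LDualZero1Statement.{0})
    (hsub : GoodSubStatement.{0}) (hperm : PermGoodStatement.{0})
    (hadd : AdditiveStatement.{0}) (hbd : BdRangeNatStatement.{0})
    (hfindev : FinDevissageStatement) (hvan : VanishDevissageStatement)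
    (hE3 : TopOntoBdStatement) (hM3 : BdMonoStatement)
    (hLE2 : LTopOntoStatement) (hLM2 : LTopMonoStatement)
    (hM2 : CountMonoStatement) (hltr : LTraceOfTraceStatement)
    (hlocfin : LocFiniteStatement)
    (hTR : TraceNonzeroStatement) (hGA : BdSpanStatement) (hGC : GlobalCountStatement)
    (hLC : LocalCohStatement) : S55CoreStatement := by
  intro p _ hp2 S hpS M _ hsm hMur
  have hχ := hcyc p S hpS
  have hM : IsGood (arithDatumQ p S hχ) M := ⟨inferInstance, hadm p S M hsm hMur⟩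
  obtain ⟨X, iX, jX, π, Θ, hr, hs, hk⟩ := frameCore_of_v4 hpi hcomm hlcomm hds hdsr heff hsum
    hsumr hdz hldz hsub hperm hadd hbd hfindev hvan hE3 hM3 hLE2 hLM2 hM2 hltr hlocfin
    hTR hGA hGC hLC p hp2 S hpS hχ M hM
  obtain ⟨e₂, he₂⟩ := (hbridge p hp2 S hχ M hM).1
  obtain ⟨e₁⟩ := (hbridge p hp2 S hχ _ hM.dualTwist).2
  refine ⟨X, iX, jX, e₂.toLinearMap ∘ₗ π, e₁.symm.dualMap.toLinearMap ∘ₗ Θ, ?_, ?_, ?_⟩
  · exact (LinearMap.range_comp π e₂.toLinearMap).trans (by rw [hr]; exact he₂)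
  · exact e₁.symm.dualMap.surjective.comp hs
  · ext x
    have h1 : x ∈ LinearMap.ker π ↔ x ∈ LinearMap.ker Θ := by rw [hk]
    simp only [LinearMap.mem_ker] at h1
    simp only [LinearMap.mem_ker, LinearMap.comp_apply, LinearEquiv.coe_coe,
      LinearEquiv.map_eq_zero_iff]
    refine h1.trans ?_
    exact (LinearEquiv.map_eq_zero_iff e₁.symm.dualMap).symm

end Fermat.Agent.H13.Cft
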