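/-
P-CFT (helper13): CURRENT STATE of the reduction of S55, v4 (updated as rows land).

`s55_of_open4` : the frozen S55 conclusion from
  * the four number-theoretic inputs `TraceNonzeroStatement` [TR], `BdSpanStatement` [GA'],
    `GlobalCountStatement` [GC], `LocalCohStatement` [LC]        (`WaistV2`, `WaistV4`), and
  * the frame statements which are still open (see the hypotheses).

Discharged here (landed by helpers): `CycloLevelStatement` (helper94), `AdmStatement` (helper21),
`BridgeStatement` (helper58), `PermInductionStatement` (helper42), `ThetaCommStatement` (helper98),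
`LThetaCommStatement` (helper7), `DsEpiStatement` (helper4), `SumMonoStatement` (helper80),
`DualZeroStatement` and `LDualZero1Statement` (helper98), `GoodSubStatement`, `PermGoodStatement`,
`AdditiveStatement` (helper86), `FinDevissageStatement`, `VanishDevissageStatement` (helper5),
`LTraceOfTraceStatement` (helper26), `LocFiniteStatement` (helper75), `DsEpiRelStatement`
(helper95), `SumMonoRelStatement` (helper85), `BdRangeNatStatement` (helper44),
`EffaceCofStatement` (helper79, helper48), `LTopOntoStatement` (helper73), `LTopMonoStatement`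
(helper58, helper46), `CountMonoStatement` (helper46); the local assembly `localOnto_of_v2` is
helper85's.  The number-theoretic input `[LC]` is helper78's `localCoh` (the LOCAL block, 20 seats).
-/
import Fermat.Agent.H13.Cft.WaistV4
import Fermat.Agent.H94.Cft.CycloLevel
import Fermat.Agent.H21.Cft.Adm
import Fermat.Agent.H58.Cft.BridgeFinal
import Fermat.Agent.H98.Cft.ThetaComm
import Fermat.Agent.H7.Cft.LComm
import Fermat.Agent.H4.CFT.DsEpi
import Fermat.Agent.H80.CFT.SumMono
import Fermat.Agent.H98.Cft.DualZero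
import Fermat.Agent.H86.CftSmall
import Fermat.Agent.H5.Cft.Devissage
import Fermat.Agent.H26.Cft.LTraceOfTrace
import Fermat.Agent.H75.LocFinite
import Fermat.Agent.H95.Cft.DsEpiRel
import Fermat.Agent.H85.Cft.SumMonoRel
import Fermat.Agent.H44.SD.BdNat
import Fermat.Agent.H48.Cft.EffaceCof
import Fermat.Agent.H73.Cft.LTopOnto
import Fermat.Agent.H58.Cft.LTopMono
import Fermat.Agent.H46.Cft.CountMono
import Fermat.Agent.H78.CFT.LocalCoh

set_option autoImplicit false

open CategoryTheory groupCohomology ExtCitation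

namespace Fermat.Agent.H13.Cft

/-- The core statement of S55 from the open statements (v4). -/
theorem s55Core_of_open4 (hE3 : TopOntoBdStatement) (hM3 : BdMonoStatement)
    (hTR : TraceNonzeroStatement) (hGA : BdSpanStatement) (hGC : GlobalCountStatement)
    (hLC : LocalCohStatement) : S55CoreStatement :=
  s55Core_of_v4 Fermat.Agent.H94.Cft.cycloLevel Fermat.Agent.H21.Cft.admStatement
    Fermat.Agent.H58.Cft.bridgeStatement Fermat.Agent.H42.Cft.permInduction
    Fermat.Agent.H98.Cft.thetaCommStatement Fermat.Agent.H7.Cft.lThetaComm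
    Fermat.Agent.H4.CFT.dsEpi Fermat.Agent.H95.Cft.dsEpiRel Fermat.Agent.H48.EffCof.effaceCof
    Fermat.Agent.H80.CFT.sumMono Fermat.Agent.H85.SumRel.sumMonoRel
    Fermat.Agent.H98.Cft.DZ.dualZero (fun g => Fermat.Agent.H98.Cft.DZ.lDualZero_one g)
    Fermat.Agent.H86.CftSmall.goodSub Fermat.Agent.H86.CftSmall.permGood
    Fermat.Agent.H86.CftSmall.additive Fermat.Agent.H44.SD.bdRangeNat
    Fermat.Agent.H5.Cft.finDevissage Fermat.Agent.H5.Cft.vanishDevissage
    hE3 hM3 Fermat.Agent.H73.LTop.lTopOnto Fermat.Agent.H58.Cft.lTopMono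
    Fermat.Agent.H46.Cft.countMono Fermat.Agent.H26.Cft.lTraceOfTraceStatement
    Fermat.Agent.H75.LocFin.locFinite hTR hGA hGC hLC

/-- S55 from the open statements (v4): two frame rows and the four number-theoretic inputs. -/
theorem s55_of_open4 (hE3 : TopOntoBdStatement) (hM3 : BdMonoStatement)
    (hTR : TraceNonzeroStatement) (hGA : BdSpanStatement) (hGC : GlobalCountStatement)
    (hLC : LocalCohStatement)
    {p : ℕ} [Fact p.Prime] (hp2 : p ≠ 2) (S : Finset Nat.Primes) (hpS : pPrime p ∈ S)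
    (M : Rep (ZMod p) (AlgebraicClosure ℚ ≃ₐ[ℚ] AlgebraicClosure ℚ))
    [FiniteDimensional (ZMod p) M]
    (hsm : ∀ m : M, ∃ F : IntermediateField ℚ (AlgebraicClosure ℚ), FiniteDimensional ℚ F ∧
      ∀ s ∈ F.fixingSubgroup, M.ρ s m = m)
    (hMur : ∀ q : Nat.Primes, q ∉ S → ∀ A : ValuationSubring (AlgebraicClosure ℚ),
      A.LiesOverPrime (q : ℕ) → ∀ g ∈ A.inertiaSubgroupIn ℚ, M.ρ g = 1) :
    ∃ B : sha₁ S (M.dualTwist (cycloChar p)) →ₗ[ZMod p] sha₂ S M →ₗ[ZMod p] ZMod p,
      (∀ y, (∀ x, B y x = 0) → y = 0) ∧ (∀ x, (∀ y, B y x = 0) → x = 0) :=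
  s55_of_core (s55Core_of_open4 hE3 hM3 hTR hGA hGC hLC) hp2 S hpS M hsm hMur

/-- S55 from the open statements, with `[LC]` discharged (helper78's local block): two frame
rows and the three global number-theoretic inputs `[TR]`, `[GA']`, `[GC]`. -/
theorem s55_of_open5 (hE3 : TopOntoBdStatement) (hM3 : BdMonoStatement)
    (hTR : TraceNonzeroStatement) (hGA : BdSpanStatement) (hGC : GlobalCountStatement)
    {p : ℕ} [Fact p.Prime] (hp2 : p ≠ 2) (S : Finset Nat.Primes) (hpS : pPrime p ∈ S)
    (M : Rep (ZMod p) (AlgebraicClosure ℚ ≃ₐ[ℚ] AlgebraicClosure ℚ))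
    [FiniteDimensional (ZMod p) M]
    (hsm : ∀ m : M, ∃ F : IntermediateField ℚ (AlgebraicClosure ℚ), FiniteDimensional ℚ F ∧
      ∀ s ∈ F.fixingSubgroup, M.ρ s m = m)
    (hMur : ∀ q : Nat.Primes, q ∉ S → ∀ A : ValuationSubring (AlgebraicClosure ℚ),
      A.LiesOverPrime (q : ℕ) → ∀ g ∈ A.inertiaSubgroupIn ℚ, M.ρ g = 1) :
    ∃ B : sha₁ S (M.dualTwist (cycloChar p)) →ₗ[ZMod p] sha₂ S M →ₗ[ZMod p] ZMod p,
      (∀ y, (∀ x, B y x = 0) → y = 0) ∧ (∀ x, (∀ y, B y x = 0) → x = 0) :=
  s55_of_open4 hE3 hM3 hTR hGA hGC Fermat.Agent.H78.CFT.localCoh hp2 S hpS M hsm hMur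

end Fermat.Agent.H13.Cft
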