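/-
P-CFT (helper13): the number-theoretic inputs `[TR]`, `[GA']`, `[GC]` in ELEMENTARY language
("U-language"): cochains are functions on the open subgroup `U ≤ G_ℚ` (resp. on `G_ℚ`, `Γ_q`)
with TRIVIAL coefficients `ZMod p` (resp. level cochains with values in `μ = k(χ)` for `[TR]`),
levels are the induced ones, the decomposition subgroups of `U` are helper97's
`mackeySubgroup (loc q) U g = {γ ∈ Γ_q | g loc(γ) g⁻¹ ∈ U}` with `mackeyLoc : γ ↦ g loc(γ) g⁻¹`.

* `RecipStatement`        [TR-C]  : linear forms `t_q` on `C²(Γ_q, μ)`, vanishing on coboundaries,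
                                    nonzero on cocycles, with `∑_q t_q(res_q z) = 0` for global
                                    level `2`-cocycles `z`   (reciprocity over `ℚ`);
* `GlobalCountUStatement` [GC-U]  : `# ∏ H¹(D_{q,g}) · (# Ш²(U))² ≤ (# H¹(U))²`;
* `BdPairsUStatement`     [GA'-U] : cofinally many `N`: for every two places `g ≠ g'` of `N` over
                                    `p` a level `2`-cocycle of `N`, locally trivial at all other
                                    places over `S`, not locally trivial at both `g` and `g'`.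
The bridges to the frame statements (rows TR-EXT, GC-SHAP, GA-SHAP):
  `TraceOfRecipStatement`, `GlobalCountOfUStatement`, `BdSpanOfPairsStatement`.
-/
import Fermat.Agent.H13.Cft.WaistV4
import Fermat.Agent.H97.Shap.Defs
import Fermat.Agent.H78.CFT.LocalTarget

set_option autoImplicit false

open CategoryTheory ExtCitation

namespace Fermat.Agent.H13.Cft

open Fermat.Agent.H97.Shap Fermat.Agent.H78.CFT

/-! ### Decomposition subgroups of an open subgroup -/

section dec

variable {k G : Type} [CommRing k] [Group G] (𝔄 : ArithDatum k G) (U : Subgroup G)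
  (hU : ∃ N ∈ 𝔄.lvl.sets, N ≤ U)

/-- The level system of the decomposition subgroup `D_{v,g} = {γ ∈ Γ_v | g loc(γ) g⁻¹ ∈ U}`. -/
def decLvl (v : 𝔄.ι) (g : G) : LevelSys (mackeySubgroup (𝔄.loc v) U g) :=
  (𝔄.lvlv v).restrict (mackeySubgroup (𝔄.loc v) U g)
    (mackeySubgroup_open (𝔄.loc v) U g (𝔄.compat v) hU)

/-- The `2`-cochain `c` of `U` (trivial coefficients) is locally trivial at the place `(v, g)`:
its pull-back along `D_{v,g} → U`, `γ ↦ g loc(γ) g⁻¹`, is the coboundary of a level
`1`-cochain of `D_{v,g}`. -/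
def IsLocTriv₂ {A : Type} [AddCommGroup A] (c : U × U → A) (v : 𝔄.ι) (g : G) : Prop :=
  IsLvlCoboundary₂ (decLvl 𝔄 U hU v g)
    (fun x => c (mackeyLoc (𝔄.loc v) U g x.1, mackeyLoc (𝔄.loc v) U g x.2))

/-- `g` and `g'` define the same place of `U` over `v`: `g' ∈ U g loc(Γ_v)`. -/
def SamePlace (v : 𝔄.ι) (g g' : G) : Prop :=
  ∃ (u : U) (γ : 𝔄.Γ v), g' = u * g * 𝔄.loc v γ

/-- `R` is a system of representatives of the places of `U` over `v` (of the double cosets
`U \ G / loc(Γ_v)`). -/
def IsPlaceReps (v : 𝔄.ι) (R : Finset G) : Prop :=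
  ∀ x : G, ∃! g : G, g ∈ R ∧ SamePlace 𝔄 U v g x

end dec

/-! ### `[TR-C]` reciprocity over `ℚ` -/

/-- **[TR-C]** Reciprocity over `ℚ` for `μ_p`: there are linear forms `t_q` (`q ∈ S`) on the level
`2`-cochains of `Γ_q` with values in `μ`, vanishing on the coboundaries, not vanishing on the
cocycles, such that `∑_q t_q(res_q z) = 0` for every level `2`-cocycle `z` of `G_{ℚ,S}` with
values in `μ`.  (`t_q` = a linear extension of the invariant map of `ℚ_q`.) -/
def RecipStatement : Prop :=
  ∀ (p : ℕ) [Fact p.Prime], p ≠ 2 → ∀ (S : Finset Nat.Primes), pPrime p ∈ S →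
    ∀ (hχ : ∃ N ∈ (globalLevelSys S).sets, ∀ s ∈ N, cycloChar p s = 1),
    ∃ t : ∀ v : (arithDatumQ p S hχ).ι,
        lvlCochains ((arithDatumQ p S hχ).lvlv v)
          (Rep.res ((arithDatumQ p S hχ).loc v) (muRep (arithDatumQ p S hχ).χ)) 2
          →ₗ[ZMod p] ZMod p,
      (∀ v (b : lvlCochains ((arithDatumQ p S hχ).lvlv v)
          (Rep.res ((arithDatumQ p S hχ).loc v) (muRep (arithDatumQ p S hχ).χ)) 1),
        t v (lvlD ((arithDatumQ p S hχ).lvlv v)
          (Rep.res ((arithDatumQ p S hχ).loc v) (muRep (arithDatumQ p S hχ).χ)) 1 b) = 0) ∧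
      (∀ v, ∃ a, lvlD ((arithDatumQ p S hχ).lvlv v)
          (Rep.res ((arithDatumQ p S hχ).loc v) (muRep (arithDatumQ p S hχ).χ)) 2 a = 0 ∧
        t v a ≠ 0) ∧
      ∀ z : lvlCochains (arithDatumQ p S hχ).lvl (muRep (arithDatumQ p S hχ).χ) 2,
        lvlD (arithDatumQ p S hχ).lvl (muRep (arithDatumQ p S hχ).χ) 2 z = 0 →
        ∑ v, t v (locRes (arithDatumQ p S hχ) (muRep (arithDatumQ p S hχ).χ) v 2 z) = 0

/-- **[TR-EXT]** (frame row, linear algebra) the trace from reciprocity. -/
def TraceOfRecipStatement : Prop := RecipStatement → TraceNonzeroStatement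

/-! ### `[GC-U]` the count -/

/-- **[GC-U]** The count in elementary language, for `U ≤ G_ℚ` open in `G_{ℚ,S}` with trivial
cyclotomic character (`K = ℚ̄^U`):
* `H¹(U, ZMod p)` (level homomorphisms) is finite;
* there is a finite set `Rsha` of `2`-cochains such that every level `2`-cocycle of `U` which is
  locally trivial at all places `(q, g)`, `q ∈ S`, is cohomologous to an element of `Rsha`
  (so `# Ш²(U) ≤ # Rsha`);
* for every system of representatives of the places of `U` over `S`:
  `∏_{(q,g)} # H¹(D_{q,g}, ZMod p) · (# Rsha)² ≤ (# H¹(U, ZMod p))²`.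
(Classically: `# H¹(K_w) = p^(2 + [K_w : ℚ_p])` resp. `p²`, `# Rsha = # Cl_T(K)[p]`,
`# H¹(U) ≥ p^(r₂ + #T + dim Cl_T(K)[p])`, `∑_{w | p} [K_w : ℚ_p] = [K : ℚ] = 2 r₂`.) -/
def GlobalCountUStatement : Prop :=
  ∀ (p : ℕ) [Fact p.Prime], p ≠ 2 → ∀ (S : Finset Nat.Primes), pPrime p ∈ S →
    ∀ (hχ : ∃ N ∈ (globalLevelSys S).sets, ∀ s ∈ N, cycloChar p s = 1) (U : Subgroup GQ)
      (hU : IsChiOpen (globalLevelSys S) (cycloChar p) U),
    H1Finite ((globalLevelSys S).restrict U hU.1) p ∧
    ∃ Rsha : Finset (U × U → ZMod p),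
      (∀ c : U × U → ZMod p, IsLvl₂ ((globalLevelSys S).restrict U hU.1) c → IsTrivCocycle₂ c →
        (∀ (v : (arithDatumQ p S hχ).ι) (g : GQ),
          IsLocTriv₂ (arithDatumQ p S hχ) U hU.1 c v g) →
        ∃ r ∈ Rsha, IsLvlCoboundary₂ ((globalLevelSys S).restrict U hU.1)
          (fun x => c x - r x)) ∧
      ∀ R : (arithDatumQ p S hχ).ι → Finset GQ,
        (∀ v, IsPlaceReps (arithDatumQ p S hχ) U v (R v)) →
        (∏ v, ∏ g ∈ R v,
            Nat.card {ψ : mackeySubgroup ((arithDatumQ p S hχ).loc v) U g → ZMod p //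
              IsLvlHom (decLvl (arithDatumQ p S hχ) U hU.1 v g) ψ}) * Rsha.card ^ 2
          ≤ Nat.card {ψ : U → ZMod p // IsLvlHom ((globalLevelSys S).restrict U hU.1) ψ} ^ 2

/-- **[GC-SHAP]** (frame row: Shapiro + Mackey + dictionary) the frame statement `[GC]` from the
elementary count and the local statement `[LC]`. -/
def GlobalCountOfUStatement : Prop :=
  GlobalCountUStatement → LocalCohStatement → GlobalCountStatement

/-! ### `[GA'-U]` realisation -/

/-- **[GA'-U]** Realisation of Brauer classes over `p` in elementary language: for every `S`-level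
`N₀` there is an `S`-level `N ≤ N₀` with trivial cyclotomic character such that for any two
DIFFERENT places `g`, `g'` of `N` over `p` there is a level `2`-cocycle of `N` (trivial
coefficients `ZMod p ≅ μ_p`) which is locally trivial at all places over `S` other than `g` and
`g'` and which is not locally trivial at both `g` and `g'`. -/
def BdPairsUStatement : Prop :=
  ∀ (p : ℕ) [Fact p.Prime], p ≠ 2 → ∀ (S : Finset Nat.Primes) (hpS : pPrime p ∈ S)
    (hχ : ∃ N ∈ (globalLevelSys S).sets, ∀ s ∈ N, cycloChar p s = 1),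
    ∀ N₀ ∈ (globalLevelSys S).sets, ∃ (N : Subgroup GQ) (hN : N ∈ (globalLevelSys S).sets),
      N ≤ N₀ ∧ (∀ s ∈ N, cycloChar p s = 1) ∧
      ∀ g g' : GQ, ¬ SamePlace (arithDatumQ p S hχ) N ⟨pPrime p, hpS⟩ g g' →
        ∃ c : N × N → ZMod p,
          IsLvl₂ ((globalLevelSys S).restrict N ⟨N, hN, le_rfl⟩) c ∧ IsTrivCocycle₂ c ∧
          (∀ (v : (arithDatumQ p S hχ).ι) (h : GQ),
            (v ≠ ⟨pPrime p, hpS⟩ ∨
              (¬ SamePlace (arithDatumQ p S hχ) N ⟨pPrime p, hpS⟩ g h ∧
                ¬ SamePlace (arithDatumQ p S hχ) N ⟨pPrime p, hpS⟩ g' h)) →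
            IsLocTriv₂ (arithDatumQ p S hχ) N ⟨N, hN, le_rfl⟩ c v h) ∧
          ¬ (IsLocTriv₂ (arithDatumQ p S hχ) N ⟨N, hN, le_rfl⟩ c ⟨pPrime p, hpS⟩ g ∧
            IsLocTriv₂ (arithDatumQ p S hχ) N ⟨N, hN, le_rfl⟩ c ⟨pPrime p, hpS⟩ g')

/-- **[GA-SHAP]** (frame row: Shapiro + Mackey + dictionary + linear algebra) the frame statement
`[GA']` from the elementary realisation statement and the local statement `[LC]`. -/
def BdSpanOfPairsStatement : Prop :=
  BdPairsUStatement → LocalCohStatement → BdSpanStatement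

/-- The four number-theoretic inputs of `s55Core_of_v4` from the elementary statements and the
bridges. -/
theorem nt_of_elementary (hTRext : TraceOfRecipStatement) (hGCshap : GlobalCountOfUStatement)
    (hGAshap : BdSpanOfPairsStatement)
    (hTR : RecipStatement) (hGA : BdPairsUStatement) (hGC : GlobalCountUStatement)
    (hLC : LocalCohStatement) :
    TraceNonzeroStatement ∧ BdSpanStatement ∧ GlobalCountStatement ∧ LocalCohStatement :=
  ⟨hTRext hTR, hGAshap hGA hLC, hGCshap hGC hLC, hLC⟩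

end Fermat.Agent.H13.Cft
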