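/-
P-CFT (helper13): CURRENT STATE of the reduction of S55 to the NUMBER THEORY in elementary
(field) language (updated as rows land).

`s55_of_nt` : the frozen S55 conclusion from

  NUMBER THEORY (elementary statements, owners helper25 / helper43+helper76 / helper54):
  * `RecipStatement`                               [TR-C]   reciprocity over `ℚ` for `μ_p`;
  * `Fermat.Agent.H76.Cft.PairRealCofStatement`    [PAIR]   realisation of pair classes;
  * `Fermat.Agent.H54.Cft.Sha2BoundElemStatement`  [N6]     `# Ш²(G_S(L), μ_p) ≤ # Cl_T(L)[p]`;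

  BRIDGES (rows still open, see the hypotheses):
  * `TopOntoBdStatement`        (row 937),
  * `GlobalCountOfUStatement`   (row 957 GC-SHAP),  `BdSpanOfPairsStatement` (row 958 GA-SHAP),
  * field language → U-language (rows 964 GA-FIELD, 965 GC-FIELD).

Everything else is discharged by landed theorems (see `FinalV4`), in particular `[LC]`
(helper78's local block), `BdMonoStatement` (helper5), `TraceOfRecipStatement` (helper34).
-/
import Fermat.Agent.H13.Cft.FinalV4
import Fermat.Agent.H13.Cft.ULang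
import Fermat.Agent.H5.Cft.BdMono
import Fermat.Agent.H34.Cft.TraceOfRecip
import Fermat.Agent.H76.Cft.PairInterfaces

set_option autoImplicit false

open CategoryTheory groupCohomology ExtCitation

namespace Fermat.Agent.H13.Cft

/-- S55 from the number theory in U-language and the bridges U-language → frame. -/
theorem s55_of_ulang (hE3 : TopOntoBdStatement)
    (hGCshap : GlobalCountOfUStatement) (hGAshap : BdSpanOfPairsStatement)
    (hTR : RecipStatement) (hGA : BdPairsUStatement) (hGC : GlobalCountUStatement)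
    {p : ℕ} [Fact p.Prime] (hp2 : p ≠ 2) (S : Finset Nat.Primes) (hpS : pPrime p ∈ S)
    (M : Rep (ZMod p) (AlgebraicClosure ℚ ≃ₐ[ℚ] AlgebraicClosure ℚ))
    [FiniteDimensional (ZMod p) M]
    (hsm : ∀ m : M, ∃ F : IntermediateField ℚ (AlgebraicClosure ℚ), FiniteDimensional ℚ F ∧
      ∀ s ∈ F.fixingSubgroup, M.ρ s m = m)
    (hMur : ∀ q : Nat.Primes, q ∉ S → ∀ A : ValuationSubring (AlgebraicClosure ℚ),
      A.LiesOverPrime (q : ℕ) → ∀ g ∈ A.inertiaSubgroupIn ℚ, M.ρ g = 1) :
    ∃ B : sha₁ S (M.dualTwist (cycloChar p)) →ₗ[ZMod p] sha₂ S M →ₗ[ZMod p] ZMod p,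
      (∀ y, (∀ x, B y x = 0) → y = 0) ∧ (∀ x, (∀ y, B y x = 0) → x = 0) :=
  s55_of_open5 hE3 Fermat.Agent.H5.Cft.bdMono (Fermat.Agent.H34.Cft.traceOfRecip hTR)
    (hGAshap hGA Fermat.Agent.H78.CFT.localCoh) (hGCshap hGC Fermat.Agent.H78.CFT.localCoh)
    hp2 S hpS M hsm hMur

/-- S55 from the number theory in field language and all the bridges. -/
theorem s55_of_nt (hE3 : TopOntoBdStatement)
    (hGCshap : GlobalCountOfUStatement) (hGAshap : BdSpanOfPairsStatement)
    (hGAfield : Fermat.Agent.H76.Cft.PairRealCofStatement → BdPairsUStatement)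
    (hGCfield : Fermat.Agent.H54.Cft.Sha2BoundElemStatement → GlobalCountUStatement)
    (hTR : RecipStatement) (hPair : Fermat.Agent.H76.Cft.PairRealCofStatement)
    (hSha : Fermat.Agent.H54.Cft.Sha2BoundElemStatement)
    {p : ℕ} [Fact p.Prime] (hp2 : p ≠ 2) (S : Finset Nat.Primes) (hpS : pPrime p ∈ S)
    (M : Rep (ZMod p) (AlgebraicClosure ℚ ≃ₐ[ℚ] AlgebraicClosure ℚ))
    [FiniteDimensional (ZMod p) M]
    (hsm : ∀ m : M, ∃ F : IntermediateField ℚ (AlgebraicClosure ℚ), FiniteDimensional ℚ F ∧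
      ∀ s ∈ F.fixingSubgroup, M.ρ s m = m)
    (hMur : ∀ q : Nat.Primes, q ∉ S → ∀ A : ValuationSubring (AlgebraicClosure ℚ),
      A.LiesOverPrime (q : ℕ) → ∀ g ∈ A.inertiaSubgroupIn ℚ, M.ρ g = 1) :
    ∃ B : sha₁ S (M.dualTwist (cycloChar p)) →ₗ[ZMod p] sha₂ S M →ₗ[ZMod p] ZMod p,
      (∀ y, (∀ x, B y x = 0) → y = 0) ∧ (∀ x, (∀ y, B y x = 0) → x = 0) :=
  s55_of_ulang hE3 hGCshap hGAshap hTR (hGAfield hPair) (hGCfield hSha) hp2 S hpS M hsm hMur

end Fermat.Agent.H13.Cft
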