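/-
P-CFT (helper13): CURRENT STATE (v6) of the reduction of S55 to the number theory.

Discharged since `FinalV5`:
  * `TopOntoBdStatement`  (row 937, helper37: `Fermat.Agent.H37.Cft.topOntoBdFinal`);
  * field language → U-language for `[GA']` (row 964, helper19:
    `Fermat.Agent.H19.GaField.bdPairsU_of_field`).

`s55_of_nt6` : the frozen S55 conclusion from

  NUMBER THEORY:
  * `TraceNonzeroStatement`                        [TR]    (helper25: RECIP-Q + trace dictionary);
  * `Fermat.Agent.H76.Cft.PairRealCofStatement`    [PAIR]  (helper43 + helper76);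
  * `Fermat.Agent.H54.Cft.Sha2BoundElemStatement`  [N6]    (helper54);

  BRIDGES still open:
  * `GlobalCountOfUStatement`   (row 957 GC-SHAP),  `BdSpanOfPairsStatement` (row 958 GA-SHAP),
  * field language → U-language for `[GC]` (row 965 GC-FIELD).

`s55_of_nt6'` is the same with `[TR]` in the U-language form `RecipStatement`.
-/
import Fermat.Agent.H13.Cft.FinalV5
import Fermat.Agent.H37.Cft.TopOntoBdFinal
import Fermat.Agent.H19.Cft.GaField

set_option autoImplicit false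

open CategoryTheory groupCohomology ExtCitation

namespace Fermat.Agent.H13.Cft

/-- S55 from the number theory (`[TR]` in frame form) and the three open bridges. -/
theorem s55_of_nt6
    (hGCshap : GlobalCountOfUStatement) (hGAshap : BdSpanOfPairsStatement)
    (hGCfield : Fermat.Agent.H54.Cft.Sha2BoundElemStatement → GlobalCountUStatement)
    (hTR : TraceNonzeroStatement) (hPair : Fermat.Agent.H76.Cft.PairRealCofStatement)
    (hSha : Fermat.Agent.H54.Cft.Sha2BoundElemStatement)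
    {p : ℕ} [Fact p.Prime] (hp2 : p ≠ 2) (S : Finset Nat.Primes) (hpS : pPrime p ∈ S)
    (M : Rep (ZMod p) (AlgebraicClosure ℚ ≃ₐ[ℚ] AlgebraicClosure ℚ))
    [FiniteDimensional (ZMod p) M]
    (hsm : ∀ m : M, ∃ F : IntermediateField ℚ (AlgebraicClosure ℚ), FiniteDimensional ℚ F ∧
      ∀ s ∈ F.fixingSubgroup, M.ρ s m = m)
    (hMur : ∀ q : Nat.Primes, q ∉ S → ∀ A : ValuationSubring (AlgebraicClosure ℚ),
      A.LiesOverPrime (q : ℕ) → ∀ g ∈ A.inertiaSubgroupIn ℚ, M.ρ g = 1) :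
    ∃ B : sha₁ S (M.dualTwist (cycloChar p)) →ₗ[ZMod p] sha₂ S M →ₗ[ZMod p] ZMod p,
      (∀ y, (∀ x, B y x = 0) → y = 0) ∧ (∀ x, (∀ y, B y x = 0) → x = 0) :=
  s55_of_open5 Fermat.Agent.H37.Cft.topOntoBdFinal Fermat.Agent.H5.Cft.bdMono hTR
    (hGAshap (Fermat.Agent.H19.GaField.bdPairsU_of_field hPair) Fermat.Agent.H78.CFT.localCoh)
    (hGCshap (hGCfield hSha) Fermat.Agent.H78.CFT.localCoh)
    hp2 S hpS M hsm hMur

/-- The same with `[TR]` in the U-language form `RecipStatement`. -/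
theorem s55_of_nt6'
    (hGCshap : GlobalCountOfUStatement) (hGAshap : BdSpanOfPairsStatement)
    (hGCfield : Fermat.Agent.H54.Cft.Sha2BoundElemStatement → GlobalCountUStatement)
    (hTR : RecipStatement) (hPair : Fermat.Agent.H76.Cft.PairRealCofStatement)
    (hSha : Fermat.Agent.H54.Cft.Sha2BoundElemStatement)
    {p : ℕ} [Fact p.Prime] (hp2 : p ≠ 2) (S : Finset Nat.Primes) (hpS : pPrime p ∈ S)
    (M : Rep (ZMod p) (AlgebraicClosure ℚ ≃ₐ[ℚ] AlgebraicClosure ℚ))
    [FiniteDimensional (ZMod p) M]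
    (hsm : ∀ m : M, ∃ F : IntermediateField ℚ (AlgebraicClosure ℚ), FiniteDimensional ℚ F ∧
      ∀ s ∈ F.fixingSubgroup, M.ρ s m = m)
    (hMur : ∀ q : Nat.Primes, q ∉ S → ∀ A : ValuationSubring (AlgebraicClosure ℚ),
      A.LiesOverPrime (q : ℕ) → ∀ g ∈ A.inertiaSubgroupIn ℚ, M.ρ g = 1) :
    ∃ B : sha₁ S (M.dualTwist (cycloChar p)) →ₗ[ZMod p] sha₂ S M →ₗ[ZMod p] ZMod p,
      (∀ y, (∀ x, B y x = 0) → y = 0) ∧ (∀ x, (∀ y, B y x = 0) → x = 0) :=
  s55_of_nt6 hGCshap hGAshap hGCfield (Fermat.Agent.H34.Cft.traceOfRecip hTR) hPair hSha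
    hp2 S hpS M hsm hMur

end Fermat.Agent.H13.Cft
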