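/-
P-CFT (helper13): CURRENT STATE (v7) of the reduction of S55 to the number theory.

Discharged since `FinalV6`:
  * `GlobalCountOfUStatement` (row 957 GC-SHAP, helper77: `Fermat.Agent.H77.globalCountOfU`);
  * field language → U-language for `[GC]` modulo the place count (row 965 GC-FIELD, helper79:
    `Fermat.Agent.H79.GC.globalCountU_of_placeCount`).

`s55_of_nt7` : the frozen S55 conclusion from

  NUMBER THEORY:
  * `TraceNonzeroStatement`                        [TR]    (helper25 / helper78: RECIP-Q);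
  * `Fermat.Agent.H76.Cft.PairRealCofStatement`    [PAIR]  (helper43 + helper76);
  * `Fermat.Agent.H54.Cft.Sha2BoundElemStatement`  [N6]    (helper54);

  BRIDGES still open:
  * `BdSpanOfPairsStatement`                       (row 958 GA-SHAP),
  * `Fermat.Agent.H76.Cft.PlaceCountStatement`     (rows 984 / 1007).

`s55_of_nt7'` is the same with `[TR]` in the U-language form `RecipStatement`.
-/
import Fermat.Agent.H13.Cft.FinalV6
import Fermat.Agent.H77.GcShap.Main
import Fermat.Agent.H79.GC.Final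

set_option autoImplicit false

open CategoryTheory groupCohomology ExtCitation

namespace Fermat.Agent.H13.Cft

/-- S55 from the number theory (`[TR]` in frame form) and the two open bridges. -/
theorem s55_of_nt7
    (hGAshap : BdSpanOfPairsStatement)
    (hPC : Fermat.Agent.H76.Cft.PlaceCountStatement)
    (hTR : TraceNonzeroStatement) (hPair : Fermat.Agent.H76.Cft.PairRealCofStatement)
    (hSha : Fermat.Agent.H54.Cft.Sha2BoundElemStatement)
    {p : ℕ} [Fact p.Prime] (hp2 : p ≠ 2) (S : Finset Nat.Primes) (hpS : pPrime p ∈ S)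
    (M : Rep (ZMod p) (AlgebraicClosure ℚ ≃ₐ[ℚ] AlgebraicClosure ℚ))
    [FiniteDimensional (ZMod p) M]
    (hsm : ∀ m : M, ∃ F : IntermediateField ℚ (AlgebraicClosure ℚ), FiniteDimensional ℚ F ∧
      ∀ s ∈ F.fixingSubgroup, M.ρ s m = m)
    (hMur : ∀ q : Nat.Primes, q ∉ S → ∀ A : ValuationSubring (AlgebraicClosure ℚ),
      A.LiesOverPrime (q : ℕ) → ∀ g ∈ A.inertiaSubgroupIn ℚ, M.ρ g = 1) :
    ∃ B : sha₁ S (M.dualTwist (cycloChar p)) →ₗ[ZMod p] sha₂ S M →ₗ[ZMod p] ZMod p,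
      (∀ y, (∀ x, B y x = 0) → y = 0) ∧ (∀ x, (∀ y, B y x = 0) → x = 0) :=
  s55_of_nt6 Fermat.Agent.H77.globalCountOfU hGAshap
    (Fermat.Agent.H79.GC.globalCountU_of_placeCount hPC) hTR hPair hSha hp2 S hpS M hsm hMur

/-- The same with `[TR]` in the U-language form `RecipStatement`. -/
theorem s55_of_nt7'
    (hGAshap : BdSpanOfPairsStatement)
    (hPC : Fermat.Agent.H76.Cft.PlaceCountStatement)
    (hTR : RecipStatement) (hPair : Fermat.Agent.H76.Cft.PairRealCofStatement)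
    (hSha : Fermat.Agent.H54.Cft.Sha2BoundElemStatement)
    {p : ℕ} [Fact p.Prime] (hp2 : p ≠ 2) (S : Finset Nat.Primes) (hpS : pPrime p ∈ S)
    (M : Rep (ZMod p) (AlgebraicClosure ℚ ≃ₐ[ℚ] AlgebraicClosure ℚ))
    [FiniteDimensional (ZMod p) M]
    (hsm : ∀ m : M, ∃ F : IntermediateField ℚ (AlgebraicClosure ℚ), FiniteDimensional ℚ F ∧
      ∀ s ∈ F.fixingSubgroup, M.ρ s m = m)
    (hMur : ∀ q : Nat.Primes, q ∉ S → ∀ A : ValuationSubring (AlgebraicClosure ℚ),
      A.LiesOverPrime (q : ℕ) → ∀ g ∈ A.inertiaSubgroupIn ℚ, M.ρ g = 1) :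
    ∃ B : sha₁ S (M.dualTwist (cycloChar p)) →ₗ[ZMod p] sha₂ S M →ₗ[ZMod p] ZMod p,
      (∀ y, (∀ x, B y x = 0) → y = 0) ∧ (∀ x, (∀ y, B y x = 0) → x = 0) :=
  s55_of_nt7 hGAshap hPC (Fermat.Agent.H34.Cft.traceOfRecip hTR) hPair hSha
    hp2 S hpS M hsm hMur

end Fermat.Agent.H13.Cft
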