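/-
P-CFT (helper13): CURRENT STATE (v9) of the reduction of S55: ONLY `[TR]` IS OPEN.

Discharged since `FinalV8`:
  * `Fermat.Agent.H76.Cft.PairRealCofStatement`   [PAIR]  (helper43: `pairRealCof`);
  * `Fermat.Agent.H54.Cft.Sha2BoundElemStatement` [N6]    (helper54: `sha2BoundElem`, on top of
    the Hasse principle of helper97's block);
  * `Fermat.Agent.H76.Cft.PlaceCountStatement`            (helper61 / helper79: `placeCountH76`).

* `s55_of_trace`  : S55 from `TraceNonzeroStatement`;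
* `s55_of_recip`  : S55 from `RecipStatement` (U-language reciprocity);
* `s55_of_recipQ` : S55 from helper25's `RecipQStatement` (reciprocity law for `Br(ℚ)[p]`) and the
  three dictionary leaves `TraceDict`, `TraceKummer`, `TraceUnram` (helper78's `recip_of`).
-/
import Fermat.Agent.H13.Cft.FinalV8
import Fermat.Agent.H43.Cft.PairRealFinal
import Fermat.Agent.H54.Cft.Sha2Final
import Fermat.Agent.H79.GC.Uncond
import Fermat.Agent.H78.CFT.LocalTraceForm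

set_option autoImplicit false

open CategoryTheory groupCohomology ExtCitation

namespace Fermat.Agent.H13.Cft

/-- S55 from `[TR]` in frame form. -/
theorem s55_of_trace (hTR : TraceNonzeroStatement)
    {p : ℕ} [Fact p.Prime] (hp2 : p ≠ 2) (S : Finset Nat.Primes) (hpS : pPrime p ∈ S)
    (M : Rep (ZMod p) (AlgebraicClosure ℚ ≃ₐ[ℚ] AlgebraicClosure ℚ))
    [FiniteDimensional (ZMod p) M]
    (hsm : ∀ m : M, ∃ F : IntermediateField ℚ (AlgebraicClosure ℚ), FiniteDimensional ℚ F ∧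
      ∀ s ∈ F.fixingSubgroup, M.ρ s m = m)
    (hMur : ∀ q : Nat.Primes, q ∉ S → ∀ A : ValuationSubring (AlgebraicClosure ℚ),
      A.LiesOverPrime (q : ℕ) → ∀ g ∈ A.inertiaSubgroupIn ℚ, M.ρ g = 1) :
    ∃ B : sha₁ S (M.dualTwist (cycloChar p)) →ₗ[ZMod p] sha₂ S M →ₗ[ZMod p] ZMod p,
      (∀ y, (∀ x, B y x = 0) → y = 0) ∧ (∀ x, (∀ y, B y x = 0) → x = 0) :=
  s55_of_nt8 Fermat.Agent.H79.GC.placeCountH76 hTR Fermat.Agent.H43.Cft.pairRealCof
    Fermat.Agent.H54.Cft.sha2BoundElem hp2 S hpS M hsm hMur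

/-- S55 from `[TR]` in the U-language form `RecipStatement`. -/
theorem s55_of_recip (hTR : RecipStatement)
    {p : ℕ} [Fact p.Prime] (hp2 : p ≠ 2) (S : Finset Nat.Primes) (hpS : pPrime p ∈ S)
    (M : Rep (ZMod p) (AlgebraicClosure ℚ ≃ₐ[ℚ] AlgebraicClosure ℚ))
    [FiniteDimensional (ZMod p) M]
    (hsm : ∀ m : M, ∃ F : IntermediateField ℚ (AlgebraicClosure ℚ), FiniteDimensional ℚ F ∧
      ∀ s ∈ F.fixingSubgroup, M.ρ s m = m)
    (hMur : ∀ q : Nat.Primes, q ∉ S → ∀ A : ValuationSubring (AlgebraicClosure ℚ),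
      A.LiesOverPrime (q : ℕ) → ∀ g ∈ A.inertiaSubgroupIn ℚ, M.ρ g = 1) :
    ∃ B : sha₁ S (M.dualTwist (cycloChar p)) →ₗ[ZMod p] sha₂ S M →ₗ[ZMod p] ZMod p,
      (∀ y, (∀ x, B y x = 0) → y = 0) ∧ (∀ x, (∀ y, B y x = 0) → x = 0) :=
  s55_of_trace (Fermat.Agent.H34.Cft.traceOfRecip hTR) hp2 S hpS M hsm hMur

/-- S55 from the reciprocity law for `Br(ℚ)[p]` and the three dictionary leaves. -/
theorem s55_of_recipQ (hRQ : Fermat.Agent.H25.Recip.RecipQStatement)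
    (hD : Fermat.Agent.H25.Recip.TraceDictStatement)
    (hK : Fermat.Agent.H25.Recip.TraceKummerStatement)
    (hU : Fermat.Agent.H25.Recip.TraceUnramStatement)
    {p : ℕ} [Fact p.Prime] (hp2 : p ≠ 2) (S : Finset Nat.Primes) (hpS : pPrime p ∈ S)
    (M : Rep (ZMod p) (AlgebraicClosure ℚ ≃ₐ[ℚ] AlgebraicClosure ℚ))
    [FiniteDimensional (ZMod p) M]
    (hsm : ∀ m : M, ∃ F : IntermediateField ℚ (AlgebraicClosure ℚ), FiniteDimensional ℚ F ∧
      ∀ s ∈ F.fixingSubgroup, M.ρ s m = m)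
    (hMur : ∀ q : Nat.Primes, q ∉ S → ∀ A : ValuationSubring (AlgebraicClosure ℚ),
      A.LiesOverPrime (q : ℕ) → ∀ g ∈ A.inertiaSubgroupIn ℚ, M.ρ g = 1) :
    ∃ B : sha₁ S (M.dualTwist (cycloChar p)) →ₗ[ZMod p] sha₂ S M →ₗ[ZMod p] ZMod p,
      (∀ y, (∀ x, B y x = 0) → y = 0) ∧ (∀ x, (∀ y, B y x = 0) → x = 0) :=
  s55_of_recip (Fermat.Agent.H78.CFT.recip_of hRQ hD hK hU) hp2 S hpS M hsm hMur

end Fermat.Agent.H13.Cft
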