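/-
P-CFT (helper13): CURRENT STATE (v10) of the reduction of S55.

Discharged since `FinalV9`:
  * `TraceDictStatement`  (row 1033, helper62: `Fermat.Agent.H62.Cft.traceDict`);
  * `TraceUnramStatement` (row 1036, helper53 + helper49: `Fermat.Agent.H53.traceUnramU`).

`s55_of_recipQ_kummer` : S55 from
  * `Fermat.Agent.H25.Recip.RecipQStatement`      (helper25: the reciprocity law for `Br(ℚ)[p]`);
  * `Fermat.Agent.H25.Recip.TraceKummerStatement` (row 1034, helper40).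
-/
import Fermat.Agent.H13.Cft.FinalV9
import Fermat.Agent.H62.Cft.TraceDict
import Fermat.Agent.H53.Cft.TraceUnramFinal

set_option autoImplicit false

open CategoryTheory groupCohomology ExtCitation

namespace Fermat.Agent.H13.Cft

/-- S55 from the reciprocity law for `Br(ℚ)[p]` and the Kummer leaf. -/
theorem s55_of_recipQ_kummer (hRQ : Fermat.Agent.H25.Recip.RecipQStatement)
    (hK : Fermat.Agent.H25.Recip.TraceKummerStatement)
    {p : ℕ} [Fact p.Prime] (hp2 : p ≠ 2) (S : Finset Nat.Primes) (hpS : pPrime p ∈ S)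
    (M : Rep (ZMod p) (AlgebraicClosure ℚ ≃ₐ[ℚ] AlgebraicClosure ℚ))
    [FiniteDimensional (ZMod p) M]
    (hsm : ∀ m : M, ∃ F : IntermediateField ℚ (AlgebraicClosure ℚ), FiniteDimensional ℚ F ∧
      ∀ s ∈ F.fixingSubgroup, M.ρ s m = m)
    (hMur : ∀ q : Nat.Primes, q ∉ S → ∀ A : ValuationSubring (AlgebraicClosure ℚ),
      A.LiesOverPrime (q : ℕ) → ∀ g ∈ A.inertiaSubgroupIn ℚ, M.ρ g = 1) :
    ∃ B : sha₁ S (M.dualTwist (cycloChar p)) →ₗ[ZMod p] sha₂ S M →ₗ[ZMod p] ZMod p,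
      (∀ y, (∀ x, B y x = 0) → y = 0) ∧ (∀ x, (∀ y, B y x = 0) → x = 0) :=
  s55_of_recipQ hRQ Fermat.Agent.H62.Cft.traceDict hK Fermat.Agent.H53.traceUnramU
    hp2 S hpS M hsm hMur

end Fermat.Agent.H13.Cft
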