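/-
P-CFT (helper13): CURRENT STATE of the reduction of S55, v3 (updated as rows land).

`s55_of_open` : the frozen S55 conclusion from
  * the three number-theoretic inputs  `TraceRealStatement` [TR+GA'], `GlobalCountStatement` [GC],
    `LocalCohStatement` [LC]                                        (`WaistV3`, `WaistV2`), and
  * the frame statements which are still open (see the hypotheses).

Discharged here (landed by helpers): `CycloLevelStatement` (helper94), `AdmStatement` (helper21),
`BridgeStatement` (helper58), `PermInductionStatement` (helper42), `ThetaCommStatement` (helper98),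
`LThetaCommStatement` (helper7), `DsEpiStatement` (helper4), `SumMonoStatement` (helper80),
`DualZeroStatement` and `LDualZero1Statement` (helper98), `GoodSubStatement`, `PermGoodStatement`,
`AdditiveStatement` (helper86), `FinDevissageStatement`, `VanishDevissageStatement` (helper5),
`LTraceOfTraceStatement` (helper26), `LocFiniteStatement` (helper75); the local assembly
`localOnto_of_v2` is helper85's.
-/
import Fermat.Agent.H13.Cft.WaistV3
import Fermat.Agent.H94.Cft.CycloLevel
import Fermat.Agent.H21.Cft.Adm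
import Fermat.Agent.H58.Cft.BridgeFinal
import Fermat.Agent.H98.Cft.ThetaComm
import Fermat.Agent.H7.Cft.LComm
import Fermat.Agent.H4.CFT.DsEpi
import Fermat.Agent.H80.CFT.SumMono
import Fermat.Agent.H98.Cft.DualZero
import Fermat.Agent.H86.CftSmall
import Fermat.Agent.H5.Cft.Devissage
import Fermat.Agent.H26.Cft.LTraceOfTrace
import Fermat.Agent.H75.LocFinite

set_option autoImplicit false

open CategoryTheory groupCohomology ExtCitation

namespace Fermat.Agent.H13.Cft

/-- The core statement of S55 from the open statements. -/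
theorem s55Core_of_open
    (hdsr : DsEpiRelStatement.{0}) (hsumr : SumMonoRelStatement.{0})
    (hbd : BdRangeNatStatement.{0}) (hE3 : TopOntoBdStatement)
    (heff : EffaceStatement.{0}) (hLE2 : LTopOntoStatement) (hLM2 : LTopMonoStatement)
    (hM2 : CountMonoStatement)
    (hTR : TraceRealStatement) (hGC : GlobalCountStatement) (hLC : LocalCohStatement) :
    S55CoreStatement :=
  s55Core_of_v3 Fermat.Agent.H94.Cft.cycloLevel Fermat.Agent.H21.Cft.admStatement
    Fermat.Agent.H58.Cft.bridgeStatement Fermat.Agent.H42.Cft.permInduction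
    Fermat.Agent.H98.Cft.thetaCommStatement Fermat.Agent.H7.Cft.lThetaComm
    Fermat.Agent.H4.CFT.dsEpi hdsr heff Fermat.Agent.H80.CFT.sumMono hsumr
    Fermat.Agent.H98.Cft.DZ.dualZero (fun g => Fermat.Agent.H98.Cft.DZ.lDualZero_one g)
    Fermat.Agent.H86.CftSmall.goodSub Fermat.Agent.H86.CftSmall.permGood
    Fermat.Agent.H86.CftSmall.additive hbd
    Fermat.Agent.H5.Cft.finDevissage Fermat.Agent.H5.Cft.vanishDevissage
    hE3 hLE2 hLM2 hM2 Fermat.Agent.H26.Cft.lTraceOfTraceStatement
    Fermat.Agent.H75.LocFin.locFinite hTR hGC hLC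

/-- S55 from the open statements. -/
theorem s55_of_open
    (hdsr : DsEpiRelStatement.{0}) (hsumr : SumMonoRelStatement.{0})
    (hbd : BdRangeNatStatement.{0}) (hE3 : TopOntoBdStatement)
    (heff : EffaceStatement.{0}) (hLE2 : LTopOntoStatement) (hLM2 : LTopMonoStatement)
    (hM2 : CountMonoStatement)
    (hTR : TraceRealStatement) (hGC : GlobalCountStatement) (hLC : LocalCohStatement)
    {p : ℕ} [Fact p.Prime] (hp2 : p ≠ 2) (S : Finset Nat.Primes) (hpS : pPrime p ∈ S)
    (M : Rep (ZMod p) (AlgebraicClosure ℚ ≃ₐ[ℚ] AlgebraicClosure ℚ))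
    [FiniteDimensional (ZMod p) M]
    (hsm : ∀ m : M, ∃ F : IntermediateField ℚ (AlgebraicClosure ℚ), FiniteDimensional ℚ F ∧
      ∀ s ∈ F.fixingSubgroup, M.ρ s m = m)
    (hMur : ∀ q : Nat.Primes, q ∉ S → ∀ A : ValuationSubring (AlgebraicClosure ℚ),
      A.LiesOverPrime (q : ℕ) → ∀ g ∈ A.inertiaSubgroupIn ℚ, M.ρ g = 1) :
    ∃ B : sha₁ S (M.dualTwist (cycloChar p)) →ₗ[ZMod p] sha₂ S M →ₗ[ZMod p] ZMod p,
      (∀ y, (∀ x, B y x = 0) → y = 0) ∧ (∀ x, (∀ y, B y x = 0) → x = 0) :=
  s55_of_core (s55Core_of_open hdsr hsumr hbd hE3 heff hLE2 hLM2 hM2 hTR hGC hLC)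
    hp2 S hpS M hsm hMur

end Fermat.Agent.H13.Cft
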